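import Mathlib

/-!
# S52 block TR: shared definitions (import this file; do not redefine these names)
-/

set_option autoImplicit false

namespace Fermat.Agent.Lib

open WeierstrassCurve Polynomial

/-- max degree of a triple of polynomials -/
noncomputable def ft_mdeg {k : Type*} [Field k] (v : Fin 3 → k[X]) : ℕ :=
  max (v 0).natDegree (max (v 1).natDegree (v 2).natDegree)

/-- primitive: no common irreducible factor -/
def ft_prim {k : Type*} [Field k] (v : Fin 3 → k[X]) : Prop :=
  ∀ π : k[X], Irreducible π → ¬ (∀ i, π ∣ v i)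

/-- `p/q` is the x-coordinate of `S` in lowest terms (`S = 0` ↔ `q = 0`, then `p` is a unit). -/
def ft_isXRatio {k : Type*} [Field k] {L : Type*} [Field L] [Algebra k[X] L]
    {W : WeierstrassCurve L} (S : W.toAffine.Point) (p q : k[X]) : Prop :=
  IsCoprime p q ∧ S.xRep 0 * algebraMap k[X] L q = S.xRep 1 * algebraMap k[X] L p

/-- The residue ring hom `R → κ(𝒪)` for a valuation subring `𝒪` of `K` containing the image of `R`. -/
noncomputable def ft_resHom {R : Type*} [CommRing R] {K : Type*} [Field K] [Algebra R K]
    (𝒪 : ValuationSubring K) (h𝒪 : ∀ r : R, algebraMap R K r ∈ 𝒪) :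
    R →+* IsLocalRing.ResidueField 𝒪 :=
  (IsLocalRing.residue 𝒪).comp ((algebraMap R K).codRestrict 𝒪.toSubring h𝒪)

end Fermat.Agent.Lib
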