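import Mathlib
import Fermat.Agent.Lib.FrobTrace.Defs

/-!
# Block PAR of the Frobenius trace theorem: Gauss lemma for triples (B2b, B2c)
-/

set_option autoImplicit false

namespace Fermat.Agent.Lib

open WeierstrassCurve Polynomial

section
variable {k : Type*} [Field k]

theorem ft_mdeg_le_iff (v : Fin 3 → k[X]) (n : ℕ) :
    ft_mdeg v ≤ n ↔ ∀ i, (v i).natDegree ≤ n := by
  unfold ft_mdeg
  rw [max_le_iff, max_le_iff]
  constructor
  · rintro ⟨h0, h1, h2⟩ i
    fin_cases i
    · exact h0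
    · exact h1
    · exact h2
  · intro h
    exact ⟨h 0, h 1, h 2⟩

theorem ft_natDegree_le_mdeg (v : Fin 3 → k[X]) (i : Fin 3) : (v i).natDegree ≤ ft_mdeg v :=
  (ft_mdeg_le_iff v _).mp le_rfl i

theorem ft_mdeg_exists (v : Fin 3 → k[X]) : ∃ i, (v i).natDegree = ft_mdeg v := by
  unfold ft_mdeg
  rcases max_choice (v 0).natDegree (max (v 1).natDegree (v 2).natDegree) with h | h
  · exact ⟨0, h.symm⟩
  · rw [h]
    rcases max_choice (v 1).natDegree (v 2).natDegree with h' | h'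
    · exact ⟨1, h'.symm⟩
    · exact ⟨2, h'.symm⟩

theorem ft_prim_ne_zero {v : Fin 3 → k[X]} (hv : ft_prim v) : ∃ i, v i ≠ 0 := by
  by_contra h
  push Not at h
  exact hv X irreducible_X fun i => by rw [h i]; exact dvd_zero _

/-- The coefficients of a primitive triple at the maximal degree are not all zero. -/
theorem ft_prim_coeff_ne {v : Fin 3 → k[X]} (hv : ft_prim v) :
    ∃ i, (v i).coeff (ft_mdeg v) ≠ 0 := by
  obtain ⟨i₀, hi₀⟩ := ft_mdeg_exists v
  by_cases h0 : v i₀ = 0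
  · have hn : ft_mdeg v = 0 := by rw [← hi₀, h0, natDegree_zero]
    obtain ⟨j, hj⟩ := ft_prim_ne_zero hv
    refine ⟨j, ?_⟩
    have hle : (v j).natDegree ≤ 0 := hn ▸ ft_natDegree_le_mdeg v j
    rw [hn]
    intro hc
    apply hj
    rw [eq_C_of_natDegree_le_zero hle, hc, C_0]
  · refine ⟨i₀, ?_⟩
    rw [← hi₀]
    exact leadingCoeff_ne_zero.mpr h0

/-- If all coefficients at degree `n` of a triple of degree `≤ n` … the converse bound. -/
theorem ft_mdeg_eq_of_coeff_ne {v : Fin 3 → k[X]} {n : ℕ} (hle : ∀ i, (v i).natDegree ≤ n)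
    (hne : ∃ i, (v i).coeff n ≠ 0) : ft_mdeg v = n := by
  apply le_antisymm ((ft_mdeg_le_iff v n).mpr hle)
  obtain ⟨i, hi⟩ := hne
  by_contra hlt
  push Not at hlt
  exact hi (coeff_eq_zero_of_natDegree_lt (lt_of_le_of_lt (ft_natDegree_le_mdeg v i) hlt))

/-- Bezout for a primitive triple. -/
theorem ft_prim_bezout {v : Fin 3 → k[X]} (hv : ft_prim v) :
    ∃ r : Fin 3 → k[X], ∑ i, r i * v i = 1 := by
  have hprinc : (Ideal.span (Set.range v)).IsPrincipal := IsPrincipalIdealRing.principal _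
  obtain ⟨g, hg⟩ := hprinc.principal
  have hgv : ∀ i, g ∣ v i := by
    intro i
    have : v i ∈ Ideal.span (Set.range v) := Ideal.subset_span ⟨i, rfl⟩
    rw [hg] at this
    exact Ideal.mem_span_singleton.mp this
  have hgu : IsUnit g := by
    by_contra hu
    by_cases h0 : g = 0
    · obtain ⟨j, hj⟩ := ft_prim_ne_zero hv
      apply hj
      have := hgv j
      rw [h0] at this
      exact zero_dvd_iff.mp this
    · obtain ⟨π, hπ, hπg⟩ := WfDvdMonoid.exists_irreducible_factor hu h0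
      exact hv π hπ fun i => hπg.trans (hgv i)
  have h1 : (1 : k[X]) ∈ Ideal.span (Set.range v) := by
    rw [hg]
    exact Ideal.mem_span_singleton.mpr hgu.dvd
  exact (Ideal.mem_span_range_iff_exists_fun).mp h1

theorem ft_pair_coeff_ne {p q : k[X]} (h : IsCoprime p q) :
    p.coeff (max p.natDegree q.natDegree) ≠ 0 ∨ q.coeff (max p.natDegree q.natDegree) ≠ 0 := by
  rcases max_choice p.natDegree q.natDegree with hm | hm
  · by_cases hp : p = 0
    · right
      have hq : IsUnit q := by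
        rw [hp] at h
        exact isCoprime_zero_left.mp h
      have hq0 : q ≠ 0 := hq.ne_zero
      have hqd : q.natDegree = 0 := natDegree_eq_zero_of_isUnit hq
      rw [hp, natDegree_zero, hqd, max_self]
      rw [← hqd]
      exact leadingCoeff_ne_zero.mpr hq0
    · left
      rw [hm]
      exact leadingCoeff_ne_zero.mpr hp
  · by_cases hq : q = 0
    · left
      have hp : IsUnit p := by
        rw [hq] at h
        exact isCoprime_zero_right.mp h
      have hp0 : p ≠ 0 := hp.ne_zero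
      have hpd : p.natDegree = 0 := natDegree_eq_zero_of_isUnit hp
      rw [hq, natDegree_zero, hpd, max_self]
      rw [← hpd]
      exact leadingCoeff_ne_zero.mpr hp0
    · right
      rw [hm]
      exact leadingCoeff_ne_zero.mpr hq

/-- B2b: Gauss lemma for (q₁X − p₁)(q₂X − p₂). -/
theorem ft_ht_sym {k : Type*} [Field k] (p₁ q₁ p₂ q₂ : k[X]) (h₁ : IsCoprime p₁ q₁)
    (h₂ : IsCoprime p₂ q₂) :
    ft_prim ![p₁ * p₂, p₁ * q₂ + q₁ * p₂, q₁ * q₂] ∧
    ft_mdeg ![p₁ * p₂, p₁ * q₂ + q₁ * p₂, q₁ * q₂]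
      = max p₁.natDegree q₁.natDegree + max p₂.natDegree q₂.natDegree := by
  constructor
  · intro π hπ hdiv
    have hp := hπ.prime
    have d0 : π ∣ p₁ * p₂ := hdiv 0
    have d1 : π ∣ p₁ * q₂ + q₁ * p₂ := hdiv 1
    have d2 : π ∣ q₁ * q₂ := hdiv 2
    have hnu : ¬ IsUnit π := hπ.not_isUnit
    rcases hp.dvd_or_dvd d0 with hp₁ | hp₂
    · have hq₁ : ¬ π ∣ q₁ := fun hq₁ => hnu (h₁.isUnit_of_dvd' hp₁ hq₁)
      have hq₂ : π ∣ q₂ := (hp.dvd_or_dvd d2).resolve_left hq₁
      have h3 : π ∣ q₁ * p₂ := (dvd_add_right (hp₁.mul_right q₂)).mp d1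
      have hp₂ : π ∣ p₂ := (hp.dvd_or_dvd h3).resolve_left hq₁
      exact hnu (h₂.isUnit_of_dvd' hp₂ hq₂)
    · have hq₂ : ¬ π ∣ q₂ := fun hq₂ => hnu (h₂.isUnit_of_dvd' hp₂ hq₂)
      have hq₁ : π ∣ q₁ := (hp.dvd_or_dvd d2).resolve_right hq₂
      have h3 : π ∣ p₁ * q₂ := (dvd_add_left (hp₂.mul_left q₁)).mp d1
      have hp₁ : π ∣ p₁ := (hp.dvd_or_dvd h3).resolve_right hq₂
      exact hnu (h₁.isUnit_of_dvd' hp₁ hq₁)
  · set n₁ := max p₁.natDegree q₁.natDegree with hn₁
    set n₂ := max p₂.natDegree q₂.natDegree with hn₂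
    have hp₁ : p₁.natDegree ≤ n₁ := le_max_left _ _
    have hq₁ : q₁.natDegree ≤ n₁ := le_max_right _ _
    have hp₂ : p₂.natDegree ≤ n₂ := le_max_left _ _
    have hq₂ : q₂.natDegree ≤ n₂ := le_max_right _ _
    apply ft_mdeg_eq_of_coeff_ne
    · intro i
      fin_cases i
      · exact natDegree_mul_le_of_le hp₁ hp₂
      · exact natDegree_add_le_of_degree_le (natDegree_mul_le_of_le hp₁ hq₂)
          (natDegree_mul_le_of_le hq₁ hp₂)
      · exact natDegree_mul_le_of_le hq₁ hq₂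
    · by_contra hall
      push Not at hall
      have c0 := hall 0
      have c1 := hall 1
      have c2 := hall 2
      simp only [Matrix.cons_val_zero, Matrix.cons_val_one, Matrix.cons_val] at c0 c1 c2
      rw [coeff_mul_add_eq_of_natDegree_le hp₁ hp₂] at c0
      rw [coeff_add, coeff_mul_add_eq_of_natDegree_le hp₁ hq₂, coeff_mul_add_eq_of_natDegree_le hq₁ hp₂] at c1
      rw [coeff_mul_add_eq_of_natDegree_le hq₁ hq₂] at c2
      have ne₁ := ft_pair_coeff_ne h₁
      have ne₂ := ft_pair_coeff_ne h₂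
      rw [← hn₁] at ne₁
      rw [← hn₂] at ne₂
      rcases mul_eq_zero.mp c0 with ha | ha
      · have hb₁ : q₁.coeff n₁ ≠ 0 := ne₁.resolve_left (not_not.mpr ha)
        have hb₂ : q₂.coeff n₂ = 0 := (mul_eq_zero.mp c2).resolve_left hb₁
        have ha₂ : p₂.coeff n₂ ≠ 0 := ne₂.resolve_right (not_not.mpr hb₂)
        rw [ha, zero_mul, zero_add] at c1
        exact (mul_ne_zero hb₁ ha₂) c1
      · have hb₂ : q₂.coeff n₂ ≠ 0 := ne₂.resolve_left (not_not.mpr ha)
        have hb₁ : q₁.coeff n₁ = 0 := (mul_eq_zero.mp c2).resolve_right hb₂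
        have ha₁ : p₁.coeff n₁ ≠ 0 := ne₁.resolve_right (not_not.mpr hb₁)
        rw [hb₁, zero_mul, add_zero] at c1
        exact (mul_ne_zero ha₁ hb₂) c1

/-- B2c: proportional primitive triples differ by a nonzero constant. -/
theorem ft_ht_unique {k : Type*} [Field k] (v w : Fin 3 → k[X]) (hv : ft_prim v) (hw : ft_prim w)
    (a b : k[X]) (ha : a ≠ 0) (_hb : b ≠ 0) (h : a • v = b • w) :
    ∃ c : k, c ≠ 0 ∧ v = (C c) • w := by
  have hi : ∀ i, a * v i = b * w i := fun i => by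
    have := congrFun h i
    simpa [Pi.smul_apply, smul_eq_mul] using this
  obtain ⟨r, hr⟩ := ft_prim_bezout hv
  obtain ⟨s, hs⟩ := ft_prim_bezout hw
  have hba : b ∣ a := by
    refine ⟨∑ i, r i * w i, ?_⟩
    calc a = a * ∑ i, r i * v i := by rw [hr, mul_one]
      _ = ∑ i, r i * (a * v i) := by
          rw [Finset.mul_sum]; exact Finset.sum_congr rfl fun i _ => by ring
      _ = ∑ i, r i * (b * w i) := by simp only [hi]
      _ = b * ∑ i, r i * w i := by
          rw [Finset.mul_sum]; exact Finset.sum_congr rfl fun i _ => by ring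
  have hab : a ∣ b := by
    refine ⟨∑ i, s i * v i, ?_⟩
    calc b = b * ∑ i, s i * w i := by rw [hs, mul_one]
      _ = ∑ i, s i * (b * w i) := by
          rw [Finset.mul_sum]; exact Finset.sum_congr rfl fun i _ => by ring
      _ = ∑ i, s i * (a * v i) := by simp only [hi]
      _ = a * ∑ i, s i * v i := by
          rw [Finset.mul_sum]; exact Finset.sum_congr rfl fun i _ => by ring
  obtain ⟨u, hu⟩ := (associated_of_dvd_dvd hab hba)
  -- `a * u = b`
  obtain ⟨c, hc, hcu⟩ := Polynomial.isUnit_iff.mp u.isUnit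
  have hc0 : c ≠ 0 := hc.ne_zero
  refine ⟨c, hc0, ?_⟩
  funext i
  have h1 : a * v i = a * (C c * w i) := by
    rw [hi i, ← hu, ← hcu]; ring
  simpa [Pi.smul_apply, smul_eq_mul] using mul_left_cancel₀ ha h1

end

end Fermat.Agent.Lib
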