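import Mathlib
import Fermat.Agent.Lib.FrobTrace.ParGauss

/-!
# Block PAR of the Frobenius trace theorem: exact height doubling (B2a)

The addition-and-subtraction map `WeierstrassCurve.addSubMap` of an elliptic curve over a field `k`
sends a primitive triple of polynomials of maximal degree `n` to a primitive triple of maximal
degree `2 n`.
-/

set_option autoImplicit false

namespace Fermat.Agent.Lib

open WeierstrassCurve Polynomial

/-- Explicit values of `addSubMap`. -/
theorem ft_addSubMap_eval {R : Type*} [CommRing R] (W : WeierstrassCurve R) (x : Fin 3 → R) :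
    (fun i => MvPolynomial.eval x (W.addSubMap i)) =
      ![x 0 * x 0 - W.b₄ * (x 0 * x 2) - W.b₆ * (x 1 * x 2) - W.b₈ * (x 2 * x 2),
        2 * (x 1 * x 0) + W.b₂ * (x 0 * x 2) + W.b₄ * (x 1 * x 2) + W.b₆ * (x 2 * x 2),
        x 1 * x 1 - 4 * (x 0 * x 2)] := by
  funext i
  fin_cases i
  · simp [addSubMap]; ring
  · simp [addSubMap]; ring
  · simp [addSubMap]; ring

/-- `addSubMap` is homogeneous of degree `2`. -/
theorem ft_addSubMap_smul {R : Type*} [CommRing R] (W : WeierstrassCurve R) (c : R)
    (x : Fin 3 → R) :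
    (fun i => MvPolynomial.eval (c • x) (W.addSubMap i)) =
      c ^ 2 • (fun i => MvPolynomial.eval x (W.addSubMap i)) := by
  rw [ft_addSubMap_eval, ft_addSubMap_eval]
  funext i
  fin_cases i
  · simp; ring
  · simp; ring
  · simp; ring

/-- `addSubMap` commutes with ring homomorphisms. -/
theorem ft_addSubMap_map {R S : Type*} [CommRing R] [CommRing S] (f : R →+* S)
    (W : WeierstrassCurve R) (x : Fin 3 → R) :
    (fun i => MvPolynomial.eval (fun j => f (x j)) ((W.map f).addSubMap i)) =
      fun i => f (MvPolynomial.eval x (W.addSubMap i)) := by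
  rw [ft_addSubMap_eval]
  have h := ft_addSubMap_eval W x
  funext i
  rw [congrFun h i]
  fin_cases i
  · simp [map_b₄, map_b₆, map_b₈]
  · simp [map_b₂, map_b₄, map_b₆, map_ofNat]
  · simp [map_ofNat]

section
variable {k : Type*} [Field k]

/-- B2a: a morphism P² → P² of degree 2 doubles the height EXACTLY
   (primitive: addSubMapCoeff_condition mod π; degree: the same identity on leading coefficients). -/
theorem ft_ht_double {k : Type*} [Field k] (W : WeierstrassCurve k) (hΔ : W.Δ ≠ 0)
    (v : Fin 3 → k[X]) (hv : ft_prim v) :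
    ft_prim (fun i => MvPolynomial.eval v ((W.map (C : k →+* k[X])).addSubMap i)) ∧
    ft_mdeg (fun i => MvPolynomial.eval v ((W.map (C : k →+* k[X])).addSubMap i))
      = 2 * ft_mdeg v := by
  constructor
  · have : (W.map (C : k →+* k[X])).IsElliptic := by
      refine ⟨?_⟩
      rw [map_Δ]
      exact (isUnit_C).mpr (isUnit_iff_ne_zero.mpr hΔ)
    intro π hπ hdiv
    apply hv π hπ
    intro i
    have h := addSubMapCoeff_condition (W.map (C : k →+* k[X])) v i
    have hdvd : π ∣ v i ^ 4 := by
      rw [← h]
      exact Finset.dvd_sum fun j _ => Dvd.dvd.mul_left (hdiv j) _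
    exact hπ.prime.dvd_of_dvd_pow hdvd
  · have : W.IsElliptic := ⟨isUnit_iff_ne_zero.mpr hΔ⟩
    set n := ft_mdeg v with hn
    have h0 : (v 0).natDegree ≤ n := ft_natDegree_le_mdeg v 0
    have h1 : (v 1).natDegree ≤ n := ft_natDegree_le_mdeg v 1
    have h2 : (v 2).natDegree ≤ n := ft_natDegree_le_mdeg v 2
    have hC : ∀ (a : k) (p : k[X]), p.natDegree ≤ n + n → (C a * p).natDegree ≤ n + n :=
      fun a p hp => (natDegree_C_mul_le a p).trans hp
    have two_eq : (2 : k[X]) = C 2 := (map_ofNat (C : k →+* k[X]) 2).symm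
    have four_eq : (4 : k[X]) = C 4 := (map_ofNat (C : k →+* k[X]) 4).symm
    have hsub : ∀ p q : k[X], p.natDegree ≤ n + n → q.natDegree ≤ n + n →
        (p - q).natDegree ≤ n + n :=
      fun p q hp hq => (natDegree_sub_le p q).trans (max_le hp hq)
    have hadd : ∀ p q : k[X], p.natDegree ≤ n + n → q.natDegree ≤ n + n →
        (p + q).natDegree ≤ n + n :=
      fun p q hp hq => (natDegree_add_le p q).trans (max_le hp hq)
    have e2 : 2 * n = n + n := two_mul n
    rw [e2, ft_addSubMap_eval]
    simp only [map_b₂, map_b₄, map_b₆, map_b₈, two_eq, four_eq]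
    apply ft_mdeg_eq_of_coeff_ne
    · intro i
      fin_cases i
      · simp only [Fin.zero_eta, Matrix.cons_val_zero]
        refine hsub _ _ (hsub _ _ (hsub _ _ ?_ ?_) ?_) ?_
        · exact natDegree_mul_le_of_le h0 h0
        · exact hC _ _ (natDegree_mul_le_of_le h0 h2)
        · exact hC _ _ (natDegree_mul_le_of_le h1 h2)
        · exact hC _ _ (natDegree_mul_le_of_le h2 h2)
      · simp only [Fin.mk_one, Matrix.cons_val_one, Matrix.cons_val_zero]
        refine hadd _ _ (hadd _ _ (hadd _ _ ?_ ?_) ?_) ?_
        · exact hC _ _ (natDegree_mul_le_of_le h1 h0)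
        · exact hC _ _ (natDegree_mul_le_of_le h0 h2)
        · exact hC _ _ (natDegree_mul_le_of_le h1 h2)
        · exact hC _ _ (natDegree_mul_le_of_le h2 h2)
      · simp only [Fin.reduceFinMk, Matrix.cons_val]
        refine hsub _ _ ?_ ?_
        · exact natDegree_mul_le_of_le h1 h1
        · exact hC _ _ (natDegree_mul_le_of_le h0 h2)
    · -- leading coefficients
      obtain ⟨i₀, hi₀⟩ := ft_prim_coeff_ne hv
      have hc : (fun i => (v i).coeff n) ≠ 0 := fun h => hi₀ (congrFun h i₀)
      have hne := addSubMap_ne_zero W hc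
      rw [ft_addSubMap_eval] at hne
      by_contra hall
      push Not at hall
      apply hne
      funext i
      fin_cases i
      · have := hall 0
        simp only [Matrix.cons_val_zero, coeff_sub, coeff_C_mul,
          coeff_mul_add_eq_of_natDegree_le h0 h0, coeff_mul_add_eq_of_natDegree_le h0 h2,
          coeff_mul_add_eq_of_natDegree_le h1 h2, coeff_mul_add_eq_of_natDegree_le h2 h2] at this
        simpa using this
      · have := hall 1
        simp only [Matrix.cons_val_one, Matrix.cons_val_zero, coeff_add, coeff_C_mul,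
          coeff_mul_add_eq_of_natDegree_le h1 h0, coeff_mul_add_eq_of_natDegree_le h0 h2,
          coeff_mul_add_eq_of_natDegree_le h1 h2, coeff_mul_add_eq_of_natDegree_le h2 h2] at this
        simpa using this
      · have := hall 2
        simp only [Matrix.cons_val, coeff_sub, coeff_C_mul,
          coeff_mul_add_eq_of_natDegree_le h1 h1, coeff_mul_add_eq_of_natDegree_le h0 h2] at this
        simpa using this

end

end Fermat.Agent.Lib
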