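import Mathlib
import Fermat.Agent.S05.Identities
import Fermat.Agent.Lib.FrobTrace.ParDouble

/-!
# Block PAR of the Frobenius trace theorem: `addSubMap` computes `sym2x (P + Q) (P - Q)` (B1)
-/

set_option autoImplicit false

namespace Fermat.Agent.Lib

open WeierstrassCurve Polynomial Fermat.Agent.S51 Fermat.Agent.S05

section
variable {F : Type*} [Field F] [DecidableEq F] (W : WeierstrassCurve F)

/-- At a nonsingular point of order two, `Φ₂` does not vanish. -/
theorem ft_eval_Φ_two_ne_zero {x y : F} (h : W.toAffine.Nonsingular x y)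
    (hy : y = W.toAffine.negY x y) : (W.Φ 2).eval x ≠ 0 := by
  have hN : W.a₁ * y - (3 * x ^ 2 + 2 * W.a₂ * x + W.a₄) ≠ 0 := by
    have h' := (Affine.nonsingular_iff _ _).mp h
    rcases h'.2 with h1 | h2
    · exact sub_ne_zero.mpr h1
    · exfalso
      apply h2
      simp only [Affine.negY] at hy
      linear_combination hy
  have he := (Affine.equation_iff _ _).mp h.1
  simp only [Affine.negY] at hy
  have key : (W.Φ 2).eval x = (W.a₁ * y - (3 * x ^ 2 + 2 * W.a₂ * x + W.a₄)) ^ 2 := by
    rw [S05_eval_Φ_two]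
    simp only [WeierstrassCurve.b₄, WeierstrassCurve.b₆, WeierstrassCurve.b₈]
    grind
  rw [key]
  exact pow_ne_zero 2 hN

/-- The doubling case of B1. -/
theorem ft_addSubMap_sym2x_self (P : W.toAffine.Point) :
    ∃ c : F, c ≠ 0 ∧ (fun i => MvPolynomial.eval (Affine.Point.sym2x P P) (W.addSubMap i))
      = c • Affine.Point.sym2x (P + P) 0 := by
  rcases P with _ | ⟨x, y, h⟩
  · refine ⟨1, one_ne_zero, ?_⟩
    rw [ft_addSubMap_eval]
    simp only [← Affine.Point.zero_def, add_zero, Affine.Point.sym2x_zero_zero, one_smul]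
    funext i
    fin_cases i <;> simp
  · have hP : S51_c_IsX (Affine.Point.some x y h) x := ⟨y, h, rfl⟩
    have hΨ := S05_eval_Ψ₂Sq W.toAffine x
    have hΦ := S05_eval_Φ_two W.toAffine x
    by_cases h2 : Affine.Point.some x y h + Affine.Point.some x y h = 0
    · have hz : W.toAffine.Ψ₂Sq.eval x = 0 := hP.add_self_eq_zero_iff.mp h2
      have hy : y = W.toAffine.negY x y := (S51_c_eval_Ψ₂Sq_eq_zero_iff h.1).mp hz
      refine ⟨(W.Φ 2).eval x, ft_eval_Φ_two_ne_zero W h hy, ?_⟩
      rw [h2, ft_addSubMap_eval, Affine.Point.sym2x_some_some, Affine.Point.sym2x_zero_zero]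
      rw [hΨ] at hz
      funext i
      fin_cases i
      · simp only [Fin.zero_eta, Matrix.cons_val_zero, Pi.smul_apply, smul_eq_mul, mul_one]
        rw [hΦ]
        simp only [Matrix.cons_val_one, Matrix.cons_val_zero, Matrix.cons_val]
        ring
      · simp only [Fin.mk_one, Matrix.cons_val_one, Matrix.cons_val_zero, Pi.smul_apply,
          smul_eq_mul, mul_zero, Matrix.cons_val]
        linear_combination hz
      · simp only [Fin.reduceFinMk, Matrix.cons_val, Pi.smul_apply, smul_eq_mul, mul_zero,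
          Matrix.cons_val_one, Matrix.cons_val_zero]
        ring
    · obtain ⟨x₂, hx₂, hne, hmul⟩ := hP.exists_add_self h2
      obtain ⟨y₂, h₂, e₂⟩ := hx₂
      refine ⟨W.toAffine.Ψ₂Sq.eval x, hne, ?_⟩
      rw [e₂, ft_addSubMap_eval, Affine.Point.sym2x_some_some, Affine.Point.sym2x_some_zero]
      rw [hΨ] at hmul ⊢
      rw [hΦ] at hmul
      funext i
      fin_cases i
      · simp only [Fin.zero_eta, Matrix.cons_val_zero, Pi.smul_apply, smul_eq_mul,
          Matrix.cons_val_one, Matrix.cons_val]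
        linear_combination -hmul
      · simp only [Fin.mk_one, Matrix.cons_val_one, Matrix.cons_val_zero, Pi.smul_apply,
          smul_eq_mul, mul_one, Matrix.cons_val]
        ring
      · simp only [Fin.reduceFinMk, Matrix.cons_val, Pi.smul_apply, smul_eq_mul, mul_zero,
          Matrix.cons_val_one, Matrix.cons_val_zero]
        ring

/-- B1: `addSubMap` computes `(x(P+Q) x(P-Q) : x(P+Q) + x(P-Q) : 1)`. -/
theorem ft_addSubMap_sym2x {F : Type*} [Field F] [DecidableEq F] (W : WeierstrassCurve F)
    (P Q : W.toAffine.Point) :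
    ∃ c : F, c ≠ 0 ∧ (fun i => MvPolynomial.eval (Affine.Point.sym2x P Q) (W.addSubMap i))
      = c • Affine.Point.sym2x (P + Q) (P - Q) := by
  by_cases hPQ : P = Q
  · subst hPQ
    obtain ⟨c, hc, h⟩ := ft_addSubMap_sym2x_self W P
    exact ⟨c, hc, by rw [h, sub_self]⟩
  by_cases hPQ' : P = -Q
  · subst hPQ'
    obtain ⟨c, hc, h⟩ := ft_addSubMap_sym2x_self W Q
    refine ⟨c, hc, ?_⟩
    have e1 : -Q + Q = 0 := neg_add_cancel Q
    have e2 : -Q - Q = -(Q + Q) := by abel
    rw [Affine.Point.sym2x_neg_left, h, e1, e2, Affine.Point.sym2x_neg_right,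
      Affine.Point.sym2x_comm]
  rcases P with _ | ⟨x₁, y₁, h₁⟩
  · rcases Q with _ | ⟨x₂, y₂, h₂⟩
    · exact absurd rfl hPQ
    · refine ⟨1, one_ne_zero, ?_⟩
      rw [ft_addSubMap_eval]
      simp only [← Affine.Point.zero_def, zero_add, zero_sub, Affine.Point.sym2x_zero_some,
        one_smul, Affine.Point.sym2x_neg_right, Affine.Point.sym2x_some_some]
      funext i
      fin_cases i <;> simp <;> ring
  · rcases Q with _ | ⟨x₂, y₂, h₂⟩
    · refine ⟨1, one_ne_zero, ?_⟩
      rw [ft_addSubMap_eval]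
      simp only [← Affine.Point.zero_def, add_zero, sub_zero, Affine.Point.sym2x_some_zero,
        one_smul, Affine.Point.sym2x_some_some]
      funext i
      fin_cases i <;> simp <;> ring
    · have hP : S51_c_IsX (Affine.Point.some x₁ y₁ h₁) x₁ := ⟨y₁, h₁, rfl⟩
      have hQ : S51_c_IsX (Affine.Point.some x₂ y₂ h₂) x₂ := ⟨y₂, h₂, rfl⟩
      have hne : x₁ ≠ x₂ := by
        intro hx
        subst hx
        rcases hP.eq_or_eq_neg hQ with h | h
        · exact hPQ h
        · exact hPQ' h
      obtain ⟨xs, xd, hs, hd⟩ := S05_exists_isX_add_sub hP hQ hne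
      have hPi := S05_mul_identity hP hQ hne hs hd
      have hSi := S05_add_identity hP hQ hne hs hd
      obtain ⟨ys, ns, es⟩ := hs
      obtain ⟨yd, nd, ed⟩ := hd
      refine ⟨(x₁ - x₂) ^ 2, pow_ne_zero 2 (sub_ne_zero.mpr hne), ?_⟩
      rw [es, ed, ft_addSubMap_eval, Affine.Point.sym2x_some_some, Affine.Point.sym2x_some_some]
      funext i
      fin_cases i
      · simp only [Fin.zero_eta, Matrix.cons_val_zero, Pi.smul_apply, smul_eq_mul,
          Matrix.cons_val_one, Matrix.cons_val]
        linear_combination -hPi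
      · simp only [Fin.mk_one, Matrix.cons_val_one, Matrix.cons_val_zero, Pi.smul_apply,
          smul_eq_mul, Matrix.cons_val]
        linear_combination -hSi
      · simp only [Fin.reduceFinMk, Matrix.cons_val, Pi.smul_apply, smul_eq_mul, mul_one,
          Matrix.cons_val_one, Matrix.cons_val_zero]
        ring

end

end Fermat.Agent.Lib
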