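import Mathlib
import Fermat.Agent.Lib.FrobTrace.ParSym

/-!
# Block PAR of the Frobenius trace theorem: the exact parallelogram law for `x`-degrees

For a constant elliptic curve `W/k` and points `S, T` over a field `L ⊇ k[t]` whose
`x`-coordinates (and those of `S ± T`) lie in `k(t)`, written in lowest terms `pᵢ / qᵢ`:
`d (S + T) + d (S - T) = 2 d S + 2 d T`, where `d = max (deg p) (deg q)` (`ft_parallelogram`).
-/

set_option autoImplicit false

namespace Fermat.Agent.Lib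

open WeierstrassCurve Polynomial

section
variable {k : Type*} [Field k] {L : Type*} [Field L] [Algebra k[X] L]

/-- `xRep` is proportional to the image of `(p, q)`. -/
theorem ft_isXRatio_xRep (hinj : Function.Injective (algebraMap k[X] L))
    {W : WeierstrassCurve L} {S : W.toAffine.Point} {p q : k[X]} (h : ft_isXRatio S p q) :
    ∃ μ : L, μ ≠ 0 ∧ S.xRep 0 = μ * algebraMap k[X] L p ∧ S.xRep 1 = μ * algebraMap k[X] L q := by
  obtain ⟨hcop, he⟩ := h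
  have hι0 : ∀ r : k[X], algebraMap k[X] L r = 0 → r = 0 := fun r hr =>
    hinj (by rw [hr, _root_.map_zero])
  rcases S with _ | ⟨x, y, hxy⟩
  · simp only [← Affine.Point.zero_def, Affine.Point.xRep_zero, Matrix.cons_val_zero,
      Matrix.cons_val_one, one_mul, zero_mul] at he ⊢
    have hq : q = 0 := hι0 q he
    have hp : IsUnit p := by
      rw [hq] at hcop
      exact isCoprime_zero_right.mp hcop
    have hp0 : algebraMap k[X] L p ≠ 0 := fun h0 => hp.ne_zero (hι0 p h0)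
    refine ⟨(algebraMap k[X] L p)⁻¹, inv_ne_zero hp0, ?_, ?_⟩
    · rw [inv_mul_cancel₀ hp0]
    · rw [hq, _root_.map_zero, mul_zero]
  · simp only [Affine.Point.xRep_some, Matrix.cons_val_zero, Matrix.cons_val_one, one_mul]
      at he ⊢
    have hq : q ≠ 0 := by
      intro hq
      rw [hq, _root_.map_zero, mul_zero] at he
      have hp : p = 0 := hι0 p he.symm
      rw [hp, hq] at hcop
      exact not_isCoprime_zero_zero hcop
    have hq0 : algebraMap k[X] L q ≠ 0 := fun h0 => hq (hι0 q h0)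
    refine ⟨(algebraMap k[X] L q)⁻¹, inv_ne_zero hq0, ?_, ?_⟩
    · rw [← he, mul_comm x, inv_mul_cancel_left₀ hq0]
    · rw [inv_mul_cancel₀ hq0]

/-- `sym2x` is proportional to the image of the symmetric triple. -/
theorem ft_isXRatio_sym2x (hinj : Function.Injective (algebraMap k[X] L))
    {W : WeierstrassCurve L} {S T : W.toAffine.Point} {p₁ q₁ p₂ q₂ : k[X]}
    (h₁ : ft_isXRatio S p₁ q₁) (h₂ : ft_isXRatio T p₂ q₂) :
    ∃ μ : L, μ ≠ 0 ∧ Affine.Point.sym2x S T =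
      μ • (fun i => algebraMap k[X] L (![p₁ * p₂, p₁ * q₂ + q₁ * p₂, q₁ * q₂] i)) := by
  obtain ⟨μ₁, hμ₁, a₁, b₁⟩ := ft_isXRatio_xRep hinj h₁
  obtain ⟨μ₂, hμ₂, a₂, b₂⟩ := ft_isXRatio_xRep hinj h₂
  refine ⟨μ₁ * μ₂, mul_ne_zero hμ₁ hμ₂, ?_⟩
  unfold Affine.Point.sym2x
  rw [a₁, b₁, a₂, b₂]
  funext i
  fin_cases i
  · simp only [Fin.zero_eta, Matrix.cons_val_zero, Pi.smul_apply, smul_eq_mul, map_mul]
    ring
  · simp only [Fin.mk_one, Matrix.cons_val_one, Matrix.cons_val_zero, Pi.smul_apply, smul_eq_mul,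
      map_mul, map_add]
    ring
  · simp only [Fin.reduceFinMk, Matrix.cons_val, Pi.smul_apply, smul_eq_mul, map_mul]
    ring

variable [Algebra k L] [IsScalarTower k k[X] L]

/-- `addSubMap` of the base change to `L`, evaluated at the image of a polynomial triple. -/
theorem ft_addSubMap_baseChange (W : WeierstrassCurve k) (v : Fin 3 → k[X]) :
    (fun i => MvPolynomial.eval (fun j => algebraMap k[X] L (v j)) ((W.baseChange L).addSubMap i))
      = fun i => algebraMap k[X] L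
          (MvPolynomial.eval v ((W.map (C : k →+* k[X])).addSubMap i)) := by
  have hW : W.baseChange L = (W.map (C : k →+* k[X])).map (algebraMap k[X] L) := by
    rw [WeierstrassCurve.map_map]
    change W.map (algebraMap k L) = _
    rw [IsScalarTower.algebraMap_eq k k[X] L, Polynomial.algebraMap_eq]
  rw [hW]
  exact ft_addSubMap_map (algebraMap k[X] L) (W.map (C : k →+* k[X])) v

/-- Core of PAR: the image triple of `(S, T)` under `addSubMap` and the triple of `(S+T, S-T)`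
are proportional over `k[X]`. -/
theorem ft_parallelogram_core (W : WeierstrassCurve k) (hΔ : W.Δ ≠ 0) [DecidableEq L]
    (hinj : Function.Injective (algebraMap k[X] L))
    (S T : (W.baseChange L).toAffine.Point) (p₁ q₁ p₂ q₂ p₃ q₃ p₄ q₄ : k[X])
    (h₁ : ft_isXRatio S p₁ q₁) (h₂ : ft_isXRatio T p₂ q₂)
    (h₃ : ft_isXRatio (S + T) p₃ q₃) (h₄ : ft_isXRatio (S - T) p₄ q₄) :
    ∃ c : k, c ≠ 0 ∧ ![p₃ * p₄, p₃ * q₄ + q₃ * p₄, q₃ * q₄] = (C c) •
      (fun i => MvPolynomial.eval ![p₁ * p₂, p₁ * q₂ + q₁ * p₂, q₁ * q₂]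
        ((W.map (C : k →+* k[X])).addSubMap i)) := by
  set V₁₂ : Fin 3 → k[X] := ![p₁ * p₂, p₁ * q₂ + q₁ * p₂, q₁ * q₂] with hV₁₂
  set V₃₄ : Fin 3 → k[X] := ![p₃ * p₄, p₃ * q₄ + q₃ * p₄, q₃ * q₄] with hV₃₄
  set U : Fin 3 → k[X] := fun i => MvPolynomial.eval V₁₂ ((W.map (C : k →+* k[X])).addSubMap i)
    with hU
  have hV₁₂p : ft_prim V₁₂ := (ft_ht_sym p₁ q₁ p₂ q₂ h₁.1 h₂.1).1
  have hV₃₄p : ft_prim V₃₄ := (ft_ht_sym p₃ q₃ p₄ q₄ h₃.1 h₄.1).1
  have hUp : ft_prim U := (ft_ht_double W hΔ V₁₂ hV₁₂p).1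
  obtain ⟨μ, hμ, e₁₂⟩ := ft_isXRatio_sym2x hinj h₁ h₂
  obtain ⟨ν, hν, e₃₄⟩ := ft_isXRatio_sym2x hinj h₃ h₄
  obtain ⟨c, hc, hB⟩ := ft_addSubMap_sym2x (W.baseChange L) S T
  rw [e₁₂, e₃₄, ft_addSubMap_smul, ft_addSubMap_baseChange] at hB
  -- `μ² • ι U = c ν • ι V₃₄`
  have hrel : ∀ i, μ ^ 2 * algebraMap k[X] L (U i) = c * (ν * algebraMap k[X] L (V₃₄ i)) := by
    intro i
    have := congrFun hB i
    simpa [Pi.smul_apply, smul_eq_mul] using this
  obtain ⟨j, hj⟩ := ft_prim_ne_zero hV₃₄p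
  have hι0 : ∀ r : k[X], r ≠ 0 → algebraMap k[X] L r ≠ 0 := fun r hr h0 =>
    hr (hinj (by rw [h0, _root_.map_zero]))
  have hUj : U j ≠ 0 := by
    intro h0
    have := hrel j
    rw [h0, _root_.map_zero, mul_zero] at this
    exact mul_ne_zero hc (mul_ne_zero hν (hι0 _ hj)) this.symm
  have hprop : U j • V₃₄ = V₃₄ j • U := by
    funext i
    simp only [Pi.smul_apply, smul_eq_mul]
    apply hinj
    rw [map_mul, map_mul]
    have hi := hrel i
    have hj' := hrel j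
    have hμ2 : μ ^ 2 ≠ 0 := pow_ne_zero 2 hμ
    apply mul_left_cancel₀ hμ2
    calc μ ^ 2 * (algebraMap k[X] L (U j) * algebraMap k[X] L (V₃₄ i))
        = (μ ^ 2 * algebraMap k[X] L (U j)) * algebraMap k[X] L (V₃₄ i) := by ring
      _ = c * (ν * algebraMap k[X] L (V₃₄ j)) * algebraMap k[X] L (V₃₄ i) := by rw [hj']
      _ = algebraMap k[X] L (V₃₄ j) * (c * (ν * algebraMap k[X] L (V₃₄ i))) := by ring
      _ = algebraMap k[X] L (V₃₄ j) * (μ ^ 2 * algebraMap k[X] L (U i)) := by rw [hi]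
      _ = μ ^ 2 * (algebraMap k[X] L (V₃₄ j) * algebraMap k[X] L (U i)) := by ring
  exact ft_ht_unique V₃₄ U hV₃₄p hUp (U j) (V₃₄ j) hUj hj hprop

end

theorem ft_mdeg_C_smul {k : Type*} [Field k] {c : k} (hc : c ≠ 0) (v : Fin 3 → k[X]) :
    ft_mdeg ((C c) • v) = ft_mdeg v := by
  unfold ft_mdeg
  simp only [Pi.smul_apply, smul_eq_mul, natDegree_C_mul hc]

/-- PAR' (needed for "e = 1"): the primitive triples agree up to a constant. -/
theorem ft_parallelogram_triple {k : Type*} [Field k] (W : WeierstrassCurve k) (hΔ : W.Δ ≠ 0)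
    {L : Type*} [Field L] [DecidableEq L] [Algebra k L] [Algebra k[X] L] [IsScalarTower k k[X] L]
    (hinj : Function.Injective (algebraMap k[X] L))
    (S T : (W.baseChange L).toAffine.Point) (p₁ q₁ p₂ q₂ p₃ q₃ p₄ q₄ : k[X])
    (h₁ : ft_isXRatio S p₁ q₁) (h₂ : ft_isXRatio T p₂ q₂)
    (h₃ : ft_isXRatio (S + T) p₃ q₃) (h₄ : ft_isXRatio (S - T) p₄ q₄) :
    ∃ c : k, c ≠ 0 ∧ ![p₃ * p₄, p₃ * q₄ + q₃ * p₄, q₃ * q₄] = (C c) •
      (fun i => MvPolynomial.eval ![p₁ * p₂, p₁ * q₂ + q₁ * p₂, q₁ * q₂]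
        ((W.map (C : k →+* k[X])).addSubMap i)) :=
  ft_parallelogram_core W hΔ hinj S T p₁ q₁ p₂ q₂ p₃ q₃ p₄ q₄ h₁ h₂ h₃ h₄

/-- **PAR** (constant curve `W/k`, points over any field `L ⊇ k[t]`). -/
theorem ft_parallelogram {k : Type*} [Field k] (W : WeierstrassCurve k) (hΔ : W.Δ ≠ 0)
    {L : Type*} [Field L] [DecidableEq L] [Algebra k L] [Algebra k[X] L] [IsScalarTower k k[X] L]
    (hinj : Function.Injective (algebraMap k[X] L))
    (S T : (W.baseChange L).toAffine.Point) (p₁ q₁ p₂ q₂ p₃ q₃ p₄ q₄ : k[X])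
    (h₁ : ft_isXRatio S p₁ q₁) (h₂ : ft_isXRatio T p₂ q₂)
    (h₃ : ft_isXRatio (S + T) p₃ q₃) (h₄ : ft_isXRatio (S - T) p₄ q₄) :
    max p₃.natDegree q₃.natDegree + max p₄.natDegree q₄.natDegree
      = 2 * max p₁.natDegree q₁.natDegree + 2 * max p₂.natDegree q₂.natDegree := by
  obtain ⟨c, hc, h⟩ := ft_parallelogram_core W hΔ hinj S T p₁ q₁ p₂ q₂ p₃ q₃ p₄ q₄ h₁ h₂ h₃ h₄
  have e₃₄ := (ft_ht_sym p₃ q₃ p₄ q₄ h₃.1 h₄.1).2
  have e₁₂ := ft_ht_sym p₁ q₁ p₂ q₂ h₁.1 h₂.1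
  have eU := (ft_ht_double W hΔ _ e₁₂.1).2
  rw [← e₃₄, h, ft_mdeg_C_smul hc, eU, e₁₂.2]
  ring

end Fermat.Agent.Lib
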