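import Mathlib

/-!
# S52 block TR: maps on points induced by ring homomorphisms of fields (instance-free form)
-/

set_option autoImplicit false
set_option linter.style.haveILetI false

namespace Fermat.Agent.Lib

open WeierstrassCurve Polynomial

/-- A ring hom `j : F → K'` of fields over `R` induces an injective group hom on points. -/
theorem ft_ptMap {R : Type*} [CommRing R] (W : WeierstrassCurve R) {F K' : Type*} [Field F] [Field K']
    [DecidableEq F] [DecidableEq K'] (f : R →+* F) (g : R →+* K') (j : F →+* K')
    (hj : j.comp f = g) :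
    ∃ m : (W.map f).toAffine.Point →+ (W.map g).toAffine.Point, Function.Injective m ∧
      ∀ (x y : F) (h : (W.map f).toAffine.Nonsingular x y),
        ∃ h' : (W.map g).toAffine.Nonsingular (j x) (j y), m (.some x y h) = .some (j x) (j y) h' := by
  subst hj
  letI : Algebra R F := f.toAlgebra
  letI : Algebra R K' := (j.comp f).toAlgebra
  letI : Algebra F K' := j.toAlgebra
  haveI : IsScalarTower R F K' := IsScalarTower.of_algebraMap_eq (fun _ => rfl)
  let jA : F →ₐ[R] K' := { j with commutes' := fun _ => rfl }
  refine ⟨Affine.Point.map (W' := W.toAffine) (S := R) jA, Affine.Point.map_injective _, ?_⟩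
  intro x y h
  exact ⟨_, Affine.Point.map_some (W' := W.toAffine) (S := R) jA h⟩

/-- Frobenius on the points of a curve defined over `𝔽_ℓ`, instance-free form. -/
theorem ft_frobMap {ℓ : ℕ} [Fact ℓ.Prime] (W : WeierstrassCurve (ZMod ℓ)) {F : Type*} [Field F]
    [DecidableEq F] (f : ZMod ℓ →+* F) :
    ∃ m : (W.map f).toAffine.Point →+ (W.map f).toAffine.Point,
      ∀ (x y : F) (h : (W.map f).toAffine.Nonsingular x y),
        ∃ h' : (W.map f).toAffine.Nonsingular (x ^ ℓ) (y ^ ℓ), m (.some x y h) = .some _ _ h' := by
  letI : Algebra (ZMod ℓ) F := f.toAlgebra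
  refine ⟨Affine.Point.map (W' := W.toAffine) (FiniteField.frobeniusAlgHom (ZMod ℓ) F), ?_⟩
  intro x y h
  have := Affine.Point.map_some (W' := W.toAffine) (FiniteField.frobeniusAlgHom (ZMod ℓ) F) h
  simp only [FiniteField.coe_frobeniusAlgHom, ZMod.card] at this
  exact ⟨_, this⟩

end Fermat.Agent.Lib
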