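import Fermat.Agent.Lib.FrobTrace.Generic
import Fermat.Agent.Lib.FrobTrace.PtMap

/-!
# S52 block TR, piece PL: places of the function field above `t = x₀`.
-/

set_option autoImplicit false

namespace Fermat.Agent.Lib

open WeierstrassCurve Polynomial

noncomputable section

variable {ℓ : ℕ} [Fact ℓ.Prime] (W : WeierstrassCurve (ZMod ℓ)) (k : Type*) [Field k]
  [Algebra (ZMod ℓ) k]

theorem ft_algebraMap_injective : Function.Injective (algebraMap k[X] (ft_L W k)) := by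
  rw [IsScalarTower.algebraMap_eq k[X] (RatFunc k) (ft_L W k)]
  exact (algebraMap (RatFunc k) (ft_L W k)).injective.comp (RatFunc.algebraMap_injective k)

/-- existence of a place above `t = x₀`. -/
theorem ft_exists_place (x₀ : k) : ∃ 𝒪 : ValuationSubring (ft_L W k),
    (∀ p : k[X], algebraMap k[X] (ft_L W k) p ∈ 𝒪) ∧
    algebraMap k[X] (ft_L W k) (X - C x₀) ∈ 𝒪.nonunits := by
  let A : Subring (ft_L W k) := (algebraMap k[X] (ft_L W k)).range
  let a : A := ⟨algebraMap k[X] (ft_L W k) (X - C x₀), ⟨_, rfl⟩⟩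
  have hI : Ideal.span {a} ≠ ⊤ := by
    intro h
    rw [Ideal.span_singleton_eq_top] at h
    obtain ⟨u, hu⟩ := h.exists_right_inv
    obtain ⟨q, hq⟩ := u.2
    have h1 : algebraMap k[X] (ft_L W k) ((X - C x₀) * q) = algebraMap k[X] (ft_L W k) 1 := by
      rw [map_mul, map_one, hq]
      exact congrArg Subtype.val hu
    have h2 := ft_algebraMap_injective W k h1
    have h3 : IsUnit (X - C x₀ : k[X]) := IsUnit.of_mul_eq_one _ h2
    exact Polynomial.not_isUnit_X_sub_C x₀ h3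
  obtain ⟨B, hAB, hB⟩ := Ideal.image_subset_nonunits_valuationSubring _ hI
  refine ⟨B, fun p => hAB ⟨p, rfl⟩, ?_⟩
  exact hB ⟨a, Ideal.subset_span rfl, rfl⟩

section place

variable {W k}
variable (𝒪 : ValuationSubring (ft_L W k)) (h1 : ∀ p : k[X], algebraMap k[X] (ft_L W k) p ∈ 𝒪)

/-- `k[t] → 𝒪`. -/
def ft_toO : k[X] →+* 𝒪 := (algebraMap k[X] (ft_L W k)).codRestrict 𝒪.toSubring h1

/-- `k[t] → κ`. -/
def ft_resP : k[X] →+* IsLocalRing.ResidueField 𝒪 := (IsLocalRing.residue 𝒪).comp (ft_toO 𝒪 h1)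

/-- `k → κ`. -/
def ft_iota : k →+* IsLocalRing.ResidueField 𝒪 := (ft_resP 𝒪 h1).comp C

theorem ft_iota_injective : Function.Injective (ft_iota 𝒪 h1) := (ft_iota 𝒪 h1).injective

theorem ft_res_mk (p : k[X]) (hp : algebraMap k[X] (ft_L W k) p ∈ 𝒪) :
    IsLocalRing.residue 𝒪 ⟨algebraMap k[X] (ft_L W k) p, hp⟩ = ft_resP 𝒪 h1 p := rfl

variable {x₀ : k} (h2 : algebraMap k[X] (ft_L W k) (X - C x₀) ∈ 𝒪.nonunits)

include h2 in
theorem ft_resP_X_sub_C : ft_resP 𝒪 h1 (X - C x₀) = 0 := by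
  rw [ft_resP, RingHom.comp_apply, IsLocalRing.residue_eq_zero_iff]
  exact (ValuationSubring.coe_mem_nonunits_iff).mp h2

include h2 in
theorem ft_resP_eq (p : k[X]) : ft_resP 𝒪 h1 p = ft_iota 𝒪 h1 (p.eval x₀) := by
  obtain ⟨q, hq⟩ := Polynomial.X_sub_C_dvd_sub_C_eval (a := x₀) (p := p)
  have : p = C (p.eval x₀) + (X - C x₀) * q := by linear_combination hq
  conv_lhs => rw [this]
  rw [map_add, map_mul, ft_resP_X_sub_C 𝒪 h1 h2, zero_mul, add_zero]
  rfl

end place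

end

end Fermat.Agent.Lib
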