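import Mathlib

/-!
# Block QF of the Frobenius trace theorem: parallelogram law ⇒ quadratic form

A function `d : G → ℤ` on an abelian group satisfying the parallelogram law
`d (x + y) + d (x - y) = 2 d x + 2 d y` is a quadratic form; in particular the value on a
`ℤ`-linear combination of three elements is given by the usual formula (`ft_qf_three`).
-/

set_option autoImplicit false

namespace Fermat.Agent.Lib

section
variable {G : Type*} [AddCommGroup G] (d : G → ℤ)

theorem ft_qf_zero (hpar : ∀ x y, d (x + y) + d (x - y) = 2 * d x + 2 * d y) : d 0 = 0 := by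
  have h := hpar 0 0
  simp only [add_zero, sub_zero] at h
  omega

theorem ft_qf_neg (hpar : ∀ x y, d (x + y) + d (x - y) = 2 * d x + 2 * d y) (y : G) :
    d (-y) = d y := by
  have h := hpar 0 y
  have h0 := ft_qf_zero d hpar
  simp only [zero_add, zero_sub] at h
  omega

/-- The key identity: `d (x + y + z) = d (x+y) + d (x+z) + d (y+z) - d x - d y - d z`. -/
theorem ft_qf_triple (hpar : ∀ x y, d (x + y) + d (x - y) = 2 * d x + 2 * d y) (x y z : G) :
    d (x + y + z) = d (x + y) + d (x + z) + d (y + z) - d x - d y - d z := by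
  have h1 := hpar (x + z) y
  have h2 := hpar (y + z) x
  have h3 := hpar z (x - y)
  have h4 := hpar x y
  have e1 : x + z + y = x + y + z := by abel
  have e2 : y + z + x = x + y + z := by abel
  have e3 : z + (x - y) = x + z - y := by abel
  have e4 : z - (x - y) = y + z - x := by abel
  rw [e1] at h1
  rw [e2] at h2
  rw [e3, e4] at h3
  omega

/-- The associated bilinear form as an additive map in the first variable. -/
noncomputable def ft_qf_B (hpar : ∀ x y, d (x + y) + d (x - y) = 2 * d x + 2 * d y) (z : G) :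
    G →+ ℤ where
  toFun x := d (x + z) - d x - d z
  map_zero' := by
    have h0 := ft_qf_zero d hpar
    simp [h0]
  map_add' x y := by
    have h := ft_qf_triple d hpar x y z
    omega

theorem ft_qf_B_apply (hpar : ∀ x y, d (x + y) + d (x - y) = 2 * d x + 2 * d y) (x z : G) :
    ft_qf_B d hpar z x = d (x + z) - d x - d z := rfl

theorem ft_qf_B_comm (hpar : ∀ x y, d (x + y) + d (x - y) = 2 * d x + 2 * d y) (x z : G) :
    ft_qf_B d hpar z x = ft_qf_B d hpar x z := by
  simp only [ft_qf_B_apply, add_comm z x]
  ring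

theorem ft_qf_B_self (hpar : ∀ x y, d (x + y) + d (x - y) = 2 * d x + 2 * d y) (x : G) :
    ft_qf_B d hpar x x = 2 * d x := by
  have h := hpar x x
  have h0 := ft_qf_zero d hpar
  simp only [sub_self, h0] at h
  simp only [ft_qf_B_apply]
  omega

theorem ft_qf_B_add_right (hpar : ∀ x y, d (x + y) + d (x - y) = 2 * d x + 2 * d y)
    (x y z : G) : ft_qf_B d hpar (y + z) x = ft_qf_B d hpar y x + ft_qf_B d hpar z x := by
  rw [ft_qf_B_comm d hpar x (y + z), ft_qf_B_comm d hpar x y, ft_qf_B_comm d hpar x z, map_add]

theorem ft_qf_B_zsmul_right (hpar : ∀ x y, d (x + y) + d (x - y) = 2 * d x + 2 * d y)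
    (x y : G) (a : ℤ) : ft_qf_B d hpar (a • y) x = a * ft_qf_B d hpar y x := by
  rw [ft_qf_B_comm d hpar x (a • y), ft_qf_B_comm d hpar x y, map_zsmul, smul_eq_mul]

/-- **QF**: the parallelogram law implies the quadratic-form expansion on three elements. -/
theorem ft_qf_three {G : Type*} [AddCommGroup G] (d : G → ℤ)
    (hpar : ∀ x y, d (x + y) + d (x - y) = 2 * d x + 2 * d y)
    (x y z : G) (a b c : ℤ) :
    d (a • x + b • y + c • z) = a ^ 2 * d x + b ^ 2 * d y + c ^ 2 * d z
      + a * b * (d (x + y) - d x - d y) + a * c * (d (x + z) - d x - d z)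
      + b * c * (d (y + z) - d y - d z) := by
  have key : 2 * d (a • x + b • y + c • z) = 2 * (a ^ 2 * d x + b ^ 2 * d y + c ^ 2 * d z
      + a * b * (d (x + y) - d x - d y) + a * c * (d (x + z) - d x - d z)
      + b * c * (d (y + z) - d y - d z)) := by
    rw [← ft_qf_B_self d hpar (a • x + b • y + c • z)]
    simp only [map_add, map_zsmul, smul_eq_mul, ft_qf_B_add_right, ft_qf_B_zsmul_right]
    rw [ft_qf_B_self, ft_qf_B_self, ft_qf_B_self, ft_qf_B_comm d hpar x y, ft_qf_B_comm d hpar x z,
      ft_qf_B_comm d hpar y z]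
    simp only [ft_qf_B_apply, add_comm y x, add_comm z x, add_comm z y]
    ring
  omega

end

end Fermat.Agent.Lib
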