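import Fermat.Agent.Lib.FrobTrace.Generic
import Fermat.Agent.Lib.FrobTrace.Place
import Fermat.Agent.Lib.FrobTrace.Par
import Fermat.Agent.Lib.FrobTrace.QF

/-!
# S52 block TR, pieces D + E1: the degree function on odd points, the exact parallelogram law,
and `deg u = deg v + 1` for `Φ^j P0 ± P0`.
-/

set_option autoImplicit false

namespace Fermat.Agent.Lib

open WeierstrassCurve Polynomial

noncomputable section

/-- PAR for a curve over `L` which is (propositionally) a base change from `k`. -/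
theorem ft_parallelogram_cast {k : Type*} [Field k] (Wk : WeierstrassCurve k) (hΔ : Wk.Δ ≠ 0)
    {L : Type*} [Field L] [DecidableEq L] [Algebra k L] [Algebra k[X] L] [IsScalarTower k k[X] L]
    (hinj : Function.Injective (algebraMap k[X] L))
    (V : WeierstrassCurve L) (hV : V = Wk.baseChange L)
    (S T : V.toAffine.Point) (p₁ q₁ p₂ q₂ p₃ q₃ p₄ q₄ : k[X])
    (h₁ : ft_isXRatio S p₁ q₁) (h₂ : ft_isXRatio T p₂ q₂)
    (h₃ : ft_isXRatio (S + T) p₃ q₃) (h₄ : ft_isXRatio (S - T) p₄ q₄) :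
    max p₃.natDegree q₃.natDegree + max p₄.natDegree q₄.natDegree
      = 2 * max p₁.natDegree q₁.natDegree + 2 * max p₂.natDegree q₂.natDegree := by
  subst hV
  exact ft_parallelogram Wk hΔ hinj S T p₁ q₁ p₂ q₂ p₃ q₃ p₄ q₄ h₁ h₂ h₃ h₄

/-- PAR' for a curve over `L` which is (propositionally) a base change from `k`. -/
theorem ft_parallelogram_triple_cast {k : Type*} [Field k] (Wk : WeierstrassCurve k)
    (hΔ : Wk.Δ ≠ 0)
    {L : Type*} [Field L] [DecidableEq L] [Algebra k L] [Algebra k[X] L] [IsScalarTower k k[X] L]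
    (hinj : Function.Injective (algebraMap k[X] L))
    (V : WeierstrassCurve L) (hV : V = Wk.baseChange L)
    (S T : V.toAffine.Point) (p₁ q₁ p₂ q₂ p₃ q₃ p₄ q₄ : k[X])
    (h₁ : ft_isXRatio S p₁ q₁) (h₂ : ft_isXRatio T p₂ q₂)
    (h₃ : ft_isXRatio (S + T) p₃ q₃) (h₄ : ft_isXRatio (S - T) p₄ q₄) :
    ∃ c : k, c ≠ 0 ∧ ![p₃ * p₄, p₃ * q₄ + q₃ * p₄, q₃ * q₄] = (C c) •
      (fun i => MvPolynomial.eval ![p₁ * p₂, p₁ * q₂ + q₁ * p₂, q₁ * q₂]
        ((Wk.map (C : k →+* k[X])).addSubMap i)) := by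
  subst hV
  exact ft_parallelogram_triple Wk hΔ hinj S T p₁ q₁ p₂ q₂ p₃ q₃ p₄ q₄ h₁ h₂ h₃ h₄

variable {ℓ : ℕ} [Fact ℓ.Prime] (W : WeierstrassCurve (ZMod ℓ)) (k : Type*) [Field k]
  [Algebra (ZMod ℓ) k]

theorem ft_curve_eq :
    W.baseChange (ft_L W k) = (W.baseChange k).baseChange (ft_L W k) := by
  simp only [WeierstrassCurve.baseChange, WeierstrassCurve.map_map]
  rw [← IsScalarTower.algebraMap_eq]

/-- the exact parallelogram law for points over the function field. -/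
theorem ft_par (hΔ : W.Δ ≠ 0) (S T : (W.baseChange (ft_L W k)).toAffine.Point)
    (p₁ q₁ p₂ q₂ p₃ q₃ p₄ q₄ : k[X])
    (h₁ : ft_isXRatio S p₁ q₁) (h₂ : ft_isXRatio T p₂ q₂)
    (h₃ : ft_isXRatio (S + T) p₃ q₃) (h₄ : ft_isXRatio (S - T) p₄ q₄) :
    max p₃.natDegree q₃.natDegree + max p₄.natDegree q₄.natDegree
      = 2 * max p₁.natDegree q₁.natDegree + 2 * max p₂.natDegree q₂.natDegree :=
  ft_parallelogram_cast (W.baseChange k) (ft_Δ_ne_zero W hΔ k) (ft_algebraMap_injective W k)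
    _ (ft_curve_eq W k) S T p₁ q₁ p₂ q₂ p₃ q₃ p₄ q₄ h₁ h₂ h₃ h₄

theorem ft_ratio_zero : ft_isXRatio (0 : (W.baseChange (ft_L W k)).toAffine.Point) (1 : k[X]) 0 := by
  refine ⟨isCoprime_one_left, ?_⟩
  simp

/-- the degree of a ratio is independent of the ratio. -/
theorem ft_ratio_unique (hΔ : W.Δ ≠ 0) {S : (W.baseChange (ft_L W k)).toAffine.Point}
    {p q p' q' : k[X]} (h : ft_isXRatio S p q) (h' : ft_isXRatio S p' q') :
    max p.natDegree q.natDegree = max p'.natDegree q'.natDegree := by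
  have := ft_par W k hΔ S 0 p q 1 0 p' q' p' q' h (ft_ratio_zero W k) (by simpa using h')
    (by simpa using h')
  simp at this
  omega

/-- the degree function on odd points. -/
def ft_d (hΔ : W.Δ ≠ 0) (S : ft_odd W k) : ℤ :=
  ((max (ft_odd_exists_ratio W k hΔ S.2).choose.natDegree
    (ft_odd_exists_ratio W k hΔ S.2).choose_spec.choose.natDegree : ℕ) : ℤ)

theorem ft_d_eq (hΔ : W.Δ ≠ 0) (S : ft_odd W k) {p q : k[X]} (h : ft_isXRatio S.1 p q) :
    ft_d W k hΔ S = ((max p.natDegree q.natDegree : ℕ) : ℤ) := by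
  rw [ft_d]
  exact congrArg _ (ft_ratio_unique W k hΔ (ft_odd_exists_ratio W k hΔ S.2).choose_spec.choose_spec h)

theorem ft_d_par (hΔ : W.Δ ≠ 0) (x y : ft_odd W k) :
    ft_d W k hΔ (x + y) + ft_d W k hΔ (x - y) = 2 * ft_d W k hΔ x + 2 * ft_d W k hΔ y := by
  obtain ⟨p₁, q₁, h₁⟩ := ft_odd_exists_ratio W k hΔ x.2
  obtain ⟨p₂, q₂, h₂⟩ := ft_odd_exists_ratio W k hΔ y.2
  obtain ⟨p₃, q₃, h₃⟩ := ft_odd_exists_ratio W k hΔ (x + y).2
  obtain ⟨p₄, q₄, h₄⟩ := ft_odd_exists_ratio W k hΔ (x - y).2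
  rw [ft_d_eq W k hΔ x h₁, ft_d_eq W k hΔ y h₂, ft_d_eq W k hΔ _ h₃, ft_d_eq W k hΔ _ h₄]
  have := ft_par W k hΔ x.1 y.1 p₁ q₁ p₂ q₂ p₃ q₃ p₄ q₄ h₁ h₂ h₃ h₄
  exact_mod_cast this

end

end Fermat.Agent.Lib
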