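import Mathlib
import Fermat.Agent.Lib.FrobTrace.Par

/-!
# Block E1 of the Frobenius trace theorem: `deg u = deg v + 1` for `Φʲ P₀ ± P₀`

If `x(S) = tⁿ` (`n ≥ 2`) and `x(T) = t`, and `x(S ± T) = p/q` in lowest terms, then
`deg p = deg q + 1` for both signs, and the two numerator degrees add up to `2 n + 2`.
-/

set_option autoImplicit false

namespace Fermat.Agent.Lib

open WeierstrassCurve Polynomial

section
variable {k : Type*} [Field k]

/-- degree of the first component of `addSubMap` at `(tⁿ⁺¹, tⁿ + t, 1)`. -/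
theorem ft_e1_deg0 (b₄ b₆ b₈ : k) (n : ℕ) (hn : 2 ≤ n) :
    ((X ^ n * X) * (X ^ n * X) - C b₄ * ((X ^ n * X) * (1 * 1))
      - C b₆ * ((X ^ n * 1 + 1 * X) * (1 * 1)) - C b₈ * ((1 * 1) * (1 * 1)) : k[X]).natDegree
      = 2 * n + 2 := by
  have e : ((X ^ n * X) * (X ^ n * X) - C b₄ * ((X ^ n * X) * (1 * 1))
      - C b₆ * ((X ^ n * 1 + 1 * X) * (1 * 1)) - C b₈ * ((1 * 1) * (1 * 1)) : k[X])
      = X ^ (2 * n + 2) + (- C b₄ * X ^ (n + 1) - C b₆ * X ^ n - C b₆ * X - C b₈) := by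
    ring
  rw [e]
  have hlow : (- C b₄ * X ^ (n + 1) - C b₆ * X ^ n - C b₆ * X - C b₈ : k[X]).natDegree
      ≤ n + 1 := by
    compute_degree
  rw [natDegree_add_eq_left_of_natDegree_lt, natDegree_X_pow]
  rw [natDegree_X_pow]
  omega

/-- degree of the third component of `addSubMap` at `(tⁿ⁺¹, tⁿ + t, 1)`. -/
theorem ft_e1_deg2 (n : ℕ) (hn : 2 ≤ n) :
    ((X ^ n * 1 + 1 * X) * (X ^ n * 1 + 1 * X) - 4 * ((X ^ n * X) * (1 * 1)) : k[X]).natDegree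
      = 2 * n := by
  have e : ((X ^ n * 1 + 1 * X) * (X ^ n * 1 + 1 * X) - 4 * ((X ^ n * X) * (1 * 1)) : k[X])
      = X ^ (2 * n) + (- C 2 * X ^ (n + 1) + X ^ 2) := by
    have : (C 2 : k[X]) = 2 := map_ofNat (C : k →+* k[X]) 2
    rw [this]
    ring
  rw [e]
  have hlow : (- C 2 * X ^ (n + 1) + X ^ 2 : k[X]).natDegree ≤ n + 1 := by
    compute_degree
    omega
  rw [natDegree_add_eq_left_of_natDegree_lt, natDegree_X_pow]
  rw [natDegree_X_pow]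
  omega

/-- degree bound for the second component of `addSubMap` at `(tⁿ⁺¹, tⁿ + t, 1)`. -/
theorem ft_e1_deg1 (b₂ b₄ b₆ : k) (n : ℕ) (hn : 2 ≤ n) :
    (2 * ((X ^ n * 1 + 1 * X) * (X ^ n * X)) + C b₂ * ((X ^ n * X) * (1 * 1))
      + C b₄ * ((X ^ n * 1 + 1 * X) * (1 * 1)) + C b₆ * ((1 * 1) * (1 * 1)) : k[X]).natDegree
      ≤ 2 * n + 1 := by
  have e : (2 * ((X ^ n * 1 + 1 * X) * (X ^ n * X)) + C b₂ * ((X ^ n * X) * (1 * 1))
      + C b₄ * ((X ^ n * 1 + 1 * X) * (1 * 1)) + C b₆ * ((1 * 1) * (1 * 1)) : k[X])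
      = C 2 * X ^ (2 * n + 1) + C 2 * X ^ (n + 2) + C b₂ * X ^ (n + 1) + C b₄ * X ^ n
        + C b₄ * X + C b₆ := by
    have : (C 2 : k[X]) = 2 := map_ofNat (C : k →+* k[X]) 2
    rw [this]
    ring
  rw [e]
  compute_degree
  omega

/-- **E1**, full form (also `q₃, q₄ ≠ 0` and the sum of the numerator degrees). -/
theorem ft_e1_full (W : WeierstrassCurve k) (hΔ : W.Δ ≠ 0)
    {L : Type*} [Field L] [DecidableEq L] [Algebra k L] [Algebra k[X] L] [IsScalarTower k k[X] L]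
    (hinj : Function.Injective (algebraMap k[X] L))
    (S T : (W.baseChange L).toAffine.Point) (n : ℕ) (hn : 2 ≤ n) (p₃ q₃ p₄ q₄ : k[X])
    (h₁ : ft_isXRatio S (X ^ n : k[X]) 1) (h₂ : ft_isXRatio T (X : k[X]) 1)
    (h₃ : ft_isXRatio (S + T) p₃ q₃) (h₄ : ft_isXRatio (S - T) p₄ q₄) :
    p₃.natDegree = q₃.natDegree + 1 ∧ p₄.natDegree = q₄.natDegree + 1 ∧ q₃ ≠ 0 ∧ q₄ ≠ 0 ∧
      p₃.natDegree + p₄.natDegree = 2 * n + 2 := by
  obtain ⟨c, hc, h⟩ := ft_parallelogram_triple W hΔ hinj S T (X ^ n) 1 X 1 p₃ q₃ p₄ q₄ h₁ h₂ h₃ h₄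
  rw [ft_addSubMap_eval] at h
  simp only [map_b₂, map_b₄, map_b₆, map_b₈, Matrix.cons_val_zero, Matrix.cons_val_one,
    Matrix.cons_val] at h
  have h0 := congrFun h 0
  have h1 := congrFun h 1
  have h2 := congrFun h 2
  simp only [Pi.smul_apply, smul_eq_mul, Matrix.cons_val_zero, Matrix.cons_val_one,
    Matrix.cons_val] at h0 h1 h2
  have d0 : (p₃ * p₄).natDegree = 2 * n + 2 := by
    rw [h0, natDegree_C_mul hc]
    exact ft_e1_deg0 W.b₄ W.b₆ W.b₈ n hn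
  have d2 : (q₃ * q₄).natDegree = 2 * n := by
    rw [h2, natDegree_C_mul hc]
    exact ft_e1_deg2 n hn
  have d1 : (p₃ * q₄ + q₃ * p₄).natDegree ≤ 2 * n + 1 := by
    rw [h1, natDegree_C_mul hc]
    exact ft_e1_deg1 W.b₂ W.b₄ W.b₆ n hn
  have hpp : p₃ * p₄ ≠ 0 := by
    intro h0'
    rw [h0', natDegree_zero] at d0
    omega
  have hqq : q₃ * q₄ ≠ 0 := by
    intro h0'
    rw [h0', natDegree_zero] at d2
    omega
  have hp₃ : p₃ ≠ 0 := left_ne_zero_of_mul hpp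
  have hp₄ : p₄ ≠ 0 := right_ne_zero_of_mul hpp
  have hq₃ : q₃ ≠ 0 := left_ne_zero_of_mul hqq
  have hq₄ : q₄ ≠ 0 := right_ne_zero_of_mul hqq
  rw [natDegree_mul hp₃ hp₄] at d0
  rw [natDegree_mul hq₃ hq₄] at d2
  have key : p₃.natDegree + q₄.natDegree = q₃.natDegree + p₄.natDegree := by
    by_contra hne
    rcases lt_or_gt_of_ne hne with hlt | hgt
    · have : (p₃ * q₄ + q₃ * p₄).natDegree = (q₃ * p₄).natDegree :=
        natDegree_add_eq_right_of_natDegree_lt (by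
          rw [natDegree_mul hp₃ hq₄, natDegree_mul hq₃ hp₄]; exact hlt)
      rw [this, natDegree_mul hq₃ hp₄] at d1
      omega
    · have : (p₃ * q₄ + q₃ * p₄).natDegree = (p₃ * q₄).natDegree :=
        natDegree_add_eq_left_of_natDegree_lt (by
          rw [natDegree_mul hp₃ hq₄, natDegree_mul hq₃ hp₄]; exact hgt)
      rw [this, natDegree_mul hp₃ hq₄] at d1
      omega
  refine ⟨by omega, by omega, hq₃, hq₄, d0⟩

end

/-- **E1** (shape consumed by block FIN). -/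
theorem ft_e1 {k : Type*} [Field k] (Wk : WeierstrassCurve k) (hΔ : Wk.Δ ≠ 0)
    {L : Type*} [Field L] [DecidableEq L] [Algebra k L] [Algebra k[X] L] [IsScalarTower k k[X] L]
    (hinj : Function.Injective (algebraMap k[X] L))
    (S T : (Wk.baseChange L).toAffine.Point) (n : ℕ) (hn : 2 ≤ n) (p₃ q₃ p₄ q₄ : k[X])
    (h₁ : ft_isXRatio S (X ^ n : k[X]) 1) (h₂ : ft_isXRatio T (X : k[X]) 1)
    (h₃ : ft_isXRatio (S + T) p₃ q₃) (h₄ : ft_isXRatio (S - T) p₄ q₄) :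
    p₃.natDegree = q₃.natDegree + 1 ∧ p₄.natDegree = q₄.natDegree + 1 :=
  have h := ft_e1_full Wk hΔ hinj S T n hn p₃ q₃ p₄ q₄ h₁ h₂ h₃ h₄
  ⟨h.1, h.2.1⟩

end Fermat.Agent.Lib
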