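import Mathlib
import Fermat.Agent.Lib.FrobTrace.QF

/-!
# Block FIN of the Frobenius trace theorem: abstract pieces

* `ft_gram`: the Gram-matrix computation `d (Φ² P - a Φ P + ℓ P) = 0`;
* `ft_card_ker_comp`: `#ker (g ∘ f) = #ker f * #ker g` for `f` onto;
* `ft_hom_two_values`: a homomorphism whose values on non-zero elements all lie in `{R₀, -R₀}`,
  `R₀ ≠ 0`, can only exist on a group with at most three elements.
-/

set_option autoImplicit false

namespace Fermat.Agent.Lib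

/-- Parallelogram law, solved for `d (x + y)`. -/
theorem ft_qf_add {G : Type*} [AddCommGroup G] (d : G → ℤ)
    (hpar : ∀ x y, d (x + y) + d (x - y) = 2 * d x + 2 * d y) (x y : G) :
    d (x + y) = 2 * d x + 2 * d y - d (x - y) := by
  have := hpar x y
  omega

/-- **FIN-A**: the Gram computation. -/
theorem ft_gram {G : Type*} [AddCommGroup G] (d : G → ℤ)
    (hpar : ∀ x y, d (x + y) + d (x - y) = 2 * d x + 2 * d y)
    (Φ : G →+ G) (ℓ : ℤ) (hΦ : ∀ x, d (Φ x) = ℓ * d x) (P : G) (hP : d P = 1)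
    (N : ℤ) (hN : d (Φ P - P) = N) (hN2 : d (Φ (Φ P) - P) = N * (2 * ℓ + 2 - N)) :
    d (Φ (Φ P) - (ℓ + 1 - N) • Φ P + ℓ • P) = 0 := by
  have e : Φ (Φ P) - (ℓ + 1 - N) • Φ P + ℓ • P
      = (1 : ℤ) • Φ (Φ P) + (-(ℓ + 1 - N)) • Φ P + ℓ • P := by
    rw [one_smul, neg_smul, sub_eq_add_neg]
  rw [e, ft_qf_three d hpar]
  have d1 : d (Φ P) = ℓ := by rw [hΦ, hP, mul_one]
  have d2 : d (Φ (Φ P)) = ℓ ^ 2 := by rw [hΦ, d1, sq]
  have s1 : d (Φ P + P) = 2 * ℓ + 2 - N := by
    rw [ft_qf_add d hpar, d1, hP, hN]; ring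
  have s2 : d (Φ (Φ P) + Φ P) = ℓ * (2 * ℓ + 2 - N) := by
    rw [← map_add, hΦ, s1]
  have s3 : d (Φ (Φ P) + P) = 2 * ℓ ^ 2 + 2 - N * (2 * ℓ + 2 - N) := by
    rw [ft_qf_add d hpar, d2, hP, hN2]; ring
  rw [d1, d2, hP, s1, s2, s3]
  ring

/-- **FIN-B**: multiplicativity of kernel cardinalities for a composite with surjective inner map. -/
theorem ft_card_ker_comp {A : Type*} [AddCommGroup A] (f g : A →+ A)
    (hf : Function.Surjective f) :
    Nat.card (g.comp f).ker = Nat.card f.ker * Nat.card g.ker := by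
  -- the restriction of `f` to `ker (g ∘ f)`, with values in `ker g`
  let h : (g.comp f).ker →+ g.ker :=
    (f.comp (g.comp f).ker.subtype).codRestrict g.ker (fun x => by
      have := x.2
      rw [AddMonoidHom.mem_ker] at this ⊢
      simpa using this)
  have hsurj : Function.Surjective h := by
    rintro ⟨y, hy⟩
    obtain ⟨x, rfl⟩ := hf y
    refine ⟨⟨x, ?_⟩, rfl⟩
    rw [AddMonoidHom.mem_ker] at hy ⊢
    simpa using hy
  have hker : Nat.card h.ker = Nat.card f.ker := by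
    refine Nat.card_congr ⟨fun x => ⟨x.1.1, ?_⟩, fun x => ⟨⟨x.1, ?_⟩, ?_⟩, ?_, ?_⟩
    · have := x.2
      rw [AddMonoidHom.mem_ker] at this ⊢
      exact congrArg Subtype.val this
    · have := x.2
      rw [AddMonoidHom.mem_ker] at this ⊢
      simp [this]
    · have := x.2
      rw [AddMonoidHom.mem_ker] at this ⊢
      exact Subtype.ext this
    · intro x; rfl
    · intro x; rfl
  have h1 := AddSubgroup.card_mul_index h.ker
  have h2 : h.ker.index = Nat.card g.ker := by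
    rw [AddSubgroup.index_ker]
    have : h.range = ⊤ := AddMonoidHom.range_eq_top.mpr hsurj
    rw [this]
    exact Nat.card_congr AddSubgroup.topEquiv.toEquiv
  rw [← h1, h2, hker]

/-- **FIN-C**, variant: a homomorphism with values in `{R₀, -R₀}` on all non-zero elements. -/
theorem ft_hom_two_values' {A B : Type*} [AddCommGroup A] [AddCommGroup B] (ψ : A →+ B) (R₀ : B)
    (hR : R₀ ≠ 0) (h : ∀ P : A, P ≠ 0 → ψ P = R₀ ∨ ψ P = -R₀)
    (P P' : A) (hP : P ≠ 0) (hP' : P' ≠ 0) (hs : P + P' ≠ 0) (hd : P - P' ≠ 0) : False := by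
  have hs' := h _ hs
  have hd' := h _ hd
  rw [map_add] at hs'
  rw [map_sub] at hd'
  have hne : ∀ Q : B, (Q = R₀ ∨ Q = -R₀) → Q ≠ 0 := by
    rintro Q (rfl | rfl)
    · exact hR
    · exact neg_ne_zero.mpr hR
  rcases h P hP with e | e <;> rcases h P' hP' with e' | e'
  · exact hne _ hd' (by rw [e, e', sub_self])
  · exact hne _ hs' (by rw [e, e', add_neg_cancel])
  · exact hne _ hs' (by rw [e, e', neg_add_cancel])
  · exact hne _ hd' (by rw [e, e', sub_self])

/-- **FIN-C** (shape consumed by block FIN): a homomorphism which does not vanish on non-zero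
elements and takes at most two values `±R` there can only exist on a group with `≤ 3` elements. -/
theorem ft_hom_two_values {A : Type*} [AddCommGroup A] (ψ : A →+ A)
    (h0 : ∀ P, P ≠ 0 → ψ P ≠ 0) (h : ∀ P Q, P ≠ 0 → Q ≠ 0 → ψ P = ψ Q ∨ ψ P = -ψ Q)
    (P₁ P₂ : A) (h₁ : P₁ ≠ 0) (h₂ : P₂ ≠ 0) (h₃ : P₁ ≠ P₂) (h₄ : P₁ ≠ -P₂) : False := by
  rcases h P₁ P₂ h₁ h₂ with e | e
  · exact h0 (P₁ - P₂) (sub_ne_zero.mpr h₃) (by rw [map_sub, e, sub_self])
  · refine h0 (P₁ + P₂) (fun hs => h₄ (eq_neg_of_add_eq_zero_left hs)) ?_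
    rw [map_add, e, neg_add_cancel]

end Fermat.Agent.Lib
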