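import Mathlib

/-!
# S52 block TR, package KD: the kernel–degree link

`ft_kd`: let `W` be an elliptic curve over an algebraically closed field `k` and `ψ` an additive
endomorphism of `W(k)` whose `X`-coordinate is given by a rational function `u / v` in the
`X`-coordinate, `u, v` coprime with `deg u = deg v + 1`. Then `ψ` is onto and `# ker ψ = deg u`.

Proof: count the fibre of `ψ` over a generic pair `{R, -R}`: it consists of the points over the
roots of `u - c v`, `c = x(R)`, which is separable for generic `c` (the leading coefficient of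
`u' v - u v'` is `lc u * lc v ≠ 0` in every characteristic).
-/

set_option autoImplicit false
set_option linter.unusedSimpArgs false
set_option linter.unusedVariables false
set_option linter.unusedSectionVars false

namespace Fermat.Agent.Lib

open WeierstrassCurve Polynomial

section basic

variable {k : Type*} [Field k] (W : WeierstrassCurve k)

/-- on the curve, `(2y + a₁x + a₃)² = Ψ₂Sq(x)`. -/
theorem ft_kd_sq_eq {x y : k} (h : W.toAffine.Equation x y) :
    (2 * y + W.a₁ * x + W.a₃) ^ 2 = 4 * x ^ 3 + W.b₂ * x ^ 2 + 2 * W.b₄ * x + W.b₆ := by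
  rw [Affine.equation_iff] at h
  simp only [WeierstrassCurve.b₂, WeierstrassCurve.b₄, WeierstrassCurve.b₆]
  linear_combination 4 * h

/-- the polynomial `4X³ + b₂X² + 2b₄X + b₆`. -/
noncomputable def ft_kd_two : k[X] :=
  C 4 * X ^ 3 + C W.b₂ * X ^ 2 + C (2 * W.b₄) * X + C W.b₆

theorem ft_kd_two_eval (x : k) :
    (ft_kd_two W).eval x = 4 * x ^ 3 + W.b₂ * x ^ 2 + 2 * W.b₄ * x + W.b₆ := by
  simp [ft_kd_two]

theorem ft_kd_two_ne_zero (hΔ : W.Δ ≠ 0) : ft_kd_two W ≠ 0 := by
  intro h0
  have c3 : (ft_kd_two W).coeff 3 = 4 := by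
    simp [ft_kd_two, coeff_X, coeff_C]
  have c2 : (ft_kd_two W).coeff 2 = W.b₂ := by
    simp [ft_kd_two, coeff_X, coeff_C]
  have c1 : (ft_kd_two W).coeff 1 = 2 * W.b₄ := by
    simp [ft_kd_two, coeff_X, coeff_C]
  have c0 : (ft_kd_two W).coeff 0 = W.b₆ := by
    simp [ft_kd_two, coeff_X, coeff_C]
  rw [h0, coeff_zero] at c3 c2 c1 c0
  apply hΔ
  rw [WeierstrassCurve.Δ]
  have e8 : (8 : k) * W.b₄ ^ 3 = 4 * (2 * W.b₄) * W.b₄ ^ 2 := by ring
  rw [e8, ← c3, ← c2, ← c0]
  ring

end basic

section points

variable {k : Type*} [Field k] [DecidableEq k] (W : WeierstrassCurve k)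

/-- the `X`-coordinate of a point (`0` for the point at infinity). -/
def ft_kd_xc : W.toAffine.Point → k
  | .zero => 0
  | .some x _ _ => x

@[simp] theorem ft_kd_xc_some {x y : k} (h : W.toAffine.Nonsingular x y) :
    ft_kd_xc W (.some x y h) = x := rfl

@[simp] theorem ft_kd_xc_neg_some {x y : k} (h : W.toAffine.Nonsingular x y) :
    ft_kd_xc W (-.some x y h) = x := rfl

/-- two affine points with the same `X`-coordinate are equal or opposite. -/
theorem ft_kd_eq_or_eq_neg {x y y' : k} (h : W.toAffine.Nonsingular x y)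
    (h' : W.toAffine.Nonsingular x y') :
    (Affine.Point.some x y h : W.toAffine.Point) = .some x y' h' ∨
      (Affine.Point.some x y h : W.toAffine.Point) = -.some x y' h' := by
  rcases Affine.Y_eq_of_X_eq h.1 h'.1 rfl with e | e
  · left; subst e; rfl
  · right
    rw [Affine.Point.neg_some]
    subst e; rfl

/-- a point whose `X`-coordinate is not a root of `4X³ + b₂X² + 2b₄X + b₆` is not `2`-torsion. -/
theorem ft_kd_ne_neg {x y : k} (h : W.toAffine.Nonsingular x y)
    (hx : (ft_kd_two W).eval x ≠ 0) :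
    (Affine.Point.some x y h : W.toAffine.Point) ≠ -.some x y h := by
  intro e
  rw [Affine.Point.neg_some] at e
  have hy : y = W.toAffine.negY x y := by
    injection e
  apply hx
  rw [ft_kd_two_eval, ← ft_kd_sq_eq W h.1]
  have : 2 * y + W.a₁ * x + W.a₃ = 0 := by
    have h2 := hy
    rw [Affine.negY] at h2
    linear_combination h2
  rw [this]; ring

end points

section main

variable {k : Type*} [Field k] [IsAlgClosed k] [DecidableEq k] (W : WeierstrassCurve k)

/-- every `x` is the `X`-coordinate of a point. -/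
theorem ft_kd_exists_pt (hΔ : W.Δ ≠ 0) (x : k) : ∃ y, W.toAffine.Nonsingular x y := by
  have hdeg : (X ^ 2 + C (W.a₁ * x + W.a₃) * X -
      C (x ^ 3 + W.a₂ * x ^ 2 + W.a₄ * x + W.a₆) : k[X]).degree ≠ 0 := by
    have : (X ^ 2 + C (W.a₁ * x + W.a₃) * X -
      C (x ^ 3 + W.a₂ * x ^ 2 + W.a₄ * x + W.a₆) : k[X]).degree = 2 := by
      compute_degree!
    rw [this]; norm_num
  obtain ⟨y, hy⟩ := IsAlgClosed.exists_root _ hdeg
  refine ⟨y, (Affine.equation_iff_nonsingular_of_Δ_ne_zero hΔ).1 ?_⟩
  rw [Affine.equation_iff]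
  simp only [IsRoot.def, eval_sub, eval_add, eval_pow, eval_X, eval_mul, eval_C] at hy
  linear_combination hy

/-- the leading coefficient of `u' v - u v'` is `lc u * lc v` when `deg u = deg v + 1`. -/
theorem ft_kd_wronskian_ne_zero {u v : k[X]} (hv : v ≠ 0)
    (hdeg : u.natDegree = v.natDegree + 1) :
    derivative u * v - u * derivative v ≠ 0 := by
  set m := v.natDegree with hm
  have hu : u ≠ 0 := by
    intro h
    rw [h, natDegree_zero] at hdeg
    omega
  have h1 : (derivative u * v).coeff (m + m) = ((m : k) + 1) * (u.leadingCoeff * v.leadingCoeff) := by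
    rw [coeff_mul_add_eq_of_natDegree_le (df := m) (dg := m) _ le_rfl, coeff_derivative]
    · rw [leadingCoeff, leadingCoeff, hdeg, ← hm]
      ring
    · calc (derivative u).natDegree ≤ u.natDegree - 1 := natDegree_derivative_le u
        _ = m := by omega
  have h2 : (u * derivative v).coeff (m + m) = (m : k) * (u.leadingCoeff * v.leadingCoeff) := by
    rcases Nat.eq_zero_or_pos m with h0 | hpos
    · have hvc : derivative v = 0 := by
        rw [eq_C_of_natDegree_eq_zero (hm ▸ h0 : v.natDegree = 0)]
        simp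
      rw [hvc, mul_zero, coeff_zero, h0]
      simp
    · have e : m + m = (m + 1) + (m - 1) := by omega
      rw [e, coeff_mul_add_eq_of_natDegree_le (df := m + 1) (dg := m - 1) (by omega) (natDegree_derivative_le v),
        coeff_derivative]
      rw [leadingCoeff, leadingCoeff, hdeg, ← hm]
      have e2 : m - 1 + 1 = m := by omega
      rw [e2]
      have e3 : ((m - 1 : ℕ) : k) + 1 = (m : k) := by
        have : ((m - 1 + 1 : ℕ) : k) = (m : k) := by rw [e2]
        rw [← this]; push_cast; ring
      rw [e3]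
      ring
  intro h0
  have h3 : (derivative u * v - u * derivative v).coeff (m + m) =
      u.leadingCoeff * v.leadingCoeff := by
    rw [coeff_sub, h1, h2]; ring
  rw [h0, coeff_zero] at h3
  exact mul_ne_zero (leadingCoeff_ne_zero.2 hu) (leadingCoeff_ne_zero.2 hv) h3.symm

/-- **KD**: the kernel–degree link. -/
theorem ft_kd (W : WeierstrassCurve k) (hΔ : W.Δ ≠ 0)
    (ψ : W.toAffine.Point →+ W.toAffine.Point) (u v : k[X]) (huv : IsCoprime u v)
    (hdeg : u.natDegree = v.natDegree + 1)
    (hψ₀ : ∀ (x y : k) (h : W.toAffine.Nonsingular x y), v.eval x = 0 → ψ (.some x y h) = 0)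
    (hψ₁ : ∀ (x y : k) (h : W.toAffine.Nonsingular x y), v.eval x ≠ 0 →
      ∃ (y' : k) (h' : W.toAffine.Nonsingular (u.eval x / v.eval x) y'),
        ψ (.some x y h) = .some _ y' h') :
    Nat.card ψ.ker = u.natDegree ∧ Function.Surjective ψ := by
  classical
  have hdu : 1 ≤ u.natDegree := by omega
  have hu0 : u ≠ 0 := by
    intro h
    rw [h, natDegree_zero] at hdu
    omega
  have hv0 : v ≠ 0 := by
    intro h
    rw [h] at huv
    have hunit : IsUnit u := isCoprime_zero_right.1 huv
    have := natDegree_eq_zero_of_isUnit hunit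
    omega
  -- the polynomials `f c = u - c v`
  have hfdeg : ∀ c : k, (u - C c * v).natDegree = u.natDegree := by
    intro c
    apply natDegree_sub_eq_left_of_natDegree_lt
    calc (C c * v).natDegree ≤ v.natDegree := natDegree_C_mul_le _ _
      _ < u.natDegree := by omega
  have hf0 : ∀ c : k, u - C c * v ≠ 0 := by
    intro c h
    have := hfdeg c
    rw [h, natDegree_zero] at this
    omega
  have hvne : ∀ (c x : k), (u - C c * v).eval x = 0 → v.eval x ≠ 0 := by
    intro c x hx hv
    have hux : u.eval x = 0 := by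
      simp only [eval_sub, eval_mul, eval_C, hv, mul_zero, sub_zero] at hx
      exact hx
    obtain ⟨a, b, hab⟩ := huv
    have h1 := congrArg (eval x) hab
    simp only [eval_add, eval_mul, hux, hv, mul_zero, add_zero, eval_one] at h1
    exact zero_ne_one h1
  have hratio : ∀ (c x : k), (u - C c * v).eval x = 0 → u.eval x / v.eval x = c := by
    intro c x hx
    have hv := hvne c x hx
    rw [div_eq_iff hv]
    simp only [eval_sub, eval_mul, eval_C] at hx
    linear_combination hx
  -- the image of a point over a root of `f c`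
  have himg : ∀ (c x y : k) (h : W.toAffine.Nonsingular x y), (u - C c * v).eval x = 0 →
      ∃ (y' : k) (h' : W.toAffine.Nonsingular c y'), ψ (.some x y h) = .some c y' h' := by
    intro c x y h hx
    obtain ⟨y', h', e⟩ := hψ₁ x y h (hvne c x hx)
    have hc := hratio c x hx
    subst hc
    exact ⟨y', h', e⟩
  -- conversely
  have hconv : ∀ (c : k) (P : W.toAffine.Point) (y' : k) (h' : W.toAffine.Nonsingular c y'),
      ψ P = .some c y' h' → ∃ (x y : k) (h : W.toAffine.Nonsingular x y),
        P = .some x y h ∧ (u - C c * v).eval x = 0 := by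
    intro c P y' h' e
    rcases P with _ | ⟨x, y, h⟩
    · exfalso
      have : ψ 0 = 0 := map_zero ψ
      rw [Affine.Point.zero_def] at this
      rw [this] at e
      exact Affine.Point.some_ne_zero h' e.symm
    · refine ⟨x, y, h, rfl, ?_⟩
      by_cases hv : v.eval x = 0
      · exfalso
        rw [hψ₀ x y h hv] at e
        exact Affine.Point.some_ne_zero h' e.symm
      · obtain ⟨y'', h'', e'⟩ := hψ₁ x y h hv
        rw [e'] at e
        have hxx : u.eval x / v.eval x = c := by
          injection e
        rw [div_eq_iff hv] at hxx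
        simp only [eval_sub, eval_mul, eval_C]
        linear_combination hxx
  -- every `c` is attained
  have hroot : ∀ c : k, ∃ x, (u - C c * v).eval x = 0 := by
    intro c
    have hd : (u - C c * v).degree ≠ 0 := by
      rw [degree_eq_natDegree (hf0 c), hfdeg c]
      exact_mod_cast (by omega : u.natDegree ≠ 0)
    exact IsAlgClosed.exists_root _ hd
  have hsurj : Function.Surjective ψ := by
    intro R
    rcases R with _ | ⟨c, yR, hR⟩
    · exact ⟨0, map_zero ψ⟩
    · obtain ⟨x, hx⟩ := hroot c
      obtain ⟨y, h⟩ := ft_kd_exists_pt W hΔ x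
      obtain ⟨y', h', e⟩ := himg c x y h hx
      rcases ft_kd_eq_or_eq_neg W hR h' with e1 | e1
      · exact ⟨_, e.trans e1.symm⟩
      · refine ⟨-.some x y h, ?_⟩
        rw [map_neg, e, e1]
  refine ⟨?_, hsurj⟩
  -- choice of a generic `c`
  set D : k[X] := derivative u * v - u * derivative v with hD
  have hD0 : D ≠ 0 := ft_kd_wronskian_ne_zero hv0 hdeg
  have hT0 : ft_kd_two W ≠ 0 := ft_kd_two_ne_zero W hΔ
  set Bad : Finset k := (D.roots.toFinset.image fun x => u.eval x / v.eval x) ∪
    ((ft_kd_two W).roots.toFinset.image fun x => u.eval x / v.eval x) ∪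
    (ft_kd_two W).roots.toFinset with hBad
  obtain ⟨c, hc⟩ := Infinite.exists_notMem_finset Bad
  have hc1 : ∀ x, (u - C c * v).eval x = 0 → D.eval x ≠ 0 := by
    intro x hx hDx
    apply hc
    rw [hBad, Finset.mem_union, Finset.mem_union]
    left; left
    rw [Finset.mem_image]
    exact ⟨x, by rw [Multiset.mem_toFinset, mem_roots hD0]; exact hDx, hratio c x hx⟩
  have hc2 : ∀ x, (u - C c * v).eval x = 0 → (ft_kd_two W).eval x ≠ 0 := by
    intro x hx hTx
    apply hc
    rw [hBad, Finset.mem_union, Finset.mem_union]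
    left; right
    rw [Finset.mem_image]
    exact ⟨x, by rw [Multiset.mem_toFinset, mem_roots hT0]; exact hTx, hratio c x hx⟩
  have hc3 : (ft_kd_two W).eval c ≠ 0 := by
    intro hTx
    apply hc
    rw [hBad, Finset.mem_union]
    right
    rw [Multiset.mem_toFinset, mem_roots hT0]; exact hTx
  -- `f = u - c v` has `deg u` distinct roots
  set f : k[X] := u - C c * v with hf
  have hnodup : f.roots.Nodup := by
    rw [Multiset.nodup_iff_count_le_one]
    intro x
    rw [count_roots]
    by_contra hlt
    rw [not_le] at hlt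
    obtain ⟨h1, h2⟩ := (one_lt_rootMultiplicity_iff_isRoot (hf0 c)).1 hlt
    have hx : f.eval x = 0 := h1
    have hx' : (derivative f).eval x = 0 := h2
    apply hc1 x hx
    rw [hD]
    rw [hf] at hx hx'
    simp only [derivative_sub, derivative_mul, derivative_C, zero_mul, zero_add, eval_sub,
      eval_mul, eval_C] at hx hx' ⊢
    linear_combination (v.eval x) * hx' - ((derivative v).eval x) * hx
  set S : Finset k := f.roots.toFinset with hS
  have hScard : S.card = u.natDegree := by
    rw [hS, Multiset.toFinset_card_of_nodup hnodup, IsAlgClosed.card_roots_eq_natDegree, hf,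
      hfdeg c]
  have hSmem : ∀ x, x ∈ S ↔ f.eval x = 0 := by
    intro x
    rw [hS, Multiset.mem_toFinset, mem_roots (hf0 c)]
    rfl
  -- points over the roots
  choose Y hY using ft_kd_exists_pt W hΔ
  set pt : k → W.toAffine.Point := fun x => .some x (Y x) (hY x) with hpt
  set g : k × Bool → W.toAffine.Point := fun z => if z.2 then pt z.1 else -pt z.1 with hg
  have hgx : ∀ z, ft_kd_xc W (g z) = z.1 := by
    rintro ⟨x, b⟩
    cases b <;> rfl
  set T : Finset W.toAffine.Point := (S ×ˢ (Finset.univ : Finset Bool)).image g with hT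
  have hTcard : T.card = 2 * u.natDegree := by
    rw [hT, Finset.card_image_of_injOn, Finset.card_product, hScard, Finset.card_univ,
      Fintype.card_bool, mul_comm]
    rintro ⟨x, b⟩ hz ⟨x', b'⟩ hz' e
    have hxx : x = x' := by
      have := congrArg (ft_kd_xc W) e
      rwa [hgx, hgx] at this
    subst hxx
    have hxS : x ∈ S := (Finset.mem_product.1 hz).1
    have hne := ft_kd_ne_neg W (hY x) (hc2 x ((hSmem x).1 hxS))
    cases b <;> cases b'
    · rfl
    · exfalso
      simp only [hg, hpt, Bool.false_eq_true, if_false, if_true] at e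
      exact hne e.symm
    · exfalso
      simp only [hg, hpt, Bool.false_eq_true, if_false, if_true] at e
      exact hne e
    · rfl
  have hTmem : ∀ P : W.toAffine.Point, P ∈ T ↔
      ∃ (x y : k) (h : W.toAffine.Nonsingular x y), P = .some x y h ∧ f.eval x = 0 := by
    intro P
    rw [hT, Finset.mem_image]
    constructor
    · rintro ⟨⟨x, b⟩, hz, rfl⟩
      have hxS : x ∈ S := (Finset.mem_product.1 hz).1
      cases b
      · exact ⟨x, _, (Affine.nonsingular_neg ..).mpr (hY x), rfl, (hSmem x).1 hxS⟩
      · exact ⟨x, Y x, hY x, rfl, (hSmem x).1 hxS⟩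
    · rintro ⟨x, y, h, rfl, hx⟩
      have hxS : x ∈ S := (hSmem x).2 hx
      rcases ft_kd_eq_or_eq_neg W h (hY x) with e | e
      · exact ⟨(x, true), Finset.mem_product.2 ⟨hxS, Finset.mem_univ _⟩, e.symm⟩
      · exact ⟨(x, false), Finset.mem_product.2 ⟨hxS, Finset.mem_univ _⟩, e.symm⟩
  -- the two fibres
  obtain ⟨yc, hyc⟩ := ft_kd_exists_pt W hΔ c
  set R : W.toAffine.Point := .some c yc hyc with hR
  have hRne : R ≠ -R := ft_kd_ne_neg W hyc hc3
  obtain ⟨P₀, hP₀⟩ := hsurj R
  have hTfib : ∀ P : W.toAffine.Point, P ∈ T ↔ ψ P = R ∨ ψ P = -R := by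
    intro P
    rw [hTmem]
    constructor
    · rintro ⟨x, y, h, rfl, hx⟩
      obtain ⟨y', h', e⟩ := himg c x y h hx
      rw [e]
      exact ft_kd_eq_or_eq_neg W h' hyc
    · rintro (e | e)
      · exact hconv c P yc hyc e
      · rw [hR, Affine.Point.neg_some] at e
        exact hconv c P _ _ e
  -- count
  have hA : ∀ P : W.toAffine.Point, ψ P = R ↔ P - P₀ ∈ ψ.ker := by
    intro P
    rw [AddMonoidHom.mem_ker, map_sub, hP₀, sub_eq_zero]
  have hB : ∀ P : W.toAffine.Point, ψ P = -R ↔ P + P₀ ∈ ψ.ker := by
    intro P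
    rw [AddMonoidHom.mem_ker, map_add, hP₀, add_eq_zero_iff_eq_neg]
  have hTset : (T : Set W.toAffine.Point) =
      ((fun Q => Q + P₀) '' (ψ.ker : Set W.toAffine.Point)) ∪
        ((fun Q => Q - P₀) '' (ψ.ker : Set W.toAffine.Point)) := by
    ext P
    rw [Finset.mem_coe, hTfib, Set.mem_union, Set.mem_image, Set.mem_image, hA, hB]
    constructor
    · rintro (h | h)
      · left; exact ⟨P - P₀, h, by abel⟩
      · right; exact ⟨P + P₀, h, by abel⟩
    · rintro (⟨Q, hQ, rfl⟩ | ⟨Q, hQ, rfl⟩)
      · left
        have : Q + P₀ - P₀ = Q := by abel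
        rw [this]; exact hQ
      · right
        have : Q - P₀ + P₀ = Q := by abel
        rw [this]; exact hQ
  have hdisj : Disjoint ((fun Q => Q + P₀) '' (ψ.ker : Set W.toAffine.Point))
      ((fun Q => Q - P₀) '' (ψ.ker : Set W.toAffine.Point)) := by
    rw [Set.disjoint_left]
    rintro P ⟨Q, hQ, rfl⟩ ⟨Q', hQ', e⟩
    apply hRne
    have h1 : ψ (Q + P₀) = R := by
      rw [map_add, (AddMonoidHom.mem_ker).1 hQ, zero_add, hP₀]
    have h2 : ψ (Q' - P₀) = -R := by
      rw [map_sub, (AddMonoidHom.mem_ker).1 hQ', zero_sub, hP₀]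
    have e' : Q' - P₀ = Q + P₀ := e
    calc R = ψ (Q + P₀) := h1.symm
      _ = ψ (Q' - P₀) := by rw [e']
      _ = -R := h2
  have hkfin : (ψ.ker : Set W.toAffine.Point).Finite := by
    have h1 : ((fun Q => Q + P₀) '' (ψ.ker : Set W.toAffine.Point)).Finite := by
      apply Set.Finite.subset T.finite_toSet
      rw [hTset]
      exact Set.subset_union_left
    exact h1.of_finite_image (fun a _ b _ hab => add_right_cancel hab)
  have hcount : (T : Set W.toAffine.Point).ncard =
      (ψ.ker : Set W.toAffine.Point).ncard + (ψ.ker : Set W.toAffine.Point).ncard := by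
    rw [hTset, Set.ncard_union_eq hdisj (hkfin.image _) (hkfin.image _),
      Set.ncard_image_of_injective _ (fun a b hab => add_right_cancel hab),
      Set.ncard_image_of_injective _ (fun a b hab => sub_left_injective hab)]
  rw [Set.ncard_coe_finset, hTcard] at hcount
  have : Nat.card ψ.ker = (ψ.ker : Set W.toAffine.Point).ncard := rfl
  rw [this]
  omega

end main

end Fermat.Agent.Lib
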