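import Fermat.Agent.Lib.FrobTrace.Spec
import Fermat.Agent.Lib.FrobTrace.Deg
import Fermat.Agent.Lib.FrobTrace.E1
import Fermat.Agent.Lib.FrobTrace.Gram
import Fermat.Agent.Lib.FrobTrace.KD

/-!
# S52 block TR, piece FIN (1): degrees of `Φ`-images, kernels of `φ ∓ 1`, `φ² - 1`.
-/

set_option autoImplicit false
set_option linter.unusedSectionVars false

namespace Fermat.Agent.Lib

open WeierstrassCurve Polynomial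

noncomputable section

/-- E1 for a curve over `L` which is (propositionally) a base change from `k`. -/
theorem ft_e1_cast {k : Type*} [Field k] (Wk : WeierstrassCurve k) (hΔ : Wk.Δ ≠ 0)
    {L : Type*} [Field L] [DecidableEq L] [Algebra k L] [Algebra k[X] L] [IsScalarTower k k[X] L]
    (hinj : Function.Injective (algebraMap k[X] L))
    (V : WeierstrassCurve L) (hV : V = Wk.baseChange L)
    (S T : V.toAffine.Point) (n : ℕ) (hn : 2 ≤ n) (p₃ q₃ p₄ q₄ : k[X])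
    (h₁ : ft_isXRatio S (X ^ n : k[X]) 1) (h₂ : ft_isXRatio T (X : k[X]) 1)
    (h₃ : ft_isXRatio (S + T) p₃ q₃) (h₄ : ft_isXRatio (S - T) p₄ q₄) :
    p₃.natDegree = q₃.natDegree + 1 ∧ p₄.natDegree = q₄.natDegree + 1 := by
  subst hV
  exact ft_e1 Wk hΔ hinj S T n hn p₃ q₃ p₄ q₄ h₁ h₂ h₃ h₄

variable {ℓ : ℕ} [Fact ℓ.Prime] (W : WeierstrassCurve (ZMod ℓ)) (k : Type*) [Field k]
  [Algebra (ZMod ℓ) k]

theorem ft_e1' (hΔ : W.Δ ≠ 0) (S T : (W.baseChange (ft_L W k)).toAffine.Point) (n : ℕ)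
    (hn : 2 ≤ n) (p₃ q₃ p₄ q₄ : k[X])
    (h₁ : ft_isXRatio S (X ^ n : k[X]) 1) (h₂ : ft_isXRatio T (X : k[X]) 1)
    (h₃ : ft_isXRatio (S + T) p₃ q₃) (h₄ : ft_isXRatio (S - T) p₄ q₄) :
    p₃.natDegree = q₃.natDegree + 1 ∧ p₄.natDegree = q₄.natDegree + 1 :=
  ft_e1_cast (W.baseChange k) (ft_Δ_ne_zero W hΔ k) (ft_algebraMap_injective W k)
    _ (ft_curve_eq W k) S T n hn p₃ q₃ p₄ q₄ h₁ h₂ h₃ h₄

/-- the generic point as an odd point. -/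
def ft_oP0 (hΔ : W.Δ ≠ 0) : ft_odd W k := ⟨ft_P0 W k hΔ, ft_P0_mem_odd W k hΔ⟩

/-- Frobenius on odd points. -/
def ft_oFrob : ft_odd W k →+ ft_odd W k :=
  ((ft_frob W (ft_L W k)).comp (ft_odd W k).subtype).codRestrict (ft_odd W k)
    (fun S => ft_frob_mem_odd W k S.2)

theorem ft_oFrob_coe (S : ft_odd W k) :
    ((ft_oFrob W k S : ft_odd W k) : (W.baseChange (ft_L W k)).toAffine.Point)
      = ft_frob W (ft_L W k) S.1 := rfl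

theorem ft_d_P0 (hΔ : W.Δ ≠ 0) : ft_d W k hΔ (ft_oP0 W k hΔ) = 1 := by
  rw [ft_d_eq W k hΔ _ (ft_ratio_P0 W k hΔ)]
  simp

theorem ft_d_frob (hΔ : W.Δ ≠ 0) (S : ft_odd W k) :
    ft_d W k hΔ (ft_oFrob W k S) = (ℓ : ℤ) * ft_d W k hΔ S := by
  obtain ⟨p, q, h⟩ := ft_odd_exists_ratio W k hΔ S.2
  rw [ft_d_eq W k hΔ S h, ft_d_eq W k hΔ (ft_oFrob W k S) (ft_ratio_frob W k h)]
  simp only [natDegree_pow]
  rw [Nat.mul_max_mul_left]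
  push_cast
  rfl

variable [DecidableEq k]

/-- the odd point `S_c`. -/
def ft_oS (hΔ : W.Δ ≠ 0) (c₀ c₁ c₂ : ℤ) : ft_odd W k :=
  ⟨ft_S W k hΔ c₀ c₁ c₂, ft_S_mem_odd W k hΔ c₀ c₁ c₂⟩

theorem ft_oS_eq (hΔ : W.Δ ≠ 0) (c₀ c₁ c₂ : ℤ) :
    ft_oS W k hΔ c₀ c₁ c₂ = c₂ • ft_oFrob W k (ft_oFrob W k (ft_oP0 W k hΔ))
      + c₁ • ft_oFrob W k (ft_oP0 W k hΔ) + c₀ • ft_oP0 W k hΔ := by
  apply Subtype.ext
  simp [ft_oS, ft_S, ft_oFrob_coe, ft_oP0]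


theorem ft_ratio_frobP0 (hΔ : W.Δ ≠ 0) :
    ft_isXRatio (ft_frob W (ft_L W k) (ft_P0 W k hΔ)) (X ^ ℓ : k[X]) 1 := by
  have := ft_ratio_frob W k (ft_ratio_P0 W k hΔ)
  rwa [one_pow] at this

theorem ft_ratio_frob2P0 (hΔ : W.Δ ≠ 0) :
    ft_isXRatio (ft_frob W (ft_L W k) (ft_frob W (ft_L W k) (ft_P0 W k hΔ)))
      (X ^ (ℓ * ℓ) : k[X]) 1 := by
  have := ft_ratio_frob W k (ft_ratio_frobP0 W k hΔ)
  rwa [← pow_mul, one_pow] at this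

theorem ft_S_sub (hΔ : W.Δ ≠ 0) :
    ft_S W k hΔ (-1) 1 0 = ft_frob W (ft_L W k) (ft_P0 W k hΔ) - ft_P0 W k hΔ := by
  simp [ft_S, sub_eq_add_neg]

theorem ft_S_add (hΔ : W.Δ ≠ 0) :
    ft_S W k hΔ 1 1 0 = ft_frob W (ft_L W k) (ft_P0 W k hΔ) + ft_P0 W k hΔ := by
  simp [ft_S]

theorem ft_S_sub2 (hΔ : W.Δ ≠ 0) :
    ft_S W k hΔ (-1) 0 1 =
      ft_frob W (ft_L W k) (ft_frob W (ft_L W k) (ft_P0 W k hΔ)) - ft_P0 W k hΔ := by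
  simp [ft_S, sub_eq_add_neg]

theorem ft_S_add2 (hΔ : W.Δ ≠ 0) :
    ft_S W k hΔ 1 0 1 =
      ft_frob W (ft_L W k) (ft_frob W (ft_L W k) (ft_P0 W k hΔ)) + ft_P0 W k hΔ := by
  simp [ft_S]

variable [IsAlgClosed k]

/-- KD applied to `ψ_c`. -/
theorem ft_kd_app (hΔ : W.Δ ≠ 0) (c₀ c₁ c₂ : ℤ) (u v : k[X])
    (hr : ft_isXRatio (ft_S W k hΔ c₀ c₁ c₂) u v) (hdeg : u.natDegree = v.natDegree + 1) :
    (Nat.card (ft_psi W k c₀ c₁ c₂).ker : ℤ) = ft_d W k hΔ (ft_oS W k hΔ c₀ c₁ c₂) ∧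
      Function.Surjective (ft_psi W k c₀ c₁ c₂) := by
  obtain ⟨h1, h2⟩ := ft_kd (W.baseChange k) (ft_Δ_ne_zero W hΔ k) (ft_psi W k c₀ c₁ c₂) u v
    hr.1 hdeg
    (fun x y h => (ft_spec W k hΔ c₀ c₁ c₂ u v hr x y h).1)
    (fun x y h => (ft_spec W k hΔ c₀ c₁ c₂ u v hr x y h).2)
  refine ⟨?_, h2⟩
  rw [h1, ft_d_eq W k hΔ (ft_oS W k hΔ c₀ c₁ c₂) hr, hdeg]
  congr 1
  omega

theorem ft_ker_sub (hΔ : W.Δ ≠ 0) :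
    (Nat.card (ft_psi W k (-1) 1 0).ker : ℤ) = ft_d W k hΔ (ft_oS W k hΔ (-1) 1 0) ∧
      Function.Surjective (ft_psi W k (-1) 1 0) := by
  obtain ⟨p₃, q₃, h₃⟩ := ft_odd_exists_ratio W k hΔ (ft_S_mem_odd W k hΔ 1 1 0)
  obtain ⟨p₄, q₄, h₄⟩ := ft_odd_exists_ratio W k hΔ (ft_S_mem_odd W k hΔ (-1) 1 0)
  have h₃' := h₃
  have h₄' := h₄
  rw [ft_S_add] at h₃'
  rw [ft_S_sub] at h₄'
  obtain ⟨-, e4⟩ := ft_e1' W k hΔ _ _ ℓ (Fact.out : ℓ.Prime).two_le p₃ q₃ p₄ q₄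
    (ft_ratio_frobP0 W k hΔ) (ft_ratio_P0 W k hΔ) h₃' h₄'
  exact ft_kd_app W k hΔ _ _ _ p₄ q₄ h₄ e4

theorem ft_ker_add (hΔ : W.Δ ≠ 0) :
    (Nat.card (ft_psi W k 1 1 0).ker : ℤ) = ft_d W k hΔ (ft_oS W k hΔ 1 1 0) ∧
      Function.Surjective (ft_psi W k 1 1 0) := by
  obtain ⟨p₃, q₃, h₃⟩ := ft_odd_exists_ratio W k hΔ (ft_S_mem_odd W k hΔ 1 1 0)
  obtain ⟨p₄, q₄, h₄⟩ := ft_odd_exists_ratio W k hΔ (ft_S_mem_odd W k hΔ (-1) 1 0)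
  have h₃' := h₃
  have h₄' := h₄
  rw [ft_S_add] at h₃'
  rw [ft_S_sub] at h₄'
  obtain ⟨e3, -⟩ := ft_e1' W k hΔ _ _ ℓ (Fact.out : ℓ.Prime).two_le p₃ q₃ p₄ q₄
    (ft_ratio_frobP0 W k hΔ) (ft_ratio_P0 W k hΔ) h₃' h₄'
  exact ft_kd_app W k hΔ _ _ _ p₃ q₃ h₃ e3

theorem ft_ker_sub2 (hΔ : W.Δ ≠ 0) :
    (Nat.card (ft_psi W k (-1) 0 1).ker : ℤ) = ft_d W k hΔ (ft_oS W k hΔ (-1) 0 1) ∧
      Function.Surjective (ft_psi W k (-1) 0 1) := by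
  obtain ⟨p₃, q₃, h₃⟩ := ft_odd_exists_ratio W k hΔ (ft_S_mem_odd W k hΔ 1 0 1)
  obtain ⟨p₄, q₄, h₄⟩ := ft_odd_exists_ratio W k hΔ (ft_S_mem_odd W k hΔ (-1) 0 1)
  have h₃' := h₃
  have h₄' := h₄
  rw [ft_S_add2] at h₃'
  rw [ft_S_sub2] at h₄'
  have h2 : 2 ≤ ℓ * ℓ := by
    have := (Fact.out : ℓ.Prime).two_le
    nlinarith
  obtain ⟨-, e4⟩ := ft_e1' W k hΔ _ _ (ℓ * ℓ) h2 p₃ q₃ p₄ q₄
    (ft_ratio_frob2P0 W k hΔ) (ft_ratio_P0 W k hΔ) h₃' h₄'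
  exact ft_kd_app W k hΔ _ _ _ p₄ q₄ h₄ e4

omit [IsAlgClosed k] in
theorem ft_psi_comp :
    ft_psi W k (-1) 0 1 = (ft_psi W k 1 1 0).comp (ft_psi W k (-1) 1 0) := by
  ext P
  simp only [AddMonoidHom.comp_apply, ft_psi_apply, zero_smul, one_smul, neg_smul, zero_add,
    add_zero, map_add, map_neg]
  abel

/-- `d(Φ²P0 - P0) = d(ΦP0 - P0) * d(ΦP0 + P0)`. -/
theorem ft_d_sub2 (hΔ : W.Δ ≠ 0) :
    ft_d W k hΔ (ft_oS W k hΔ (-1) 0 1) =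
      ft_d W k hΔ (ft_oS W k hΔ (-1) 1 0) * ft_d W k hΔ (ft_oS W k hΔ 1 1 0) := by
  rw [← (ft_ker_sub2 W k hΔ).1, ← (ft_ker_sub W k hΔ).1, ← (ft_ker_add W k hΔ).1, ft_psi_comp,
    ft_card_ker_comp _ _ (ft_ker_sub W k hΔ).2]
  push_cast
  rfl

end

end Fermat.Agent.Lib
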