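import Fermat.Agent.Lib.FrobTrace.FunField

/-!
# S52 block TR, piece KE (2): the involution `τ` of the function field and its fixed field.
-/

set_option autoImplicit false

namespace Fermat.Agent.Lib

open WeierstrassCurve Polynomial

noncomputable section

variable {ℓ : ℕ} [Fact ℓ.Prime] (W : WeierstrassCurve (ZMod ℓ)) (k : Type*) [Field k]
  [Algebra (ZMod ℓ) k]

/-- `h = a₁ t + a₃` in `k(t)`. -/
def ft_h : RatFunc k :=
  algebraMap (ZMod ℓ) (RatFunc k) W.a₁ * RatFunc.X + algebraMap (ZMod ℓ) (RatFunc k) W.a₃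

/-- `f = t³ + a₂ t² + a₄ t + a₆` in `k(t)`. -/
def ft_f : RatFunc k :=
  RatFunc.X ^ 3 + algebraMap (ZMod ℓ) (RatFunc k) W.a₂ * RatFunc.X ^ 2
    + algebraMap (ZMod ℓ) (RatFunc k) W.a₄ * RatFunc.X + algebraMap (ZMod ℓ) (RatFunc k) W.a₆

theorem ft_g_eq' : ft_g W k = X ^ 2 + C (ft_h W k) * X - C (ft_f W k) := ft_g_eq W k

/-- `s² + h s = f`. -/
theorem ft_s_sq : ft_s W k ^ 2 + algebraMap (RatFunc k) (ft_L W k) (ft_h W k) * ft_s W k
    = algebraMap (RatFunc k) (ft_L W k) (ft_f W k) := by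
  have h : aeval (ft_s W k) (X ^ 2 + C (ft_h W k) * X - C (ft_f W k) : (RatFunc k)[X]) = 0 := by
    rw [← ft_g_eq']; exact ft_aeval_s W k
  simp only [map_sub, map_add, map_mul, map_pow, aeval_X, aeval_C] at h
  linear_combination h

/-- the conjugate root `-s - h`. -/
def ft_sbar : ft_L W k := - ft_s W k - algebraMap (RatFunc k) (ft_L W k) (ft_h W k)

theorem ft_sbar_root : eval₂ (algebraMap (RatFunc k) (ft_L W k)) (ft_sbar W k) (ft_g W k) = 0 := by
  have h := ft_s_sq W k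
  have e := congrArg (eval₂ (algebraMap (RatFunc k) (ft_L W k)) (ft_sbar W k)) (ft_g_eq' W k)
  rw [e]
  simp only [eval₂_sub, eval₂_add, eval₂_mul, eval₂_pow, eval₂_X, eval₂_C, ft_sbar]
  linear_combination h

/-- the involution as an algebra hom. -/
def ft_tauHom : ft_L W k →ₐ[RatFunc k] ft_L W k :=
  AdjoinRoot.liftAlgHom (ft_g W k) (Algebra.ofId (RatFunc k) (ft_L W k)) (ft_sbar W k)
    (by simpa using ft_sbar_root W k)

theorem ft_tauHom_s : ft_tauHom W k (ft_s W k) = ft_sbar W k := by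
  simp [ft_tauHom, ft_s]

theorem ft_tauHom_tauHom (z : ft_L W k) : ft_tauHom W k (ft_tauHom W k z) = z := by
  have : (ft_tauHom W k).comp (ft_tauHom W k) = AlgHom.id _ _ := by
    apply AdjoinRoot.algHom_ext
    have h1 : ft_tauHom W k (AdjoinRoot.root (ft_g W k)) = ft_sbar W k := ft_tauHom_s W k
    simp only [AlgHom.comp_apply, AlgHom.id_apply, h1]
    simp only [ft_sbar, map_sub, map_neg, AlgHom.commutes]
    rw [show ft_tauHom W k (ft_s W k) = ft_sbar W k from ft_tauHom_s W k, ft_sbar]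
    simp [ft_s]
  exact congrArg (fun f => f z) this

/-- the involution. -/
def ft_tau : ft_L W k ≃ₐ[RatFunc k] ft_L W k :=
  AlgEquiv.ofAlgHom (ft_tauHom W k) (ft_tauHom W k)
    (AlgHom.ext (ft_tauHom_tauHom W k)) (AlgHom.ext (ft_tauHom_tauHom W k))

theorem ft_tau_s : ft_tau W k (ft_s W k) = ft_sbar W k := ft_tauHom_s W k

theorem ft_tau_t : ft_tau W k (ft_t W k) = ft_t W k :=
  (ft_tau W k).commutes RatFunc.X

end

end Fermat.Agent.Lib

namespace Fermat.Agent.Lib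

open WeierstrassCurve Polynomial

noncomputable section

variable {ℓ : ℕ} [Fact ℓ.Prime] (W : WeierstrassCurve (ZMod ℓ)) (k : Type*) [Field k]
  [Algebra (ZMod ℓ) k]

/-- every element of `L` is `a + b s`. -/
theorem ft_exists_repr (z : ft_L W k) : ∃ a b : RatFunc k,
    z = algebraMap (RatFunc k) (ft_L W k) a + algebraMap (RatFunc k) (ft_L W k) b * ft_s W k := by
  obtain ⟨p, rfl⟩ := AdjoinRoot.mk_surjective z
  have hg := ft_g_monic W k
  have hdeg : (ft_g W k).degree = 2 := by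
    rw [ft_g_eq']
    compute_degree!
  have hnd : (ft_g W k).natDegree = 2 := natDegree_eq_of_degree_eq_some hdeg
  have h1 : (p %ₘ ft_g W k).natDegree ≤ 1 := by
    have hne : ft_g W k ≠ 1 := by
      intro h; rw [h] at hnd; simp at hnd
    have := natDegree_modByMonic_lt p hg hne
    omega
  have h2 := eq_X_add_C_of_natDegree_le_one h1
  refine ⟨(p %ₘ ft_g W k).coeff 0, (p %ₘ ft_g W k).coeff 1, ?_⟩
  have h3 : AdjoinRoot.mk (ft_g W k) p = AdjoinRoot.mk (ft_g W k) (p %ₘ ft_g W k) := by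
    rw [AdjoinRoot.mk_eq_mk]
    exact ⟨p /ₘ ft_g W k, by
      have := modByMonic_add_div p (ft_g W k)
      linear_combination -this⟩
  rw [h3]
  conv_lhs => rw [h2]
  simp only [map_add, map_mul, AdjoinRoot.mk_C, AdjoinRoot.mk_X, ft_s]
  rw [add_comm]
  rfl

theorem ft_two_s_add_h_ne_zero (hΔ : W.Δ ≠ 0) :
    2 * ft_s W k + algebraMap (RatFunc k) (ft_L W k) (ft_h W k) ≠ 0 := by
  intro h0
  have hdeg : (ft_g W k).degree = 2 := by
    rw [ft_g_eq']
    compute_degree!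
  have h1 : AdjoinRoot.mk (ft_g W k) (C 2 * X + C (ft_h W k)) = 0 := by
    simp only [map_add, map_mul, AdjoinRoot.mk_C, AdjoinRoot.mk_X]
    have : (AdjoinRoot.of (ft_g W k)) 2 = 2 := map_ofNat _ 2
    rw [this]
    exact h0
  rw [AdjoinRoot.mk_eq_zero] at h1
  have h2 : (C 2 * X + C (ft_h W k) : (RatFunc k)[X]) = 0 := by
    by_contra hne
    have := degree_le_of_dvd h1 hne
    rw [hdeg] at this
    have h3 : (C 2 * X + C (ft_h W k) : (RatFunc k)[X]).degree ≤ 1 := by compute_degree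
    exact absurd (this.trans h3) (by decide)
  have h20 : (2 : RatFunc k) = 0 := by
    have := congrArg (fun p => p.coeff 1) h2
    simpa using this
  have hh0 : ft_h W k = 0 := by
    have := congrArg (fun p => p.coeff 0) h2
    simpa using this
  -- transfer to `ZMod ℓ`
  have hinj : Function.Injective (algebraMap (ZMod ℓ) (RatFunc k)) :=
    (algebraMap (ZMod ℓ) (RatFunc k)).injective
  have h2' : (2 : ZMod ℓ) = 0 := hinj (by rw [map_ofNat, map_zero]; exact h20)
  have ha : W.a₁ = 0 ∧ W.a₃ = 0 := by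
    rw [ft_h] at hh0
    have e1 : algebraMap (ZMod ℓ) (RatFunc k) W.a₁ =
        algebraMap k[X] (RatFunc k) (C (algebraMap (ZMod ℓ) k W.a₁)) := by
      rw [IsScalarTower.algebraMap_apply (ZMod ℓ) k (RatFunc k), RatFunc.algebraMap_eq_C,
        RatFunc.algebraMap_C]
    have e3 : algebraMap (ZMod ℓ) (RatFunc k) W.a₃ =
        algebraMap k[X] (RatFunc k) (C (algebraMap (ZMod ℓ) k W.a₃)) := by
      rw [IsScalarTower.algebraMap_apply (ZMod ℓ) k (RatFunc k), RatFunc.algebraMap_eq_C,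
        RatFunc.algebraMap_C]
    rw [e1, e3, ← RatFunc.algebraMap_X, ← map_mul, ← map_add] at hh0
    have hp : (C (algebraMap (ZMod ℓ) k W.a₁) * X + C (algebraMap (ZMod ℓ) k W.a₃) : k[X]) = 0 :=
      (RatFunc.algebraMap_injective k) (by rw [hh0, map_zero])
    have c1 := congrArg (fun p => p.coeff 1) hp
    have c0 := congrArg (fun p => p.coeff 0) hp
    simp at c1 c0
    exact ⟨c1, c0⟩
  apply hΔ
  have h4 : (4 : ZMod ℓ) = 0 := by linear_combination 2 * h2'
  simp only [WeierstrassCurve.Δ, WeierstrassCurve.b₂, WeierstrassCurve.b₄, WeierstrassCurve.b₆,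
    WeierstrassCurve.b₈, ha.1, ha.2]
  linear_combination (-(4 * W.a₂) ^ 2 * (4 * W.a₂ * W.a₆ - W.a₄ ^ 2) * 0 - 4 * W.a₂ ^ 2 * (4 * W.a₂ * W.a₆ - W.a₄ ^ 2)
    - 16 * W.a₄ ^ 3 - 108 * W.a₆ ^ 2 + 72 * W.a₂ * W.a₄ * W.a₆) * h4 + 0 * h2'

/-- the fixed field of `τ` is `k(t)`. -/
theorem ft_fixed (hΔ : W.Δ ≠ 0) (z : ft_L W k) (hz : ft_tau W k z = z) :
    ∃ r : RatFunc k, algebraMap (RatFunc k) (ft_L W k) r = z := by
  obtain ⟨a, b, rfl⟩ := ft_exists_repr W k z
  refine ⟨a, ?_⟩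
  have h1 : ft_tau W k (algebraMap (RatFunc k) (ft_L W k) a
      + algebraMap (RatFunc k) (ft_L W k) b * ft_s W k)
      = algebraMap (RatFunc k) (ft_L W k) a + algebraMap (RatFunc k) (ft_L W k) b * ft_sbar W k := by
    rw [map_add, map_mul, ft_tau_s, AlgEquiv.commutes, AlgEquiv.commutes]
  rw [h1, ft_sbar] at hz
  have h2 : algebraMap (RatFunc k) (ft_L W k) b
      * (2 * ft_s W k + algebraMap (RatFunc k) (ft_L W k) (ft_h W k)) = 0 := by
    linear_combination -hz
  rcases mul_eq_zero.mp h2 with h3 | h3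
  · rw [h3]; ring
  · exact absurd h3 (ft_two_s_add_h_ne_zero W k hΔ)

end

end Fermat.Agent.Lib
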