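import Fermat.Agent.Lib.FrobTrace.Defs
import Fermat.Agent.Lib.FrobTrace.Invol

/-!
# S52 block TR, piece KE (3): the generic point, Frobenius and the involution on points,
the subgroup of odd points, x-coordinates in `k(t)`.
-/

set_option autoImplicit false

namespace Fermat.Agent.Lib

open WeierstrassCurve Polynomial

noncomputable section

variable {ℓ : ℕ} [Fact ℓ.Prime] (W : WeierstrassCurve (ZMod ℓ)) (k : Type*) [Field k]
  [Algebra (ZMod ℓ) k]

theorem ft_Δ_ne_zero (hΔ : W.Δ ≠ 0) (F : Type*) [Field F] [Algebra (ZMod ℓ) F] :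
    (W.baseChange F).Δ ≠ 0 := by
  rw [WeierstrassCurve.baseChange, WeierstrassCurve.map_Δ]
  exact fun h => hΔ ((algebraMap (ZMod ℓ) F).injective (by rw [h, map_zero]))

theorem ft_nonsingular (hΔ : W.Δ ≠ 0) :
    ((W.baseChange (ft_L W k)).toAffine).Nonsingular (ft_t W k) (ft_s W k) :=
  (Affine.equation_iff_nonsingular_of_Δ_ne_zero (ft_Δ_ne_zero W hΔ _)).mp (ft_equation W k)

/-- the generic point `P0 = (t, s)`. -/
def ft_P0 (hΔ : W.Δ ≠ 0) : (W.baseChange (ft_L W k)).toAffine.Point :=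
  .some _ _ (ft_nonsingular W k hΔ)

/-- Frobenius on points over any `𝔽_ℓ`-algebra field. -/
def ft_frob (F : Type*) [Field F] [Algebra (ZMod ℓ) F] [DecidableEq F] :
    (W.baseChange F).toAffine.Point →+ (W.baseChange F).toAffine.Point :=
  Affine.Point.map (W' := W.toAffine) (FiniteField.frobeniusAlgHom (ZMod ℓ) F)

/-- the involution on points. -/
def ft_tauPt : (W.baseChange (ft_L W k)).toAffine.Point →+ (W.baseChange (ft_L W k)).toAffine.Point :=
  Affine.Point.map (W' := W.toAffine) (S := RatFunc k) (ft_tau W k : ft_L W k →ₐ[RatFunc k] ft_L W k)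

/-- the subgroup of odd points. -/
def ft_odd : AddSubgroup (W.baseChange (ft_L W k)).toAffine.Point where
  carrier := {S | ft_tauPt W k S = -S}
  zero_mem' := by simp
  add_mem' := by
    intro a b ha hb
    simp only [Set.mem_ofPred_eq] at ha hb ⊢
    rw [map_add, ha, hb, neg_add]
  neg_mem' := by
    intro a ha
    simp only [Set.mem_ofPred_eq] at ha ⊢
    rw [map_neg, ha]

theorem ft_mem_odd_iff (S : (W.baseChange (ft_L W k)).toAffine.Point) :
    S ∈ ft_odd W k ↔ ft_tauPt W k S = -S := Iff.rfl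

theorem ft_P0_mem_odd (hΔ : W.Δ ≠ 0) : ft_P0 W k hΔ ∈ ft_odd W k := by
  rw [ft_mem_odd_iff, ft_P0, ft_tauPt, Affine.Point.map_some, Affine.Point.neg_some]
  congr 1
  · exact ft_tau_t W k
  · change ft_tau W k (ft_s W k) = _
    rw [ft_tau_s, ft_sbar, Affine.negY]
    simp only [WeierstrassCurve.baseChange, WeierstrassCurve.map_a₁, WeierstrassCurve.map_a₃, ft_h,
      map_add, map_mul, ft_t, ← IsScalarTower.algebraMap_apply]
    ring

theorem ft_frob_some (F : Type*) [Field F] [Algebra (ZMod ℓ) F] [DecidableEq F] {x y : F}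
    (h : (W.baseChange F).toAffine.Nonsingular x y) :
    ∃ h', ft_frob W F (.some x y h) = .some (x ^ ℓ) (y ^ ℓ) h' := by
  have := Affine.Point.map_some (W' := W.toAffine) (FiniteField.frobeniusAlgHom (ZMod ℓ) F) h
  simp only [FiniteField.coe_frobeniusAlgHom, ZMod.card] at this
  exact ⟨_, this⟩

theorem ft_tauPt_some {x y : ft_L W k}
    (h : (W.baseChange (ft_L W k)).toAffine.Nonsingular x y) :
    ∃ h', ft_tauPt W k (.some x y h) = .some (ft_tau W k x) (ft_tau W k y) h' :=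
  ⟨_, Affine.Point.map_some (W' := W.toAffine) (S := RatFunc k)
      (ft_tau W k : ft_L W k →ₐ[RatFunc k] ft_L W k) h⟩

theorem ft_tauPt_frob (S : (W.baseChange (ft_L W k)).toAffine.Point) :
    ft_tauPt W k (ft_frob W (ft_L W k) S) = ft_frob W (ft_L W k) (ft_tauPt W k S) := by
  rcases S with _ | ⟨x, y, h⟩
  · change ft_tauPt W k (ft_frob W (ft_L W k) 0) = ft_frob W (ft_L W k) (ft_tauPt W k 0)
    simp
  · obtain ⟨h1, e1⟩ := ft_frob_some W (ft_L W k) h
    obtain ⟨h2, e2⟩ := ft_tauPt_some W k h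
    obtain ⟨h3, e3⟩ := ft_frob_some W (ft_L W k) h2
    obtain ⟨h4, e4⟩ := ft_tauPt_some W k h1
    rw [e1, e2, e3, e4]
    congr 1 <;> exact map_pow _ _ _

theorem ft_frob_mem_odd {S : (W.baseChange (ft_L W k)).toAffine.Point} (hS : S ∈ ft_odd W k) :
    ft_frob W (ft_L W k) S ∈ ft_odd W k := by
  rw [ft_mem_odd_iff] at hS ⊢
  rw [ft_tauPt_frob, hS, map_neg]

theorem ft_odd_x_fixed {x y : ft_L W k} {h : (W.baseChange (ft_L W k)).toAffine.Nonsingular x y}
    (hS : (Affine.Point.some x y h) ∈ ft_odd W k) : ft_tau W k x = x := by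
  rw [ft_mem_odd_iff] at hS
  obtain ⟨h2, e2⟩ := ft_tauPt_some W k h
  rw [e2, Affine.Point.neg_some] at hS
  injection hS

theorem ft_odd_exists_ratio (hΔ : W.Δ ≠ 0) {S : (W.baseChange (ft_L W k)).toAffine.Point}
    (hS : S ∈ ft_odd W k) : ∃ p q : k[X], ft_isXRatio S p q := by
  rcases S with _ | ⟨x, y, h⟩
  · refine ⟨1, 0, isCoprime_one_left, ?_⟩
    change (0 : (W.baseChange (ft_L W k)).toAffine.Point).xRep 0 * _ =
      (0 : (W.baseChange (ft_L W k)).toAffine.Point).xRep 1 * _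
    simp
  · obtain ⟨r, hr⟩ := ft_fixed W k hΔ x (ft_odd_x_fixed W k hS)
    refine ⟨r.num, r.denom, RatFunc.isCoprime_num_denom r, ?_⟩
    simp only [Affine.Point.xRep_some, Matrix.cons_val_zero, Matrix.cons_val_one, one_mul]
    rw [← hr, IsScalarTower.algebraMap_apply k[X] (RatFunc k) (ft_L W k),
      IsScalarTower.algebraMap_apply k[X] (RatFunc k) (ft_L W k), ← map_mul]
    congr 1
    have h1 := RatFunc.num_div_denom r
    have h2 : algebraMap k[X] (RatFunc k) r.denom ≠ 0 :=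
      fun h0 => RatFunc.denom_ne_zero r ((RatFunc.algebraMap_injective k) (by rw [h0, map_zero]))
    rw [div_eq_iff h2] at h1
    exact h1.symm

theorem ft_ratio_P0 (hΔ : W.Δ ≠ 0) : ft_isXRatio (ft_P0 W k hΔ) (X : k[X]) 1 := by
  refine ⟨isCoprime_one_right, ?_⟩
  simp only [ft_P0, Affine.Point.xRep_some, Matrix.cons_val_zero, Matrix.cons_val_one, one_mul,
    map_one, mul_one]
  exact ft_t_eq W k

theorem ft_ratio_frob {S : (W.baseChange (ft_L W k)).toAffine.Point} {p q : k[X]}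
    (h : ft_isXRatio S p q) : ft_isXRatio (ft_frob W (ft_L W k) S) (p ^ ℓ) (q ^ ℓ) := by
  obtain ⟨hc, he⟩ := h
  refine ⟨hc.pow, ?_⟩
  rcases S with _ | ⟨x, y, hxy⟩
  · change (0 : (W.baseChange (ft_L W k)).toAffine.Point).xRep 0 * _ =
      (0 : (W.baseChange (ft_L W k)).toAffine.Point).xRep 1 * _ at he
    change (ft_frob W (ft_L W k) 0).xRep 0 * _ = (ft_frob W (ft_L W k) 0).xRep 1 * _
    rw [map_zero]
    simp only [Affine.Point.xRep_zero, Matrix.cons_val_zero, Matrix.cons_val_one, one_mul,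
      zero_mul] at he ⊢
    rw [map_pow, he, zero_pow (Fact.out : ℓ.Prime).ne_zero]
  · obtain ⟨h1, e1⟩ := ft_frob_some W (ft_L W k) hxy
    rw [e1]
    simp only [Affine.Point.xRep_some, Matrix.cons_val_zero, Matrix.cons_val_one, one_mul] at he ⊢
    rw [map_pow, map_pow, ← mul_pow, he]

end

end Fermat.Agent.Lib
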