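import Mathlib
import Fermat.Prelude.Def_FLTPrelim_Modularity
import Fermat.Agent.Lib.FrobTrace.Generic

/-!
# Block FIN-D of the Frobenius trace theorem: fixed points of Frobenius are the rational points

For `W` over `𝔽_ℓ` and a field `k ⊇ 𝔽_ℓ`, the points of `W(k)` fixed by the Frobenius map
`(x, y) ↦ (x^ℓ, y^ℓ)` are exactly the points of `W(𝔽_ℓ)`; in particular their number is `W.card`.
-/

set_option autoImplicit false

namespace Fermat.Agent.Lib

open WeierstrassCurve Polynomial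

section
variable {ℓ : ℕ} [Fact ℓ.Prime]

/-- an element of a field `k ⊇ 𝔽_ℓ` fixed by `x ↦ x^ℓ` lies in `𝔽_ℓ`. -/
theorem ft_mem_range_of_pow_eq (k : Type*) [Field k] [Algebra (ZMod ℓ) k] {x : k}
    (hx : x ^ ℓ = x) : ∃ a : ZMod ℓ, algebraMap (ZMod ℓ) k a = x := by
  have : CharP k ℓ := charP_of_injective_algebraMap (algebraMap (ZMod ℓ) k).injective ℓ
  have hmem : x ∈ (⊥ : Subfield k) := (Subfield.mem_bot_iff_pow_eq_self k ℓ).mpr hx
  rw [← ZMod.fieldRange_castHom_eq_bot ℓ] at hmem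
  obtain ⟨a, ha⟩ := hmem
  refine ⟨a, ?_⟩
  rw [← ha]
  exact congrFun (congrArg DFunLike.coe
    (Subsingleton.elim (algebraMap (ZMod ℓ) k) (ZMod.castHom dvd_rfl k))) a

theorem ft_algebraMap_pow (k : Type*) [Field k] [Algebra (ZMod ℓ) k] (a : ZMod ℓ) :
    (algebraMap (ZMod ℓ) k a) ^ ℓ = algebraMap (ZMod ℓ) k a := by
  rw [← map_pow, ZMod.pow_card]

variable (W : WeierstrassCurve (ZMod ℓ)) (k : Type*) [Field k] [Algebra (ZMod ℓ) k]
  [DecidableEq k]

/-- the inclusion `W(𝔽_ℓ) → W(k)`. -/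
noncomputable def ft_incl : W.toAffine.Point →+ (W.baseChange k).toAffine.Point :=
  Affine.Point.map (W' := W.toAffine) (S := ZMod ℓ) (F := ZMod ℓ) (K := k)
    (Algebra.ofId (ZMod ℓ) k)

theorem ft_incl_injective : Function.Injective (ft_incl W k) :=
  Affine.Point.map_injective (W' := W.toAffine) (S := ZMod ℓ) (F := ZMod ℓ) (K := k)
    (Algebra.ofId (ZMod ℓ) k)

theorem ft_incl_some {a b : ZMod ℓ} (h : W.toAffine.Nonsingular a b) :
    ∃ h', ft_incl W k (.some a b h) =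
      .some (algebraMap (ZMod ℓ) k a) (algebraMap (ZMod ℓ) k b) h' :=
  ⟨_, Affine.Point.map_some (W' := W.toAffine) (S := ZMod ℓ) (F := ZMod ℓ) (K := k)
    (Algebra.ofId (ZMod ℓ) k) h⟩

theorem ft_frob_incl (Q : W.toAffine.Point) : ft_frob W k (ft_incl W k Q) = ft_incl W k Q := by
  rcases Q with _ | ⟨a, b, h⟩
  · change ft_frob W k (ft_incl W k 0) = ft_incl W k 0
    rw [map_zero, map_zero]
  · obtain ⟨h1, e1⟩ := ft_incl_some W k h
    obtain ⟨h2, e2⟩ := ft_frob_some W k h1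
    rw [e1, e2]
    congr 1
    · exact ft_algebraMap_pow k a
    · exact ft_algebraMap_pow k b

theorem ft_exists_incl_of_fixed (P : (W.baseChange k).toAffine.Point)
    (hP : ft_frob W k P = P) : ∃ Q : W.toAffine.Point, ft_incl W k Q = P := by
  rcases P with _ | ⟨x, y, h⟩
  · exact ⟨0, map_zero _⟩
  · obtain ⟨h2, e2⟩ := ft_frob_some W k h
    rw [e2] at hP
    have hx : x ^ ℓ = x := by injection hP
    have hy : y ^ ℓ = y := by injection hP
    obtain ⟨a, rfl⟩ := ft_mem_range_of_pow_eq k hx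
    obtain ⟨b, rfl⟩ := ft_mem_range_of_pow_eq k hy
    have hab : W.toAffine.Nonsingular a b :=
      (WeierstrassCurve.Affine.baseChange_nonsingular (W := W.toAffine) (A := ZMod ℓ) (B := k)
        (f := Algebra.ofId (ZMod ℓ) k) (Algebra.ofId (ZMod ℓ) k).injective a b).mp h
    obtain ⟨h1, e1⟩ := ft_incl_some W k hab
    exact ⟨.some a b hab, e1⟩

/-- **FIN-D**: the fixed points of Frobenius are the rational points. -/
theorem ft_card_fixed {ℓ : ℕ} [Fact ℓ.Prime] (W : WeierstrassCurve (ZMod ℓ)) (k : Type*) [Field k]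
    [Algebra (ZMod ℓ) k] [DecidableEq k] :
    Nat.card {P : (W.baseChange k).toAffine.Point // ft_frob W k P = P} = W.card := by
  unfold WeierstrassCurve.card
  symm
  refine Nat.card_congr (Equiv.ofBijective
    (fun Q => (⟨ft_incl W k Q, ft_frob_incl W k Q⟩ :
      {P : (W.baseChange k).toAffine.Point // ft_frob W k P = P})) ⟨?_, ?_⟩)
  · intro Q Q' hQ
    exact ft_incl_injective W k (congrArg Subtype.val hQ)
  · rintro ⟨P, hP⟩
    obtain ⟨Q, hQ⟩ := ft_exists_incl_of_fixed W k P hP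
    exact ⟨Q, Subtype.ext hQ⟩

end

end Fermat.Agent.Lib
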