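import Fermat.Agent.Lib.FrobTrace.DegFrob
import Fermat.Prelude.Def_FLTPrelim_Modularity
import Fermat.Agent.Lib.FrobTrace.Fixed

/-!
# S52 block TR, piece FIN (2): the Frobenius trace theorem `φ² - a φ + ℓ = 0` on `W(k)`.
-/

set_option autoImplicit false
set_option linter.unusedSectionVars false

namespace Fermat.Agent.Lib

open WeierstrassCurve Polynomial

noncomputable section

variable {ℓ : ℕ} [Fact ℓ.Prime] (W : WeierstrassCurve (ZMod ℓ)) (k : Type*) [Field k]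
  [Algebra (ZMod ℓ) k] [DecidableEq k] [IsAlgClosed k]

/-- the degree of `Φ²P0 - a ΦP0 + ℓ P0` vanishes, `a = ℓ + 1 - #ker(φ - 1)`. -/
theorem ft_d_zero (hΔ : W.Δ ≠ 0) :
    ft_d W k hΔ (ft_oS W k hΔ ℓ (-((ℓ : ℤ) + 1 - Nat.card (ft_psi W k (-1) 1 0).ker)) 1) = 0 := by
  have hsub : ft_oS W k hΔ (-1) 1 0 =
      ft_oFrob W k (ft_oP0 W k hΔ) - ft_oP0 W k hΔ := by
    rw [ft_oS_eq]; simp [sub_eq_add_neg]
  have hadd : ft_oS W k hΔ 1 1 0 =
      ft_oFrob W k (ft_oP0 W k hΔ) + ft_oP0 W k hΔ := by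
    rw [ft_oS_eq]; simp
  have hsub2 : ft_oS W k hΔ (-1) 0 1 =
      ft_oFrob W k (ft_oFrob W k (ft_oP0 W k hΔ)) - ft_oP0 W k hΔ := by
    rw [ft_oS_eq]; simp [sub_eq_add_neg]
  have hN := (ft_ker_sub W k hΔ).1
  rw [hsub] at hN
  have hpar := ft_d_par W k hΔ (ft_oFrob W k (ft_oP0 W k hΔ)) (ft_oP0 W k hΔ)
  rw [ft_d_frob, ft_d_P0] at hpar
  have h2 := ft_d_sub2 W k hΔ
  rw [hsub, hadd, hsub2] at h2
  have key := ft_gram (ft_d W k hΔ) (ft_d_par W k hΔ) (ft_oFrob W k) (ℓ : ℤ) (ft_d_frob W k hΔ)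
    (ft_oP0 W k hΔ) (ft_d_P0 W k hΔ) _ hN.symm (by rw [h2, ← hN]; congr 1; linarith)
  rw [ft_oS_eq]
  have e : ∀ (x y z : ft_odd W k) (a : ℤ),
      (1 : ℤ) • x + (-a) • y + (ℓ : ℤ) • z = x - a • y + (ℓ : ℤ) • z := by
    intro x y z a
    rw [one_smul, neg_smul, sub_eq_add_neg]
  rw [e]
  exact key

/-- if the degree of `S_c` vanishes then `ψ_c = 0`. -/
theorem ft_psi_zero_of_d (hΔ : W.Δ ≠ 0) (c₀ c₁ c₂ : ℤ)
    (hd : ft_d W k hΔ (ft_oS W k hΔ c₀ c₁ c₂) = 0) : ft_psi W k c₀ c₁ c₂ = 0 := by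
  obtain ⟨u, v, hr⟩ := ft_odd_exists_ratio W k hΔ (ft_S_mem_odd W k hΔ c₀ c₁ c₂)
  rw [ft_d_eq W k hΔ (ft_oS W k hΔ c₀ c₁ c₂) hr] at hd
  have hd' : max u.natDegree v.natDegree = 0 := by exact_mod_cast hd
  have hu : u.natDegree = 0 := by omega
  have hv : v.natDegree = 0 := by omega
  obtain ⟨b, hb⟩ : ∃ b : k, v = C b := ⟨_, eq_C_of_natDegree_eq_zero hv⟩
  obtain ⟨a, ha⟩ : ∃ a : k, u = C a := ⟨_, eq_C_of_natDegree_eq_zero hu⟩
  have hV := ft_Δ_ne_zero W hΔ k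
  by_cases hb0 : b = 0
  · ext P
    rcases P with _ | ⟨x, y, h⟩
    · exact map_zero _
    · exact (ft_spec W k hΔ c₀ c₁ c₂ u v hr x y h).1 (by rw [hb, hb0]; simp)
  · exfalso
    have hsp : ∀ (x y : k) (h : (W.baseChange k).toAffine.Nonsingular x y),
        ∃ (y' : k) (h' : (W.baseChange k).toAffine.Nonsingular (a / b) y'),
          ft_psi W k c₀ c₁ c₂ (.some x y h) = .some _ y' h' := by
      intro x y h
      have := (ft_spec W k hΔ c₀ c₁ c₂ u v hr x y h).2 (by rw [hb]; simpa using hb0)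
      simpa [ha, hb] using this
    obtain ⟨y₁, h₁⟩ := ft_kd_exists_pt (W.baseChange k) hV 0
    obtain ⟨y₂, h₂⟩ := ft_kd_exists_pt (W.baseChange k) hV 1
    obtain ⟨y', h', e'⟩ := hsp 0 y₁ h₁
    refine ft_hom_two_values' (ft_psi W k c₀ c₁ c₂) (.some _ y' h') (by simp) ?_
      (.some 0 y₁ h₁) (.some 1 y₂ h₂) (by simp) (by simp) ?_ ?_
    · intro P hP
      rcases P with _ | ⟨x, y, h⟩
      · exact absurd rfl hP
      · obtain ⟨y'', h'', e''⟩ := hsp x y h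
        rw [e'']
        exact ft_kd_eq_or_eq_neg (W.baseChange k) h'' h'
    · intro h0
      have h3 : (Affine.Point.some 0 y₁ h₁ : (W.baseChange k).toAffine.Point)
          = -Affine.Point.some 1 y₂ h₂ := eq_neg_of_add_eq_zero_left h0
      rw [Affine.Point.neg_some] at h3
      injection h3 with h4
      exact zero_ne_one h4
    · intro h0
      have h3 : (Affine.Point.some 0 y₁ h₁ : (W.baseChange k).toAffine.Point)
          = Affine.Point.some 1 y₂ h₂ := sub_eq_zero.1 h0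
      injection h3 with h4
      exact zero_ne_one h4


omit [IsAlgClosed k] in
theorem ft_card_ker_eq_fixed :
    Nat.card (ft_psi W k (-1) 1 0).ker =
      Nat.card {P : (W.baseChange k).toAffine.Point // ft_frob W k P = P} := by
  refine Nat.card_congr (Equiv.subtypeEquivRight (fun P => ?_))
  rw [AddMonoidHom.mem_ker, ft_psi_apply, zero_smul, zero_add, one_smul, neg_smul, one_smul,
    ← sub_eq_add_neg, sub_eq_zero]

/-- the Frobenius trace theorem, assuming the count of Frobenius-fixed points. -/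
theorem ft_TR_aux (hΔ : W.Δ ≠ 0)
    (hfix : Nat.card {P : (W.baseChange k).toAffine.Point // ft_frob W k P = P} = W.card)
    (Q : (W.baseChange k).toAffine.Point) :
    ft_frob W k (ft_frob W k Q) - W.traceOfFrobenius • ft_frob W k Q + (ℓ : ℤ) • Q = 0 := by
  have h0 := ft_psi_zero_of_d W k hΔ _ _ _ (ft_d_zero W k hΔ)
  have h1 := DFunLike.congr_fun h0 Q
  rw [ft_psi_apply, ft_card_ker_eq_fixed, hfix] at h1
  have ha : W.traceOfFrobenius = (ℓ : ℤ) + 1 - (W.card : ℤ) := by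
    rw [WeierstrassCurve.traceOfFrobenius, Nat.card_zmod]
  rw [ha, sub_eq_add_neg, ← neg_smul]
  rw [one_smul] at h1
  exact h1


end

/-- **TR**: the Frobenius trace theorem. For an elliptic curve `W` over `𝔽_ℓ` and an algebraically
closed field `k ⊇ 𝔽_ℓ`, the Frobenius endomorphism `φ` of `W(k)` satisfies
`φ² - a φ + ℓ = 0`, `a = ℓ + 1 - #W(𝔽_ℓ)`. -/
theorem ft_TR (ℓ : ℕ) [Fact ℓ.Prime] (W : WeierstrassCurve (ZMod ℓ)) (hΔ : W.Δ ≠ 0)
    (k : Type*) [Field k] [Algebra (ZMod ℓ) k] [DecidableEq k] [IsAlgClosed k]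
    (Q : (W.baseChange k).toAffine.Point) :
    Affine.Point.map (W' := W.toAffine) (FiniteField.frobeniusAlgHom (ZMod ℓ) k)
        (Affine.Point.map (W' := W.toAffine) (FiniteField.frobeniusAlgHom (ZMod ℓ) k) Q)
      - W.traceOfFrobenius •
          Affine.Point.map (W' := W.toAffine) (FiniteField.frobeniusAlgHom (ZMod ℓ) k) Q
      + (ℓ : ℤ) • Q = 0 :=
  ft_TR_aux W k hΔ (ft_card_fixed W k) Q

end Fermat.Agent.Lib
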