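import Mathlib

/-!
# S52 block TR, piece KE: the function field `L = k(t)(s)` of a Weierstrass curve, the generic point,
the involution.
-/

set_option autoImplicit false

namespace Fermat.Agent.Lib

open WeierstrassCurve Polynomial

noncomputable section

variable {ℓ : ℕ} [Fact ℓ.Prime] (W : WeierstrassCurve (ZMod ℓ)) (k : Type*) [Field k]
  [Algebra (ZMod ℓ) k]

/-- The Weierstrass polynomial of `W`, as a polynomial in `Y` over `k(t)`. -/
def ft_g : (RatFunc k)[X] :=
  ((W.baseChange k).toAffine.polynomial).map (algebraMap k[X] (RatFunc k))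

theorem ft_g_monic : (ft_g W k).Monic :=
  Affine.monic_polynomial.map _

theorem ft_g_irreducible : Irreducible (ft_g W k) :=
  (Monic.irreducible_iff_irreducible_map_fraction_map Affine.monic_polynomial).mp
    Affine.irreducible_polynomial

instance ft_g_fact : Fact (Irreducible (ft_g W k)) := ⟨ft_g_irreducible W k⟩

/-- The function field of `W` over `k`. -/
abbrev ft_L : Type _ := AdjoinRoot (ft_g W k)

instance ft_L_decEq : DecidableEq (ft_L W k) := Classical.decEq _

/-- the coordinate function `t` -/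
def ft_t : ft_L W k := algebraMap (RatFunc k) (ft_L W k) RatFunc.X

/-- the coordinate function `s` -/
def ft_s : ft_L W k := AdjoinRoot.root (ft_g W k)

example : Algebra (ZMod ℓ) (ft_L W k) := inferInstance
example : Algebra k (ft_L W k) := inferInstance
example : Algebra k[X] (ft_L W k) := inferInstance
example : IsScalarTower (ZMod ℓ) k (ft_L W k) := inferInstance
example : IsScalarTower k k[X] (ft_L W k) := inferInstance
example : IsScalarTower k[X] (RatFunc k) (ft_L W k) := inferInstance
example : IsScalarTower (ZMod ℓ) (RatFunc k) (ft_L W k) := inferInstance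

theorem ft_t_eq : ft_t W k = algebraMap k[X] (ft_L W k) X := by
  rw [ft_t, IsScalarTower.algebraMap_apply k[X] (RatFunc k) (ft_L W k), RatFunc.algebraMap_X]

theorem ft_g_eq : ft_g W k =
    X ^ 2 + C (algebraMap (ZMod ℓ) (RatFunc k) W.a₁ * RatFunc.X + algebraMap (ZMod ℓ) (RatFunc k) W.a₃) * X
      - C (RatFunc.X ^ 3 + algebraMap (ZMod ℓ) (RatFunc k) W.a₂ * RatFunc.X ^ 2
          + algebraMap (ZMod ℓ) (RatFunc k) W.a₄ * RatFunc.X + algebraMap (ZMod ℓ) (RatFunc k) W.a₆) := by
  simp only [ft_g, Affine.polynomial, Polynomial.map_sub, Polynomial.map_add, Polynomial.map_mul,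
    Polynomial.map_pow, Polynomial.map_X, Polynomial.map_C, map_add, map_mul, map_pow,
    RatFunc.algebraMap_X, RatFunc.algebraMap_C, WeierstrassCurve.baseChange, WeierstrassCurve.map_a₁,
    WeierstrassCurve.map_a₂, WeierstrassCurve.map_a₃, WeierstrassCurve.map_a₄, WeierstrassCurve.map_a₆,
    IsScalarTower.algebraMap_apply (ZMod ℓ) k (RatFunc k), RatFunc.algebraMap_eq_C]

theorem ft_aeval_s : aeval (ft_s W k) (ft_g W k) = 0 := by
  rw [ft_s, AdjoinRoot.aeval_eq, AdjoinRoot.mk_self]

theorem ft_equation : ((W.baseChange (ft_L W k)).toAffine).Equation (ft_t W k) (ft_s W k) := by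
  have h : aeval (ft_s W k) (X ^ 2 + C (algebraMap (ZMod ℓ) (RatFunc k) W.a₁ * RatFunc.X
      + algebraMap (ZMod ℓ) (RatFunc k) W.a₃) * X
      - C (RatFunc.X ^ 3 + algebraMap (ZMod ℓ) (RatFunc k) W.a₂ * RatFunc.X ^ 2
          + algebraMap (ZMod ℓ) (RatFunc k) W.a₄ * RatFunc.X + algebraMap (ZMod ℓ) (RatFunc k) W.a₆)
      : (RatFunc k)[X]) = 0 := by
    rw [← ft_g_eq]; exact ft_aeval_s W k
  simp only [map_sub, map_add, map_mul, map_pow, aeval_X, aeval_C] at h
  rw [Affine.equation_iff]
  simp only [WeierstrassCurve.baseChange, WeierstrassCurve.map_a₁,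
    WeierstrassCurve.map_a₂, WeierstrassCurve.map_a₃, WeierstrassCurve.map_a₄, WeierstrassCurve.map_a₆,
    IsScalarTower.algebraMap_apply (ZMod ℓ) (RatFunc k) (ft_L W k), ft_t]
  linear_combination h

end

end Fermat.Agent.Lib
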