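import Mathlib
import Fermat.Agent.Lib.FrobTrace.Defs

/-!
# S52 block TR, package RED: reduction of points at a place of good reduction

`K` a field, `𝒪` a valuation subring of `K` with residue field `κ`, `WK` a Weierstrass curve over
`K` with coefficients in `𝒪`, reducing to `Wκ` over `κ` with `Wκ.Δ ≠ 0`.  Then the reduction map
`WK(K) → Wκ(κ)` (integral affine points are reduced coordinatewise, all other points go to `0`)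
is a group homomorphism.

Main statements: `ft_red_hom` (abstract form), `ft_red_exists'`, `ft_red_exists`.
-/

set_option autoImplicit false

namespace Fermat.Agent.Lib

open WeierstrassCurve

section Lift

variable {K : Type*} [Field K] (𝒪 : ValuationSubring K)

/-- `a ∈ 𝒪` and `a` reduces to `b` in the residue field of `𝒪`. -/
def ft_Lift (a : K) (b : IsLocalRing.ResidueField 𝒪) : Prop :=
  ∃ h : a ∈ 𝒪, IsLocalRing.residue 𝒪 ⟨a, h⟩ = b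

variable {𝒪}

theorem ft_Lift.mem {a : K} {b : IsLocalRing.ResidueField 𝒪} (h : ft_Lift 𝒪 a b) : a ∈ 𝒪 := h.1

theorem ft_Lift.of_mem {a : K} (h : a ∈ 𝒪) : ft_Lift 𝒪 a (IsLocalRing.residue 𝒪 ⟨a, h⟩) :=
  ⟨h, rfl⟩

theorem ft_Lift.unique {a : K} {b c : IsLocalRing.ResidueField 𝒪} (h : ft_Lift 𝒪 a b)
    (h' : ft_Lift 𝒪 a c) : b = c := by
  obtain ⟨h1, rfl⟩ := h
  obtain ⟨h2, rfl⟩ := h'
  rfl

theorem ft_Lift.congr {a a' : K} {b b' : IsLocalRing.ResidueField 𝒪} (h : ft_Lift 𝒪 a b)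
    (h' : ft_Lift 𝒪 a' b') (e : a = a') : b = b' := by
  subst e
  exact h.unique h'

theorem ft_Lift.zero : ft_Lift 𝒪 0 0 := ⟨𝒪.zero_mem, map_zero _⟩

theorem ft_Lift.one : ft_Lift 𝒪 1 1 := ⟨𝒪.one_mem, map_one _⟩

theorem ft_Lift.add {a a' : K} {b b' : IsLocalRing.ResidueField 𝒪} (h : ft_Lift 𝒪 a b)
    (h' : ft_Lift 𝒪 a' b') : ft_Lift 𝒪 (a + a') (b + b') := by
  obtain ⟨h1, rfl⟩ := h
  obtain ⟨h2, rfl⟩ := h'
  exact ⟨𝒪.add_mem _ _ h1 h2, map_add (IsLocalRing.residue 𝒪) ⟨a, h1⟩ ⟨a', h2⟩⟩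

theorem ft_Lift.mul {a a' : K} {b b' : IsLocalRing.ResidueField 𝒪} (h : ft_Lift 𝒪 a b)
    (h' : ft_Lift 𝒪 a' b') : ft_Lift 𝒪 (a * a') (b * b') := by
  obtain ⟨h1, rfl⟩ := h
  obtain ⟨h2, rfl⟩ := h'
  exact ⟨𝒪.mul_mem _ _ h1 h2, map_mul (IsLocalRing.residue 𝒪) ⟨a, h1⟩ ⟨a', h2⟩⟩

theorem ft_Lift.neg {a : K} {b : IsLocalRing.ResidueField 𝒪} (h : ft_Lift 𝒪 a b) :
    ft_Lift 𝒪 (-a) (-b) := by
  obtain ⟨h1, rfl⟩ := h
  exact ⟨𝒪.neg_mem _ h1, map_neg (IsLocalRing.residue 𝒪) ⟨a, h1⟩⟩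

theorem ft_Lift.sub {a a' : K} {b b' : IsLocalRing.ResidueField 𝒪} (h : ft_Lift 𝒪 a b)
    (h' : ft_Lift 𝒪 a' b') : ft_Lift 𝒪 (a - a') (b - b') := by
  rw [sub_eq_add_neg, sub_eq_add_neg]
  exact h.add h'.neg

theorem ft_Lift.pow {a : K} {b : IsLocalRing.ResidueField 𝒪} (h : ft_Lift 𝒪 a b) (n : ℕ) :
    ft_Lift 𝒪 (a ^ n) (b ^ n) := by
  induction n with
  | zero => simpa using ft_Lift.one
  | succ n ih => rw [pow_succ, pow_succ]; exact ih.mul h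

theorem ft_Lift.natCast (n : ℕ) : ft_Lift 𝒪 (n : K) (n : IsLocalRing.ResidueField 𝒪) := by
  induction n with
  | zero => simpa using ft_Lift.zero
  | succ n ih => rw [Nat.cast_succ, Nat.cast_succ]; exact ih.add ft_Lift.one

theorem ft_Lift.two : ft_Lift 𝒪 (2 : K) (2 : IsLocalRing.ResidueField 𝒪) := by
  have := ft_Lift.natCast (𝒪 := 𝒪) 2
  simpa using this

theorem ft_Lift.three : ft_Lift 𝒪 (3 : K) (3 : IsLocalRing.ResidueField 𝒪) := by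
  have := ft_Lift.natCast (𝒪 := 𝒪) 3
  simpa using this

theorem ft_Lift.ne_zero {a : K} {b : IsLocalRing.ResidueField 𝒪} (h : ft_Lift 𝒪 a b)
    (hb : b ≠ 0) : a ≠ 0 := by
  rintro rfl
  exact hb (h.unique ft_Lift.zero)

theorem ft_Lift.inv {a : K} {b : IsLocalRing.ResidueField 𝒪} (h : ft_Lift 𝒪 a b) (hb : b ≠ 0) :
    ft_Lift 𝒪 a⁻¹ b⁻¹ := by
  have ha0 : a ≠ 0 := h.ne_zero hb
  obtain ⟨h1, rfl⟩ := h
  have hu : IsUnit (⟨a, h1⟩ : 𝒪) := by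
    by_contra hnu
    apply hb
    rw [IsLocalRing.residue_eq_zero_iff]
    exact (IsLocalRing.mem_maximalIdeal _).2 hnu
  obtain ⟨c, hc⟩ := hu.exists_right_inv
  have hc' : a * (c : K) = 1 := by
    have := congrArg (fun t : 𝒪 => (t : K)) hc
    simpa using this
  have hinv : a⁻¹ = (c : K) := by
    exact inv_eq_of_mul_eq_one_right hc'
  refine ⟨hinv ▸ c.2, ?_⟩
  have h2 : IsLocalRing.residue 𝒪 ⟨a, h1⟩ * IsLocalRing.residue 𝒪 c = 1 := by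
    rw [← map_mul, hc, map_one]
  have h3 : (⟨a⁻¹, hinv ▸ c.2⟩ : 𝒪) = c := Subtype.ext hinv
  rw [h3]
  exact eq_inv_of_mul_eq_one_right h2

theorem ft_Lift.div {a a' : K} {b b' : IsLocalRing.ResidueField 𝒪} (h : ft_Lift 𝒪 a b)
    (h' : ft_Lift 𝒪 a' b') (hb : b' ≠ 0) : ft_Lift 𝒪 (a / a') (b / b') := by
  rw [div_eq_mul_inv, div_eq_mul_inv]
  exact h.mul (h'.inv hb)

/-- If `a ∉ 𝒪` then `a⁻¹` lies in the maximal ideal. -/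
theorem ft_Lift.inv_of_not_mem {a : K} (h : a ∉ 𝒪) : ft_Lift 𝒪 a⁻¹ 0 := by
  have hinv : a⁻¹ ∈ 𝒪 := (𝒪.mem_or_inv_mem a).resolve_left h
  refine ⟨hinv, ?_⟩
  by_contra hne
  have := (ft_Lift.of_mem hinv).inv hne
  rw [inv_inv] at this
  exact h this.mem

end Lift

/-! ### Slope identities over a field -/

section Slope

variable {F : Type*} [Field F] [DecidableEq F] (W : WeierstrassCurve F)

/-- Two uniform identities for the slope of the line through two points with `P ≠ -Q`. -/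
theorem ft_slope_identities {x₁ x₂ y₁ y₂ : F}
    (h₁ : W.toAffine.Equation x₁ y₁) (h₂ : W.toAffine.Equation x₂ y₂)
    (hxy : ¬(x₁ = x₂ ∧ y₁ = W.toAffine.negY x₂ y₂)) :
    W.toAffine.slope x₁ x₂ y₁ y₂ * (x₁ - x₂) = y₁ - y₂ ∧
    W.toAffine.slope x₁ x₂ y₁ y₂ * (y₁ - W.toAffine.negY x₂ y₂) =
      x₁ ^ 2 + x₁ * x₂ + x₂ ^ 2 + W.a₂ * (x₁ + x₂) + W.a₄ - W.a₁ * y₁ := by
  by_cases hx : x₁ = x₂
  · subst hx
    have hy : y₁ ≠ W.toAffine.negY x₁ y₂ := fun h => hxy ⟨rfl, h⟩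
    have hyy : y₁ = y₂ := Affine.Y_eq_of_Y_ne h₁ h₂ rfl hy
    subst hyy
    rw [Affine.slope_of_Y_ne rfl hy]
    refine ⟨by simp, ?_⟩
    rw [div_mul_cancel₀ _ (sub_ne_zero.2 hy)]
    ring
  · rw [Affine.slope_of_X_ne hx]
    have hx' : x₁ - x₂ ≠ 0 := sub_ne_zero.2 hx
    refine ⟨div_mul_cancel₀ _ hx', ?_⟩
    rw [Affine.equation_iff] at h₁ h₂
    rw [div_mul_eq_mul_div, div_eq_iff hx', Affine.negY]
    linear_combination h₁ - h₂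

end Slope

/-! ### Curves with integral coefficients -/

section Curve

variable {K : Type*} [Field K] {𝒪 : ValuationSubring K}
  (WK : WeierstrassCurve K) (Wκ : WeierstrassCurve (IsLocalRing.ResidueField 𝒪))

/-- The coefficients of `WK` are integral and reduce to those of `Wκ`. -/
structure ft_CurveLift : Prop where
  a₁ : ft_Lift 𝒪 WK.a₁ Wκ.a₁
  a₂ : ft_Lift 𝒪 WK.a₂ Wκ.a₂
  a₃ : ft_Lift 𝒪 WK.a₃ Wκ.a₃
  a₄ : ft_Lift 𝒪 WK.a₄ Wκ.a₄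
  a₆ : ft_Lift 𝒪 WK.a₆ Wκ.a₆

variable {WK Wκ}

/-- an integral `x`-coordinate forces an integral `y`-coordinate -/
theorem ft_mem_y (hW : ft_CurveLift WK Wκ) {x y : K} (h : WK.toAffine.Equation x y)
    (hx : x ∈ 𝒪) : y ∈ 𝒪 := by
  by_contra hy
  have hy0 : y ≠ 0 := fun h0 => hy (h0 ▸ 𝒪.zero_mem)
  have hinv : y⁻¹ ∈ 𝒪 := (𝒪.mem_or_inv_mem y).resolve_left hy
  rw [Affine.equation_iff] at h
  have key : y = -(WK.a₁ * x + WK.a₃) + (x ^ 3 + WK.a₂ * x ^ 2 + WK.a₄ * x + WK.a₆) * y⁻¹ := by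
    field_simp
    linear_combination h
  apply hy
  rw [key]
  have hx' := ft_Lift.of_mem hx
  exact ((((hW.a₁.mul hx').add hW.a₃).neg).add
    (((((hx'.pow 3).add (hW.a₂.mul (hx'.pow 2))).add (hW.a₄.mul hx')).add hW.a₆).mul
      (ft_Lift.of_mem hinv))).mem

theorem ft_lift_negY (hW : ft_CurveLift WK Wκ) {x y : K} {X Y : IsLocalRing.ResidueField 𝒪}
    (hx : ft_Lift 𝒪 x X) (hy : ft_Lift 𝒪 y Y) :
    ft_Lift 𝒪 (WK.toAffine.negY x y) (Wκ.toAffine.negY X Y) := by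
  rw [Affine.negY, Affine.negY]
  exact (hy.neg.sub (hW.a₁.mul hx)).sub hW.a₃

theorem ft_lift_equation (hW : ft_CurveLift WK Wκ) {x y : K} {X Y : IsLocalRing.ResidueField 𝒪}
    (h : WK.toAffine.Equation x y) (hx : ft_Lift 𝒪 x X) (hy : ft_Lift 𝒪 y Y) :
    Wκ.toAffine.Equation X Y := by
  rw [Affine.equation_iff] at h ⊢
  exact ft_Lift.congr (((hy.pow 2).add ((hW.a₁.mul hx).mul hy)).add (hW.a₃.mul hy))
    ((((hx.pow 3).add (hW.a₂.mul (hx.pow 2))).add (hW.a₄.mul hx)).add hW.a₆) h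

theorem ft_lift_nonsingular (hW : ft_CurveLift WK Wκ) (hΔ : Wκ.Δ ≠ 0) {x y : K}
    {X Y : IsLocalRing.ResidueField 𝒪}
    (h : WK.toAffine.Equation x y) (hx : ft_Lift 𝒪 x X) (hy : ft_Lift 𝒪 y Y) :
    Wκ.toAffine.Nonsingular X Y :=
  (Affine.equation_iff_nonsingular_of_Δ_ne_zero hΔ).1 (ft_lift_equation hW h hx hy)

theorem ft_lift_addX (hW : ft_CurveLift WK Wκ) {x₁ x₂ l : K}
    {X₁ X₂ L : IsLocalRing.ResidueField 𝒪}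
    (hx₁ : ft_Lift 𝒪 x₁ X₁) (hx₂ : ft_Lift 𝒪 x₂ X₂) (hl : ft_Lift 𝒪 l L) :
    ft_Lift 𝒪 (WK.toAffine.addX x₁ x₂ l) (Wκ.toAffine.addX X₁ X₂ L) := by
  rw [Affine.addX, Affine.addX]
  exact ((((hl.pow 2).add (hW.a₁.mul hl)).sub hW.a₂).sub hx₁).sub hx₂

theorem ft_lift_addY (hW : ft_CurveLift WK Wκ) {x₁ x₂ y₁ l : K}
    {X₁ X₂ Y₁ L : IsLocalRing.ResidueField 𝒪}
    (hx₁ : ft_Lift 𝒪 x₁ X₁) (hx₂ : ft_Lift 𝒪 x₂ X₂) (hy₁ : ft_Lift 𝒪 y₁ Y₁)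
    (hl : ft_Lift 𝒪 l L) :
    ft_Lift 𝒪 (WK.toAffine.addY x₁ x₂ y₁ l) (Wκ.toAffine.addY X₁ X₂ Y₁ L) := by
  rw [Affine.addY, Affine.addY, Affine.negAddY, Affine.negAddY]
  exact ft_lift_negY hW (ft_lift_addX hW hx₁ hx₂ hl)
    ((hl.mul ((ft_lift_addX hW hx₁ hx₂ hl).sub hx₁)).add hy₁)

/-- if the slope is not integral, neither is `addX` -/
theorem ft_addX_not_mem (hW : ft_CurveLift WK Wκ) {x₁ x₂ l : K}
    (hx₁ : x₁ ∈ 𝒪) (hx₂ : x₂ ∈ 𝒪) (hl : l ∉ 𝒪) : WK.toAffine.addX x₁ x₂ l ∉ 𝒪 := by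
  intro hmem
  have hl0 : l ≠ 0 := fun h0 => hl (h0 ▸ 𝒪.zero_mem)
  have hinv : l⁻¹ ∈ 𝒪 := (𝒪.mem_or_inv_mem l).resolve_left hl
  have key : l = (WK.toAffine.addX x₁ x₂ l + WK.a₂ + x₁ + x₂) * l⁻¹ - WK.a₁ := by
    rw [Affine.addX]
    field_simp
    ring
  apply hl
  rw [key]
  exact (((((ft_Lift.of_mem hmem).add hW.a₂).add (ft_Lift.of_mem hx₁)).add
    (ft_Lift.of_mem hx₂)).mul (ft_Lift.of_mem hinv) |>.sub hW.a₁).mem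

variable [DecidableEq K] [DecidableEq (IsLocalRing.ResidueField 𝒪)]

/-- **B1a**: if the reductions are not opposite, the slope is integral and reduces to the slope. -/
theorem ft_lift_slope (hW : ft_CurveLift WK Wκ) {x₁ y₁ x₂ y₂ : K}
    {X₁ Y₁ X₂ Y₂ : IsLocalRing.ResidueField 𝒪}
    (h₁ : WK.toAffine.Equation x₁ y₁) (h₂ : WK.toAffine.Equation x₂ y₂)
    (hx₁ : ft_Lift 𝒪 x₁ X₁) (hy₁ : ft_Lift 𝒪 y₁ Y₁)
    (hx₂ : ft_Lift 𝒪 x₂ X₂) (hy₂ : ft_Lift 𝒪 y₂ Y₂)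
    (hne : ¬(X₁ = X₂ ∧ Y₁ = Wκ.toAffine.negY X₂ Y₂)) :
    ¬(x₁ = x₂ ∧ y₁ = WK.toAffine.negY x₂ y₂) ∧
    ft_Lift 𝒪 (WK.toAffine.slope x₁ x₂ y₁ y₂) (Wκ.toAffine.slope X₁ X₂ Y₁ Y₂) := by
  have H₁ := ft_lift_equation hW h₁ hx₁ hy₁
  have H₂ := ft_lift_equation hW h₂ hx₂ hy₂
  have hxy : ¬(x₁ = x₂ ∧ y₁ = WK.toAffine.negY x₂ y₂) := by
    rintro ⟨e1, e2⟩
    exact hne ⟨hx₁.congr hx₂ e1, hy₁.congr (ft_lift_negY hW hx₂ hy₂) e2⟩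
  refine ⟨hxy, ?_⟩
  obtain ⟨ka, kb⟩ := ft_slope_identities WK h₁ h₂ hxy
  obtain ⟨ca, cb⟩ := ft_slope_identities Wκ H₁ H₂ hne
  by_cases hX : X₁ = X₂
  · have hD : Y₁ - Wκ.toAffine.negY X₂ Y₂ ≠ 0 := sub_ne_zero.2 fun h => hne ⟨hX, h⟩
    have hDl : ft_Lift 𝒪 (y₁ - WK.toAffine.negY x₂ y₂) (Y₁ - Wκ.toAffine.negY X₂ Y₂) :=
      hy₁.sub (ft_lift_negY hW hx₂ hy₂)
    have hD0 := hDl.ne_zero hD
    rw [eq_div_of_mul_eq hD0 kb, eq_div_of_mul_eq hD cb]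
    exact (((((hx₁.pow 2).add (hx₁.mul hx₂)).add (hx₂.pow 2)).add
      (hW.a₂.mul (hx₁.add hx₂))).add hW.a₄).sub (hW.a₁.mul hy₁) |>.div hDl hD
  · have hD : X₁ - X₂ ≠ 0 := sub_ne_zero.2 hX
    have hDl : ft_Lift 𝒪 (x₁ - x₂) (X₁ - X₂) := hx₁.sub hx₂
    have hD0 := hDl.ne_zero hD
    rw [eq_div_of_mul_eq hD0 ka, eq_div_of_mul_eq hD ca]
    exact (hy₁.sub hy₂).div hDl hD

omit [DecidableEq (IsLocalRing.ResidueField 𝒪)] in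
/-- **B1b**: if the reductions are opposite but the points are not, the slope is not integral. -/
theorem ft_slope_not_mem (hW : ft_CurveLift WK Wκ) {x₁ y₁ x₂ y₂ : K}
    {X₁ Y₁ X₂ Y₂ : IsLocalRing.ResidueField 𝒪}
    (h₁ : WK.toAffine.Equation x₁ y₁) (h₂ : WK.toAffine.Equation x₂ y₂)
    (hx₁ : ft_Lift 𝒪 x₁ X₁) (hy₁ : ft_Lift 𝒪 y₁ Y₁)
    (hx₂ : ft_Lift 𝒪 x₂ X₂) (hy₂ : ft_Lift 𝒪 y₂ Y₂)
    (hns : Wκ.toAffine.Nonsingular X₁ Y₁)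
    (hX : X₁ = X₂) (hY : Y₁ = Wκ.toAffine.negY X₂ Y₂)
    (hxy : ¬(x₁ = x₂ ∧ y₁ = WK.toAffine.negY x₂ y₂)) :
    WK.toAffine.slope x₁ x₂ y₁ y₂ ∉ 𝒪 := by
  intro hmem
  have hl := ft_Lift.of_mem hmem
  set L := IsLocalRing.residue 𝒪 ⟨_, hmem⟩ with hL
  obtain ⟨ka, kb⟩ := ft_slope_identities WK h₁ h₂ hxy
  have ca : L * (X₁ - X₂) = Y₁ - Y₂ := ft_Lift.congr (hl.mul (hx₁.sub hx₂)) (hy₁.sub hy₂) ka
  have cb : L * (Y₁ - Wκ.toAffine.negY X₂ Y₂) =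
      X₁ ^ 2 + X₁ * X₂ + X₂ ^ 2 + Wκ.a₂ * (X₁ + X₂) + Wκ.a₄ - Wκ.a₁ * Y₁ :=
    ft_Lift.congr (hl.mul (hy₁.sub (ft_lift_negY hW hx₂ hy₂)))
      ((((((hx₁.pow 2).add (hx₁.mul hx₂)).add (hx₂.pow 2)).add
      (hW.a₂.mul (hx₁.add hx₂))).add hW.a₄).sub (hW.a₁.mul hy₁)) kb
  subst hX
  have hYY : Y₁ = Y₂ := by
    have : Y₁ - Y₂ = 0 := by rw [← ca]; simp
    exact sub_eq_zero.1 this
  subst hYY
  rw [Affine.nonsingular_iff] at hns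
  rw [← hY, sub_self, mul_zero] at cb
  rcases hns.2 with h | h
  · apply h
    linear_combination cb
  · exact h (by rw [Affine.negY] at hY; exact hY)

omit [DecidableEq (IsLocalRing.ResidueField 𝒪)] in
/-- **B2**: integral plus non-integral is integral. -/
theorem ft_addX_mem (hW : ft_CurveLift WK Wκ) {x₁ y₁ x₂ y₂ : K}
    (h₂ : WK.toAffine.Equation x₂ y₂)
    (hx₁ : x₁ ∈ 𝒪) (hy₁ : y₁ ∈ 𝒪) (hx₂ : x₂ ∉ 𝒪) :
    WK.toAffine.addX x₁ x₂ (WK.toAffine.slope x₁ x₂ y₁ y₂) ∈ 𝒪 := by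
  have hne : x₁ ≠ x₂ := fun h => hx₂ (h ▸ hx₁)
  have hx20 : x₂ ≠ 0 := fun h0 => hx₂ (h0 ▸ 𝒪.zero_mem)
  have hu : ft_Lift 𝒪 x₂⁻¹ 0 := ft_Lift.inv_of_not_mem hx₂
  have hX₁ := ft_Lift.of_mem hx₁
  have hY₁ := ft_Lift.of_mem hy₁
  rw [Affine.equation_iff] at h₂
  -- `w = y₂ / x₂ ^ 2` is integral
  have hw : y₂ * x₂⁻¹ ^ 2 ∈ 𝒪 := by
    by_contra hw
    have hw0 : y₂ * x₂⁻¹ ^ 2 ≠ 0 := fun h0 => hw (h0 ▸ 𝒪.zero_mem)
    have hy20 : y₂ ≠ 0 := fun h0 => hw0 (by rw [h0, zero_mul])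
    have hwinv : (y₂ * x₂⁻¹ ^ 2)⁻¹ ∈ 𝒪 := (𝒪.mem_or_inv_mem _).resolve_left hw
    have key : y₂ * x₂⁻¹ ^ 2 = -(WK.a₁ * x₂⁻¹ + WK.a₃ * x₂⁻¹ ^ 2) +
        (x₂⁻¹ + WK.a₂ * x₂⁻¹ ^ 2 + WK.a₄ * x₂⁻¹ ^ 3 + WK.a₆ * x₂⁻¹ ^ 4) *
          (y₂ * x₂⁻¹ ^ 2)⁻¹ := by
      field_simp
      linear_combination h₂
    apply hw
    rw [key]
    exact ((((hW.a₁.mul hu).add (hW.a₃.mul (hu.pow 2))).neg).add
      ((((hu.add (hW.a₂.mul (hu.pow 2))).add (hW.a₄.mul (hu.pow 3))).add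
        (hW.a₆.mul (hu.pow 4))).mul (ft_Lift.of_mem hwinv))).mem
  have hW' := ft_Lift.of_mem hw
  have hden : ft_Lift 𝒪 (1 - x₁ * x₂⁻¹) (1 - IsLocalRing.residue 𝒪 ⟨x₁, hx₁⟩ * 0) :=
    ft_Lift.one.sub (hX₁.mul hu)
  have hden1 : (1 - IsLocalRing.residue 𝒪 ⟨x₁, hx₁⟩ * 0 : IsLocalRing.ResidueField 𝒪) ≠ 0 := by
    simp
  have hden0 := hden.ne_zero hden1
  have key : WK.toAffine.addX x₁ x₂ (WK.toAffine.slope x₁ x₂ y₁ y₂) =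
      x₁ + (-(2 * y₁ + WK.a₁ * x₁ + WK.a₃) * (y₂ * x₂⁻¹ ^ 2)
        + x₂⁻¹ * (3 * x₁ ^ 2 + 2 * WK.a₂ * x₁ + WK.a₄ - WK.a₁ * y₁)
        + x₂⁻¹ ^ 2 * (WK.a₆ + y₁ ^ 2 + WK.a₁ * x₁ * y₁ - WK.a₂ * x₁ ^ 2 - 2 * x₁ ^ 3))
        * ((1 - x₁ * x₂⁻¹)⁻¹) ^ 2 := by
    rw [Affine.slope_of_X_ne hne, Affine.addX]
    have h3 : x₁ - x₂ ≠ 0 := sub_ne_zero.2 hne
    have h4 : x₂ - x₁ ≠ 0 := sub_ne_zero.2 (Ne.symm hne)
    have h5 : 1 - x₁ * x₂⁻¹ = (x₂ - x₁) * x₂⁻¹ := by field_simp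
    rw [h5]
    field_simp
    linear_combination (x₁ - x₂) ^ 2 * h₂
  rw [key]
  exact (hX₁.add ((((((ft_Lift.two.mul hY₁).add (hW.a₁.mul hX₁)).add hW.a₃).neg.mul hW').add
    (hu.mul ((((ft_Lift.three.mul (hX₁.pow 2)).add ((ft_Lift.two.mul hW.a₂).mul hX₁)).add
      hW.a₄).sub (hW.a₁.mul hY₁)))).add
    ((hu.pow 2).mul (((((hW.a₆.add (hY₁.pow 2)).add ((hW.a₁.mul hX₁).mul hY₁)).sub
      (hW.a₂.mul (hX₁.pow 2))).sub (ft_Lift.two.mul (hX₁.pow 3))))) |>.mul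
    ((hden.inv hden1).pow 2))).mem

end Curve

/-! ### The reduction map on points -/

section Points

variable {K : Type*} [Field K] {𝒪 : ValuationSubring K}
  {WK : WeierstrassCurve K} {Wκ : WeierstrassCurve (IsLocalRing.ResidueField 𝒪)}

/-- integral affine points -/
def ft_IsInt (𝒪 : ValuationSubring K) : WK.toAffine.Point → Prop
  | .zero => False
  | .some x _ _ => x ∈ 𝒪

open Classical in
/-- the reduction map, as a function -/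
noncomputable def ft_redFun (hW : ft_CurveLift WK Wκ) (hΔ : Wκ.Δ ≠ 0) :
    WK.toAffine.Point → Wκ.toAffine.Point
  | .zero => 0
  | .some x y h =>
    if hx : x ∈ 𝒪 then
      .some (IsLocalRing.residue 𝒪 ⟨x, hx⟩) (IsLocalRing.residue 𝒪 ⟨y, ft_mem_y hW h.1 hx⟩)
        (ft_lift_nonsingular hW hΔ h.1 (ft_Lift.of_mem hx) (ft_Lift.of_mem _))
    else 0

variable (hW : ft_CurveLift WK Wκ) (hΔ : Wκ.Δ ≠ 0)

@[simp] theorem ft_redFun_zero : ft_redFun hW hΔ 0 = 0 := rfl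

theorem ft_redFun_some_of_not_mem {x y : K} (h : WK.toAffine.Nonsingular x y) (hx : x ∉ 𝒪) :
    ft_redFun hW hΔ (.some x y h) = 0 := by
  simp only [ft_redFun, dif_neg hx]

theorem ft_redFun_some {x y : K} (h : WK.toAffine.Nonsingular x y)
    {X Y : IsLocalRing.ResidueField 𝒪} (hX : ft_Lift 𝒪 x X) (hY : ft_Lift 𝒪 y Y) :
    ft_redFun hW hΔ (.some x y h) = .some X Y (ft_lift_nonsingular hW hΔ h.1 hX hY) := by
  obtain ⟨hx, rfl⟩ := hX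
  obtain ⟨hy, rfl⟩ := hY
  simp only [ft_redFun, dif_pos hx]

theorem ft_redFun_eq_zero_iff (P : WK.toAffine.Point) :
    ft_redFun hW hΔ P = 0 ↔ ¬ ft_IsInt 𝒪 P := by
  rcases P with _ | ⟨x, y, h⟩
  · simp [ft_IsInt, ← Affine.Point.zero_def]
  · by_cases hx : x ∈ 𝒪
    · have hy := ft_mem_y hW h.1 hx
      rw [ft_redFun_some hW hΔ h (ft_Lift.of_mem hx) (ft_Lift.of_mem hy)]
      simp [ft_IsInt, hx, Affine.Point.some_ne_zero]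
    · rw [ft_redFun_some_of_not_mem hW hΔ h hx]
      simp [ft_IsInt, hx]

theorem ft_isInt_neg (P : WK.toAffine.Point) : ft_IsInt 𝒪 (-P) ↔ ft_IsInt 𝒪 P := by
  rcases P with _ | ⟨x, y, h⟩
  · rfl
  · rfl

theorem ft_redFun_neg (P : WK.toAffine.Point) :
    ft_redFun hW hΔ (-P) = -ft_redFun hW hΔ P := by
  rcases P with _ | ⟨x, y, h⟩
  · rfl
  · by_cases hx : x ∈ 𝒪
    · have hy := ft_mem_y hW h.1 hx
      rw [Affine.Point.neg_some,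
        ft_redFun_some hW hΔ h (ft_Lift.of_mem hx) (ft_Lift.of_mem hy),
        ft_redFun_some hW hΔ _ (ft_Lift.of_mem hx)
          (ft_lift_negY hW (ft_Lift.of_mem hx) (ft_Lift.of_mem hy)),
        Affine.Point.neg_some]
    · rw [Affine.Point.neg_some, ft_redFun_some_of_not_mem hW hΔ h hx,
        ft_redFun_some_of_not_mem hW hΔ _ hx, Affine.Point.neg_zero]

variable [DecidableEq K] [DecidableEq (IsLocalRing.ResidueField 𝒪)]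

/-- **A1** -/
theorem ft_redFun_add_of_ne (P Q : WK.toAffine.Point) (hP : ft_IsInt 𝒪 P) (hQ : ft_IsInt 𝒪 Q)
    (hne : ft_redFun hW hΔ P + ft_redFun hW hΔ Q ≠ 0) :
    ft_redFun hW hΔ (P + Q) = ft_redFun hW hΔ P + ft_redFun hW hΔ Q := by
  rcases P with _ | ⟨x₁, y₁, h₁⟩
  · exact hP.elim
  rcases Q with _ | ⟨x₂, y₂, h₂⟩
  · exact hQ.elim
  have hx₁ : x₁ ∈ 𝒪 := hP
  have hx₂ : x₂ ∈ 𝒪 := hQ
  have hX₁ := ft_Lift.of_mem hx₁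
  have hX₂ := ft_Lift.of_mem hx₂
  have hY₁ := ft_Lift.of_mem (ft_mem_y hW h₁.1 hx₁)
  have hY₂ := ft_Lift.of_mem (ft_mem_y hW h₂.1 hx₂)
  rw [ft_redFun_some hW hΔ h₁ hX₁ hY₁, ft_redFun_some hW hΔ h₂ hX₂ hY₂] at hne ⊢
  have hne' : ¬(IsLocalRing.residue 𝒪 ⟨x₁, hx₁⟩ = IsLocalRing.residue 𝒪 ⟨x₂, hx₂⟩ ∧
      IsLocalRing.residue 𝒪 ⟨y₁, ft_mem_y hW h₁.1 hx₁⟩ =
        Wκ.toAffine.negY (IsLocalRing.residue 𝒪 ⟨x₂, hx₂⟩)
          (IsLocalRing.residue 𝒪 ⟨y₂, ft_mem_y hW h₂.1 hx₂⟩)) :=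
    fun h => hne (Affine.Point.add_of_Y_eq h.1 h.2)
  obtain ⟨hxy, hl⟩ := ft_lift_slope hW h₁.1 h₂.1 hX₁ hY₁ hX₂ hY₂ hne'
  rw [Affine.Point.add_some hxy, Affine.Point.add_some hne']
  exact ft_redFun_some hW hΔ _ (ft_lift_addX hW hX₁ hX₂ hl) (ft_lift_addY hW hX₁ hX₂ hY₁ hl)

/-- **A2** -/
theorem ft_not_isInt_add (P Q : WK.toAffine.Point) (hP : ft_IsInt 𝒪 P) (hQ : ft_IsInt 𝒪 Q)
    (h0 : ft_redFun hW hΔ P + ft_redFun hW hΔ Q = 0) (hPQ : P + Q ≠ 0) :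
    ¬ ft_IsInt 𝒪 (P + Q) := by
  rcases P with _ | ⟨x₁, y₁, h₁⟩
  · exact hP.elim
  rcases Q with _ | ⟨x₂, y₂, h₂⟩
  · exact hQ.elim
  have hx₁ : x₁ ∈ 𝒪 := hP
  have hx₂ : x₂ ∈ 𝒪 := hQ
  have hX₁ := ft_Lift.of_mem hx₁
  have hX₂ := ft_Lift.of_mem hx₂
  have hY₁ := ft_Lift.of_mem (ft_mem_y hW h₁.1 hx₁)
  have hY₂ := ft_Lift.of_mem (ft_mem_y hW h₂.1 hx₂)
  rw [ft_redFun_some hW hΔ h₁ hX₁ hY₁, ft_redFun_some hW hΔ h₂ hX₂ hY₂] at h0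
  have hopp : IsLocalRing.residue 𝒪 ⟨x₁, hx₁⟩ = IsLocalRing.residue 𝒪 ⟨x₂, hx₂⟩ ∧
      IsLocalRing.residue 𝒪 ⟨y₁, ft_mem_y hW h₁.1 hx₁⟩ =
        Wκ.toAffine.negY (IsLocalRing.residue 𝒪 ⟨x₂, hx₂⟩)
          (IsLocalRing.residue 𝒪 ⟨y₂, ft_mem_y hW h₂.1 hx₂⟩) := by
    by_contra hne'
    rw [Affine.Point.add_some hne'] at h0
    exact Affine.Point.some_ne_zero _ h0
  have hxy : ¬(x₁ = x₂ ∧ y₁ = WK.toAffine.negY x₂ y₂) :=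
    fun h => hPQ (Affine.Point.add_of_Y_eq h.1 h.2)
  rw [Affine.Point.add_some hxy]
  exact ft_addX_not_mem hW hx₁ hx₂
    (ft_slope_not_mem hW h₁.1 h₂.1 hX₁ hY₁ hX₂ hY₂
      (ft_lift_nonsingular hW hΔ h₁.1 hX₁ hY₁) hopp.1 hopp.2 hxy)

omit [DecidableEq (IsLocalRing.ResidueField 𝒪)] in
/-- **A3** -/
theorem ft_isInt_add (hW : ft_CurveLift WK Wκ) (P Q : WK.toAffine.Point) (hP : ft_IsInt 𝒪 P)
    (hQ0 : Q ≠ 0) (hQ : ¬ ft_IsInt 𝒪 Q) : ft_IsInt 𝒪 (P + Q) := by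
  rcases P with _ | ⟨x₁, y₁, h₁⟩
  · exact hP.elim
  rcases Q with _ | ⟨x₂, y₂, h₂⟩
  · exact (hQ0 rfl).elim
  have hx₁ : x₁ ∈ 𝒪 := hP
  have hx₂ : x₂ ∉ 𝒪 := hQ
  have hne : x₁ ≠ x₂ := fun h => hx₂ (h ▸ hx₁)
  rw [Affine.Point.add_of_X_ne hne]
  exact ft_addX_mem hW h₂.1 hx₁ (ft_mem_y hW h₁.1 hx₁) hx₂

/-- integral + non-integral -/
theorem ft_redFun_add_of_int_of_not_int (P Q : WK.toAffine.Point) (hP : ft_IsInt 𝒪 P)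
    (hQ : ¬ ft_IsInt 𝒪 Q) :
    ft_redFun hW hΔ (P + Q) = ft_redFun hW hΔ P + ft_redFun hW hΔ Q := by
  have hQ' : ft_redFun hW hΔ Q = 0 := (ft_redFun_eq_zero_iff hW hΔ Q).2 hQ
  rw [hQ', add_zero]
  by_cases hQ0 : Q = 0
  · rw [hQ0, add_zero]
  have hS : ft_IsInt 𝒪 (P + Q) := ft_isInt_add hW P Q hP hQ0 hQ
  by_contra hne
  have hne' : ft_redFun hW hΔ (P + Q) + ft_redFun hW hΔ (-P) ≠ 0 := by
    rw [ft_redFun_neg, ← sub_eq_add_neg]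
    exact sub_ne_zero.2 hne
  have := ft_redFun_add_of_ne hW hΔ (P + Q) (-P) hS ((ft_isInt_neg P).2 hP) hne'
  rw [add_neg_cancel_comm, hQ'] at this
  exact hne' this.symm

theorem ft_redFun_add (P Q : WK.toAffine.Point) :
    ft_redFun hW hΔ (P + Q) = ft_redFun hW hΔ P + ft_redFun hW hΔ Q := by
  by_cases hP : ft_IsInt 𝒪 P
  · by_cases hQ : ft_IsInt 𝒪 Q
    · by_cases h0 : ft_redFun hW hΔ P + ft_redFun hW hΔ Q = 0
      · rw [h0, ft_redFun_eq_zero_iff]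
        by_cases hPQ : P + Q = 0
        · rw [hPQ]
          exact fun h => h
        · exact ft_not_isInt_add hW hΔ P Q hP hQ h0 hPQ
      · exact ft_redFun_add_of_ne hW hΔ P Q hP hQ h0
    · exact ft_redFun_add_of_int_of_not_int hW hΔ P Q hP hQ
  · by_cases hQ : ft_IsInt 𝒪 Q
    · rw [add_comm P Q, add_comm (ft_redFun hW hΔ P)]
      exact ft_redFun_add_of_int_of_not_int hW hΔ Q P hQ hP
    · have hP' : ft_redFun hW hΔ P = 0 := (ft_redFun_eq_zero_iff hW hΔ P).2 hP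
      have hQ' : ft_redFun hW hΔ Q = 0 := (ft_redFun_eq_zero_iff hW hΔ Q).2 hQ
      rw [hP', hQ', add_zero, ft_redFun_eq_zero_iff]
      intro hS
      by_cases hQ0 : Q = 0
      · rw [hQ0, add_zero] at hS
        exact hP hS
      · have hnQ : ¬ ft_IsInt 𝒪 (-Q) := fun h => hQ ((ft_isInt_neg Q).1 h)
        have hnQ0 : -Q ≠ 0 := fun h => hQ0 (neg_eq_zero.1 h)
        have := ft_isInt_add hW (P + Q) (-Q) hS hnQ0 hnQ
        rw [add_neg_cancel_right] at this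
        exact hP this

/-- **RED, abstract form.**  The reduction map is a group homomorphism. -/
noncomputable def ft_redHom : WK.toAffine.Point →+ Wκ.toAffine.Point where
  toFun := ft_redFun hW hΔ
  map_zero' := rfl
  map_add' := ft_redFun_add hW hΔ

theorem ft_redHom_some {x y : K} (h : WK.toAffine.Nonsingular x y)
    {X Y : IsLocalRing.ResidueField 𝒪} (hX : ft_Lift 𝒪 x X) (hY : ft_Lift 𝒪 y Y) :
    ft_redHom hW hΔ (.some x y h) = .some X Y (ft_lift_nonsingular hW hΔ h.1 hX hY) :=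
  ft_redFun_some hW hΔ h hX hY

theorem ft_redHom_some_of_not_mem {x y : K} (h : WK.toAffine.Nonsingular x y) (hx : x ∉ 𝒪) :
    ft_redHom hW hΔ (.some x y h) = 0 :=
  ft_redFun_some_of_not_mem hW hΔ h hx

theorem ft_redHom_eq_zero_iff (P : WK.toAffine.Point) :
    ft_redHom hW hΔ P = 0 ↔ ¬ ft_IsInt 𝒪 P :=
  ft_redFun_eq_zero_iff hW hΔ P

end Points

/-! ### The form used by block TR -/

section Final

variable {R : Type*} [CommRing R] {K : Type*} [Field K] [Algebra R K]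

theorem ft_curveLift_map (W : WeierstrassCurve R) (𝒪 : ValuationSubring K)
    (h𝒪 : ∀ r : R, algebraMap R K r ∈ 𝒪) :
    ft_CurveLift (𝒪 := 𝒪) (W.map (algebraMap R K)) (W.map (ft_resHom 𝒪 h𝒪)) where
  a₁ := ⟨h𝒪 _, rfl⟩
  a₂ := ⟨h𝒪 _, rfl⟩
  a₃ := ⟨h𝒪 _, rfl⟩
  a₄ := ⟨h𝒪 _, rfl⟩
  a₆ := ⟨h𝒪 _, rfl⟩

/-- **RED** (good reduction stated in the residue field; no auxiliary hypothesis). -/
theorem ft_red_exists' (W : WeierstrassCurve R) (𝒪 : ValuationSubring K)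
    (h𝒪 : ∀ r : R, algebraMap R K r ∈ 𝒪) (hΔ : ft_resHom 𝒪 h𝒪 W.Δ ≠ 0)
    [DecidableEq K] [DecidableEq (IsLocalRing.ResidueField 𝒪)] :
    ∃ red : (W.map (algebraMap R K)).toAffine.Point →+ (W.map (ft_resHom 𝒪 h𝒪)).toAffine.Point,
      (∀ (x y : K) (h : (W.map (algebraMap R K)).toAffine.Nonsingular x y) (hx : x ∈ 𝒪)
        (hy : y ∈ 𝒪),
        ∃ h' : (W.map (ft_resHom 𝒪 h𝒪)).toAffine.Nonsingular
            (IsLocalRing.residue 𝒪 ⟨x, hx⟩) (IsLocalRing.residue 𝒪 ⟨y, hy⟩),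
          red (.some x y h) = .some _ _ h') ∧
      (∀ (x y : K) (h : (W.map (algebraMap R K)).toAffine.Nonsingular x y), x ∉ 𝒪 →
          red (.some x y h) = 0) ∧
      (∀ (x y : K) (_ : (W.map (algebraMap R K)).toAffine.Nonsingular x y), x ∈ 𝒪 → y ∈ 𝒪) ∧
      (∀ (x y : K) (h : (W.map (algebraMap R K)).toAffine.Nonsingular x y),
          red (.some x y h) = 0 ↔ x ∉ 𝒪) := by
  have hW := ft_curveLift_map W 𝒪 h𝒪
  have hΔ' : (W.map (ft_resHom 𝒪 h𝒪)).Δ ≠ 0 := by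
    rw [WeierstrassCurve.map_Δ]
    exact hΔ
  refine ⟨ft_redHom hW hΔ', ?_, ?_, ?_, ?_⟩
  · intro x y h hx hy
    exact ⟨_, ft_redHom_some hW hΔ' h (ft_Lift.of_mem hx) (ft_Lift.of_mem hy)⟩
  · intro x y h hx
    exact ft_redHom_some_of_not_mem hW hΔ' h hx
  · intro x y h hx
    exact ft_mem_y hW h.1 hx
  · intro x y h
    rw [ft_redHom_eq_zero_iff]
    rfl

/-- **RED** in the shape of the TR skeleton (with the necessary extra hypothesis `hΔ0`;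
`hbig` is not used). -/
theorem ft_red_exists (W : WeierstrassCurve R) (𝒪 : ValuationSubring K)
    (h𝒪 : ∀ r : R, algebraMap R K r ∈ 𝒪) (hΔ0 : algebraMap R K W.Δ ≠ 0)
    (hΔ : (algebraMap R K W.Δ)⁻¹ ∈ 𝒪)
    [DecidableEq K] [DecidableEq (IsLocalRing.ResidueField 𝒪)]
    (_hbig : ∀ F : Finset (IsLocalRing.ResidueField 𝒪 × IsLocalRing.ResidueField 𝒪),
      ∃ (x y : K) (_ : (W.map (algebraMap R K)).toAffine.Nonsingular x y) (hx : x ∈ 𝒪)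
        (hy : y ∈ 𝒪),
        (IsLocalRing.residue 𝒪 ⟨x, hx⟩, IsLocalRing.residue 𝒪 ⟨y, hy⟩) ∉ F) :
    ∃ red : (W.map (algebraMap R K)).toAffine.Point →+ (W.map (ft_resHom 𝒪 h𝒪)).toAffine.Point,
      (∀ (x y : K) (h : (W.map (algebraMap R K)).toAffine.Nonsingular x y) (hx : x ∈ 𝒪)
        (hy : y ∈ 𝒪),
        ∃ h' : (W.map (ft_resHom 𝒪 h𝒪)).toAffine.Nonsingular
            (IsLocalRing.residue 𝒪 ⟨x, hx⟩) (IsLocalRing.residue 𝒪 ⟨y, hy⟩),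
          red (.some x y h) = .some _ _ h') ∧
      (∀ (x y : K) (h : (W.map (algebraMap R K)).toAffine.Nonsingular x y), x ∉ 𝒪 →
          red (.some x y h) = 0) := by
  have hΔ' : ft_resHom 𝒪 h𝒪 W.Δ ≠ 0 := by
    intro h0
    have hl : ft_Lift 𝒪 (algebraMap R K W.Δ) 0 := ⟨h𝒪 _, h0⟩
    have hl' : ft_Lift 𝒪 (algebraMap R K W.Δ)⁻¹ (IsLocalRing.residue 𝒪 ⟨_, hΔ⟩) :=
      ft_Lift.of_mem hΔ
    have h1 := ft_Lift.congr (hl.mul hl') ft_Lift.one (mul_inv_cancel₀ hΔ0)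
    rw [zero_mul] at h1
    exact zero_ne_one h1
  obtain ⟨red, h1, h2, -, -⟩ := ft_red_exists' W 𝒪 h𝒪 hΔ'
  exact ⟨red, h1, h2⟩

end Final

end Fermat.Agent.Lib
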