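import Fermat.Agent.Lib.FrobTrace.Place
import Fermat.Agent.Lib.FrobTrace.Red

/-!
# S52 block TR, piece SPEC: specialisation of the generic point at a place above `t = x₀`.
-/

set_option autoImplicit false
set_option linter.style.haveILetI false

namespace Fermat.Agent.Lib

open WeierstrassCurve Polynomial

noncomputable section

variable {ℓ : ℕ} [Fact ℓ.Prime] (W : WeierstrassCurve (ZMod ℓ)) (k : Type*) [Field k]
  [Algebra (ZMod ℓ) k]

theorem ft_algebraMap_k (c : k) :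
    algebraMap k (ft_L W k) c = algebraMap k[X] (ft_L W k) (C c) := by
  rw [IsScalarTower.algebraMap_apply k k[X] (ft_L W k), Polynomial.algebraMap_apply,
    Algebra.algebraMap_self, RingHom.id_apply]

theorem ft_algebraMap_zmod (r : ZMod ℓ) :
    algebraMap (ZMod ℓ) (ft_L W k) r = algebraMap k[X] (ft_L W k) (C (algebraMap (ZMod ℓ) k r)) := by
  rw [IsScalarTower.algebraMap_apply (ZMod ℓ) k (ft_L W k), ft_algebraMap_k]

section place

variable {W k}
variable (𝒪 : ValuationSubring (ft_L W k)) (h1 : ∀ p : k[X], algebraMap k[X] (ft_L W k) p ∈ 𝒪)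

include h1 in
theorem ft_zmod_mem (r : ZMod ℓ) : algebraMap (ZMod ℓ) (ft_L W k) r ∈ 𝒪 := by
  rw [ft_algebraMap_zmod]; exact h1 _

include h1 in
theorem ft_k_mem (c : k) : algebraMap k (ft_L W k) c ∈ 𝒪 := by
  rw [ft_algebraMap_k]; exact h1 _

theorem ft_res_k (c : k) (hc : algebraMap k (ft_L W k) c ∈ 𝒪) :
    IsLocalRing.residue 𝒪 ⟨algebraMap k (ft_L W k) c, hc⟩ = ft_iota 𝒪 h1 c := by
  have : (⟨algebraMap k (ft_L W k) c, hc⟩ : 𝒪) = ft_toO 𝒪 h1 (C c) :=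
    Subtype.ext (ft_algebraMap_k W k c)
  rw [this]; rfl

include h1 in
/-- the `y`-coordinate of a point with integral `x`-coordinate is integral. -/
theorem ft_y_mem {x y : ft_L W k} (h : (W.baseChange (ft_L W k)).toAffine.Equation x y)
    (hx : x ∈ 𝒪) : y ∈ 𝒪 := by
  by_contra hy
  have hy' : y⁻¹ ∈ 𝒪 := (𝒪.mem_or_inv_mem y).resolve_left hy
  have hy0 : y ≠ 0 := fun h0 => hy (h0 ▸ 𝒪.zero_mem)
  rw [Affine.equation_iff] at h
  simp only [WeierstrassCurve.baseChange, WeierstrassCurve.map_a₁, WeierstrassCurve.map_a₂,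
    WeierstrassCurve.map_a₃, WeierstrassCurve.map_a₄, WeierstrassCurve.map_a₆] at h
  have e : y = (x ^ 3 + algebraMap (ZMod ℓ) (ft_L W k) W.a₂ * x ^ 2
      + algebraMap (ZMod ℓ) (ft_L W k) W.a₄ * x + algebraMap (ZMod ℓ) (ft_L W k) W.a₆) * y⁻¹
      - algebraMap (ZMod ℓ) (ft_L W k) W.a₁ * x - algebraMap (ZMod ℓ) (ft_L W k) W.a₃ := by
    field_simp
    linear_combination h
  apply hy
  rw [e]
  have m := ft_zmod_mem 𝒪 h1
  exact sub_mem (sub_mem (mul_mem (add_mem (add_mem (add_mem (pow_mem hx 3)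
    (mul_mem (m _) (pow_mem hx 2))) (mul_mem (m _) hx)) (m _)) hy') (mul_mem (m _) hx)) (m _)

include h1 in
theorem ft_Δ_inv_mem (hΔ : W.Δ ≠ 0) : (algebraMap (ZMod ℓ) (ft_L W k) W.Δ)⁻¹ ∈ 𝒪 := by
  rw [← map_inv₀]; exact ft_zmod_mem 𝒪 h1 _

variable [IsAlgClosed k]

omit [Fact (Nat.Prime ℓ)] in
/-- over an algebraically closed field there is a point above every `c`. -/
theorem ft_exists_y (V : WeierstrassCurve k) (c : k) : ∃ e : k, V.toAffine.Equation c e := by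
  let p : k[X] := X ^ 2 + C (V.a₁ * c + V.a₃) * X - C (c ^ 3 + V.a₂ * c ^ 2 + V.a₄ * c + V.a₆)
  have hp : p.degree ≠ 0 := by
    have : p.degree = 2 := by
      simp only [p]
      compute_degree!
    rw [this]; decide
  obtain ⟨e, he⟩ := IsAlgClosed.exists_root p hp
  refine ⟨e, ?_⟩
  rw [Affine.equation_iff]
  simp only [p, IsRoot.def, eval_sub, eval_add, eval_mul, eval_pow, eval_X, eval_C] at he
  linear_combination he

/-- constant points are points over `L`. -/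
theorem ft_const_equation {c e : k} (h : (W.baseChange k).toAffine.Equation c e) :
    (W.baseChange (ft_L W k)).toAffine.Equation (algebraMap k (ft_L W k) c)
      (algebraMap k (ft_L W k) e) := by
  rw [Affine.equation_iff] at h ⊢
  simp only [WeierstrassCurve.baseChange, WeierstrassCurve.map_a₁, WeierstrassCurve.map_a₂,
    WeierstrassCurve.map_a₃, WeierstrassCurve.map_a₄, WeierstrassCurve.map_a₆] at h ⊢
  simp only [IsScalarTower.algebraMap_apply (ZMod ℓ) k (ft_L W k), ← map_mul, ← map_add, ← map_pow]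
  exact congrArg _ h

include h1 in
theorem ft_hbig (hΔ : W.Δ ≠ 0)
    (F : Finset (IsLocalRing.ResidueField 𝒪 × IsLocalRing.ResidueField 𝒪)) :
    ∃ (x y : ft_L W k) (_ : (W.map (algebraMap (ZMod ℓ) (ft_L W k))).toAffine.Nonsingular x y)
      (hx : x ∈ 𝒪) (hy : y ∈ 𝒪),
      (IsLocalRing.residue 𝒪 ⟨x, hx⟩, IsLocalRing.residue 𝒪 ⟨y, hy⟩) ∉ F := by
  classical
  haveI : Infinite k := IsAlgClosed.instInfinite
  let G : Finset k := (F.image Prod.fst).preimage (ft_iota 𝒪 h1)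
    ((ft_iota_injective 𝒪 h1).injOn)
  obtain ⟨c, hc⟩ := Infinite.exists_notMem_finset G
  obtain ⟨e, he⟩ := ft_exists_y (W.baseChange k) c
  have hL := ft_const_equation he
  refine ⟨_, _, (Affine.equation_iff_nonsingular_of_Δ_ne_zero (ft_Δ_ne_zero W hΔ _)).mp hL,
    ft_k_mem 𝒪 h1 c, ft_k_mem 𝒪 h1 e, ?_⟩
  intro hmem
  apply hc
  rw [Finset.mem_preimage, Finset.mem_image]
  refine ⟨_, hmem, ?_⟩
  exact ft_res_k 𝒪 h1 c _

end place

section main

variable [DecidableEq k]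

/-- the point `c₂ Φ²P0 + c₁ ΦP0 + c₀ P0` over the function field. -/
def ft_S (hΔ : W.Δ ≠ 0) (c₀ c₁ c₂ : ℤ) : (W.baseChange (ft_L W k)).toAffine.Point :=
  c₂ • ft_frob W (ft_L W k) (ft_frob W (ft_L W k) (ft_P0 W k hΔ))
    + c₁ • ft_frob W (ft_L W k) (ft_P0 W k hΔ) + c₀ • ft_P0 W k hΔ

/-- the endomorphism `c₂ φ² + c₁ φ + c₀` of `W(k)`. -/
def ft_psi (c₀ c₁ c₂ : ℤ) : (W.baseChange k).toAffine.Point →+ (W.baseChange k).toAffine.Point :=
  c₂ • ((ft_frob W k).comp (ft_frob W k)) + c₁ • ft_frob W k + c₀ • AddMonoidHom.id _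

theorem ft_psi_apply (c₀ c₁ c₂ : ℤ) (P : (W.baseChange k).toAffine.Point) :
    ft_psi W k c₀ c₁ c₂ P = c₂ • ft_frob W k (ft_frob W k P) + c₁ • ft_frob W k P + c₀ • P := by
  simp [ft_psi]

theorem ft_S_mem_odd (hΔ : W.Δ ≠ 0) (c₀ c₁ c₂ : ℤ) : ft_S W k hΔ c₀ c₁ c₂ ∈ ft_odd W k := by
  have h0 := ft_P0_mem_odd W k hΔ
  have h1 := ft_frob_mem_odd W k h0
  have h2 := ft_frob_mem_odd W k h1
  exact add_mem (add_mem ((ft_odd W k).zsmul_mem h2 _) ((ft_odd W k).zsmul_mem h1 _))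
    ((ft_odd W k).zsmul_mem h0 _)

section compat

variable {W k}
variable (𝒪 : ValuationSubring (ft_L W k)) (h1 : ∀ p : k[X], algebraMap k[X] (ft_L W k) p ∈ 𝒪)
variable [DecidableEq (IsLocalRing.ResidueField 𝒪)]
variable (red : (W.baseChange (ft_L W k)).toAffine.Point →+
    (W.map (ft_resHom 𝒪 (ft_zmod_mem 𝒪 h1))).toAffine.Point)
  (hred1 : ∀ (x y : ft_L W k) (h : (W.baseChange (ft_L W k)).toAffine.Nonsingular x y)
      (hx : x ∈ 𝒪) (hy : y ∈ 𝒪),
        ∃ h' : (W.map (ft_resHom 𝒪 (ft_zmod_mem 𝒪 h1))).toAffine.Nonsingular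
            (IsLocalRing.residue 𝒪 ⟨x, hx⟩) (IsLocalRing.residue 𝒪 ⟨y, hy⟩),
          red (.some x y h) = .some _ _ h')
  (hred2 : ∀ (x y : ft_L W k) (h : (W.baseChange (ft_L W k)).toAffine.Nonsingular x y), x ∉ 𝒪 →
          red (.some x y h) = 0)
  (m : (W.baseChange k).toAffine.Point →+ (W.map (ft_resHom 𝒪 (ft_zmod_mem 𝒪 h1))).toAffine.Point)
  (hm : ∀ (x y : k) (h : (W.baseChange k).toAffine.Nonsingular x y),
        ∃ h' : (W.map (ft_resHom 𝒪 (ft_zmod_mem 𝒪 h1))).toAffine.Nonsingular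
          (ft_iota 𝒪 h1 x) (ft_iota 𝒪 h1 y), m (.some x y h) = .some _ _ h')
  (φκ : (W.map (ft_resHom 𝒪 (ft_zmod_mem 𝒪 h1))).toAffine.Point →+
    (W.map (ft_resHom 𝒪 (ft_zmod_mem 𝒪 h1))).toAffine.Point)
  (hφκ : ∀ (x y : IsLocalRing.ResidueField 𝒪)
      (h : (W.map (ft_resHom 𝒪 (ft_zmod_mem 𝒪 h1))).toAffine.Nonsingular x y),
        ∃ h' : (W.map (ft_resHom 𝒪 (ft_zmod_mem 𝒪 h1))).toAffine.Nonsingular (x ^ ℓ) (y ^ ℓ),
          φκ (.some x y h) = .some _ _ h')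

omit [DecidableEq k] in
include hred1 hred2 hφκ in
theorem ft_red_frob (S : (W.baseChange (ft_L W k)).toAffine.Point) :
    red (ft_frob W (ft_L W k) S) = φκ (red S) := by
  rcases S with _ | ⟨x, y, h⟩
  · change red (ft_frob W (ft_L W k) 0) = φκ (red 0)
    simp
  · obtain ⟨h', e⟩ := ft_frob_some W (ft_L W k) h
    rw [e]
    by_cases hx : x ∈ 𝒪
    · have hy : y ∈ 𝒪 := ft_y_mem 𝒪 h1 h.1 hx
      obtain ⟨g1, e1⟩ := hred1 x y h hx hy
      obtain ⟨g2, e2⟩ := hred1 (x ^ ℓ) (y ^ ℓ) h' (pow_mem hx ℓ) (pow_mem hy ℓ)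
      obtain ⟨g3, e3⟩ := hφκ _ _ g1
      rw [e1, e2, e3]
      rfl
    · have hx' : x ^ ℓ ∉ 𝒪 := by
        intro hmem
        apply hx
        have hinv : x⁻¹ ∈ 𝒪 := (𝒪.mem_or_inv_mem x).resolve_left hx
        have hx0 : x ≠ 0 := fun h0 => hx (h0 ▸ 𝒪.zero_mem)
        have hℓ : 1 ≤ ℓ := (Fact.out : ℓ.Prime).one_le
        have : x = x ^ ℓ * x⁻¹ ^ (ℓ - 1) := by
          rw [inv_pow, ← div_eq_mul_inv, eq_div_iff (pow_ne_zero _ hx0), ← pow_succ']
          congr 1; omega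
        rw [this]
        exact mul_mem hmem (pow_mem hinv _)
      rw [hred2 x y h hx, hred2 _ _ h' hx', map_zero]

include hm hφκ in
theorem ft_m_frob (P : (W.baseChange k).toAffine.Point) :
    m (ft_frob W k P) = φκ (m P) := by
  rcases P with _ | ⟨x, y, h⟩
  · change m (ft_frob W k 0) = φκ (m 0)
    simp
  · obtain ⟨h', e⟩ := ft_frob_some W k h
    obtain ⟨g1, e1⟩ := hm x y h
    obtain ⟨g2, e2⟩ := hm _ _ h'
    obtain ⟨g3, e3⟩ := hφκ _ _ g1
    rw [e, e1, e2, e3]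
    congr 1 <;> exact map_pow _ _ _

variable {x₀ : k} (h2 : algebraMap k[X] (ft_L W k) (X - C x₀) ∈ 𝒪.nonunits)

include hred1 hm h2 in
theorem ft_red_P0 (hΔ : W.Δ ≠ 0) {y₀ : k} (h : (W.baseChange k).toAffine.Nonsingular x₀ y₀) :
    ∃ P' : (W.baseChange k).toAffine.Point,
      (P' = .some x₀ y₀ h ∨ P' = -.some x₀ y₀ h) ∧ red (ft_P0 W k hΔ) = m P' := by
  have ht : ft_t W k ∈ 𝒪 := by rw [ft_t_eq]; exact h1 _
  have hs : ft_s W k ∈ 𝒪 := ft_y_mem 𝒪 h1 (ft_equation W k) ht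
  obtain ⟨g, e⟩ := hred1 _ _ (ft_nonsingular W k hΔ) ht hs
  obtain ⟨g', e'⟩ := hm x₀ y₀ h
  have hx : IsLocalRing.residue 𝒪 ⟨ft_t W k, ht⟩ = ft_iota 𝒪 h1 x₀ := by
    have e1 : (⟨ft_t W k, ht⟩ : 𝒪) = ft_toO 𝒪 h1 X := Subtype.ext (ft_t_eq W k)
    rw [e1]
    have := ft_resP_eq 𝒪 h1 h2 X
    rw [eval_X] at this
    exact this
  rcases (Affine.Point.X_eq_iff (h₁ := g) (h₂ := g')).mp hx with e2 | e2
  · exact ⟨_, Or.inl rfl, by rw [ft_P0, e, e2, e']⟩
  · exact ⟨_, Or.inr rfl, by rw [ft_P0, e, e2, map_neg, e']⟩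

include hred1 hred2 hm hφκ in
theorem ft_red_S (hΔ : W.Δ ≠ 0) (c₀ c₁ c₂ : ℤ) (P' : (W.baseChange k).toAffine.Point)
    (hP' : red (ft_P0 W k hΔ) = m P') :
    red (ft_S W k hΔ c₀ c₁ c₂) = m (ft_psi W k c₀ c₁ c₂ P') := by
  rw [ft_S, ft_psi_apply, map_add, map_add, map_zsmul, map_zsmul, map_zsmul, map_add, map_add,
    map_zsmul, map_zsmul, map_zsmul, ft_red_frob 𝒪 h1 red hred1 hred2 φκ hφκ,
    ft_red_frob 𝒪 h1 red hred1 hred2 φκ hφκ, hP', ft_m_frob 𝒪 h1 m hm φκ hφκ,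
    ft_m_frob 𝒪 h1 m hm φκ hφκ]

end compat

/-- **SPEC**: pointwise description of `ψ = c₂φ² + c₁φ + c₀` on `W(k)` by the `x`-coordinate `u/v` of the
point `c₂Φ²P0 + c₁ΦP0 + c₀P0` over the function field. -/
theorem ft_spec [IsAlgClosed k] (hΔ : W.Δ ≠ 0) (c₀ c₁ c₂ : ℤ) (u v : k[X])
    (hr : ft_isXRatio (ft_S W k hΔ c₀ c₁ c₂) u v) (x₀ y₀ : k)
    (h : (W.baseChange k).toAffine.Nonsingular x₀ y₀) :
    (v.eval x₀ = 0 → ft_psi W k c₀ c₁ c₂ (.some x₀ y₀ h) = 0) ∧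
    (v.eval x₀ ≠ 0 → ∃ (y' : k) (h' : (W.baseChange k).toAffine.Nonsingular (u.eval x₀ / v.eval x₀) y'),
        ft_psi W k c₀ c₁ c₂ (.some x₀ y₀ h) = .some _ y' h') := by
  classical
  obtain ⟨𝒪, h1, h2⟩ := ft_exists_place W k x₀
  obtain ⟨red, hred1, hred2⟩ := ft_red_exists W 𝒪 (ft_zmod_mem 𝒪 h1)
    ((map_ne_zero (algebraMap (ZMod ℓ) (ft_L W k))).2 hΔ) (ft_Δ_inv_mem 𝒪 h1 hΔ)
    (ft_hbig 𝒪 h1 hΔ)
  obtain ⟨m, hminj, hm⟩ := ft_ptMap W (algebraMap (ZMod ℓ) k) (ft_resHom 𝒪 (ft_zmod_mem 𝒪 h1))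
    (ft_iota 𝒪 h1) (Subsingleton.elim _ _)
  obtain ⟨φκ, hφκ⟩ := ft_frobMap W (ft_resHom 𝒪 (ft_zmod_mem 𝒪 h1))
  obtain ⟨P', hP', hP0⟩ := ft_red_P0 𝒪 h1 red hred1 m hm h2 hΔ h
  have hS := ft_red_S 𝒪 h1 red hred1 hred2 m hm φκ hφκ hΔ c₀ c₁ c₂ P' hP0
  have hm0 : ∀ Q, m Q = 0 → Q = 0 := fun Q hQ => hminj (by rw [hQ, map_zero])
  -- the claim for `P'`
  have claim : (v.eval x₀ = 0 → ft_psi W k c₀ c₁ c₂ P' = 0) ∧
      (v.eval x₀ ≠ 0 → ∃ (y' : k)
        (h' : (W.baseChange k).toAffine.Nonsingular (u.eval x₀ / v.eval x₀) y'),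
        ft_psi W k c₀ c₁ c₂ P' = .some _ y' h') := by
    obtain ⟨hc, he⟩ := hr
    have hru := ft_resP_eq 𝒪 h1 h2 u
    have hrv := ft_resP_eq 𝒪 h1 h2 v
    rcases hSeq : ft_S W k hΔ c₀ c₁ c₂ with _ | ⟨x, y, hxy⟩
    · rw [hSeq] at he hS
      have hv0 : v = 0 := by
        change (0 : (W.baseChange (ft_L W k)).toAffine.Point).xRep 0 * _ =
          (0 : (W.baseChange (ft_L W k)).toAffine.Point).xRep 1 * _ at he
        simp only [Affine.Point.xRep_zero, Matrix.cons_val_zero, Matrix.cons_val_one, one_mul,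
          zero_mul] at he
        exact ft_algebraMap_injective W k (by rw [he, map_zero])
      constructor
      · intro _
        apply hm0
        exact hS.symm.trans (map_zero red)
      · intro hne
        exact absurd (by rw [hv0, eval_zero]) hne
    · rw [hSeq] at he hS
      simp only [Affine.Point.xRep_some, Matrix.cons_val_zero, Matrix.cons_val_one, one_mul] at he
      have key : ∀ hx : x ∈ 𝒪, IsLocalRing.residue 𝒪 ⟨x, hx⟩ * ft_iota 𝒪 h1 (v.eval x₀)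
          = ft_iota 𝒪 h1 (u.eval x₀) := by
        intro hx
        have e1 : (⟨x, hx⟩ : 𝒪) * ft_toO 𝒪 h1 v = ft_toO 𝒪 h1 u := Subtype.ext he
        have e2 := congrArg (IsLocalRing.residue 𝒪) e1
        rw [map_mul] at e2
        rw [← hru, ← hrv]
        exact e2
      constructor
      · intro hv
        have hx : x ∉ 𝒪 := by
          intro hx
          have e := key hx
          rw [hv, map_zero, mul_zero] at e
          have hu : u.eval x₀ = 0 := ft_iota_injective 𝒪 h1 (by rw [← e, map_zero])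
          obtain ⟨a, b, hab⟩ := hc
          have := congrArg (eval x₀) hab
          simp [hu, hv] at this
        apply hm0
        exact hS.symm.trans (hred2 x y hxy hx)
      · intro hv
        have hιv : ft_iota 𝒪 h1 (v.eval x₀) ≠ 0 := by
          rw [Ne, map_eq_zero]; exact hv
        have hunit : IsUnit (ft_toO 𝒪 h1 v) := by
          have : ft_toO 𝒪 h1 v ∉ IsLocalRing.maximalIdeal 𝒪 := by
            rw [← IsLocalRing.residue_eq_zero_iff]
            change ft_resP 𝒪 h1 v ≠ 0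
            rw [hrv]; exact hιv
          exact IsLocalRing.notMem_maximalIdeal.mp this
        obtain ⟨w, hw⟩ := hunit.exists_right_inv
        have hw' : algebraMap k[X] (ft_L W k) v * (w : ft_L W k) = 1 := congrArg Subtype.val hw
        have hx : x ∈ 𝒪 := by
          have : x = algebraMap k[X] (ft_L W k) u * (w : ft_L W k) := by
            rw [← he, mul_assoc, hw', mul_one]
          rw [this]
          exact mul_mem (h1 u) w.2
        have hy : y ∈ 𝒪 := ft_y_mem 𝒪 h1 hxy.1 hx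
        obtain ⟨g, e⟩ := hred1 x y hxy hx hy
        have hresx : IsLocalRing.residue 𝒪 ⟨x, hx⟩ = ft_iota 𝒪 h1 (u.eval x₀ / v.eval x₀) := by
          rw [map_div₀, eq_div_iff hιv]
          exact key hx
        have hS' := e.symm.trans hS
        rcases hψ : ft_psi W k c₀ c₁ c₂ P' with _ | ⟨x', y', h'⟩
        · have hS2 := hS'.trans ((congrArg m hψ).trans (map_zero m))
          exact absurd hS2 (Affine.Point.some_ne_zero g)
        · obtain ⟨g', e'⟩ := hm x' y' h'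
          have hS2 := hS'.trans ((congrArg m hψ).trans e')
          injection hS2 with hS1 hS2
          have hx' : x' = u.eval x₀ / v.eval x₀ :=
            ft_iota_injective 𝒪 h1 (by rw [← hS1, hresx])
          subst hx'
          exact ⟨y', h', rfl⟩
  -- transfer from `P'` to `P`
  rcases hP' with rfl | rfl
  · exact claim
  · constructor
    · intro hv
      have := claim.1 hv
      rw [map_neg, neg_eq_zero] at this
      exact this
    · intro hv
      obtain ⟨y', h', e⟩ := claim.2 hv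
      rw [map_neg, neg_eq_iff_eq_neg] at e
      rw [e, Affine.Point.neg_some]
      exact ⟨_, _, rfl⟩

end main

end

end Fermat.Agent.Lib
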